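import Fermat.Agent.RatStr.MatrixDecomp
import Fermat.Prelude.Def_ModularForm_HeckeOperator

set_option autoImplicit false

/-!
# Upper triangular matrices acting on the upper half plane
-/

namespace Fermat.Agent.RatStr

open UpperHalfPlane ModularForm
open scoped MatrixGroups ModularForm

noncomputable section

/-- upper triangular matrix with positive diagonal. -/
def utGL (a b d : ℝ) (ha : 0 < a) (hd : 0 < d) : GL (Fin 2) ℝ :=
  upperTriangularGL a b d (mul_pos ha hd).ne'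

variable {a b d : ℝ} (ha : 0 < a) (hd : 0 < d)

@[simp] theorem val_utGL :
    ((utGL a b d ha hd : GL (Fin 2) ℝ) : Matrix (Fin 2) (Fin 2) ℝ) = !![a, b; 0, d] := rfl

theorem det_utGL : ((utGL a b d ha hd).det : ℝ) = a * d := by
  rw [Matrix.GeneralLinearGroup.val_det_apply, val_utGL, Matrix.det_fin_two_of]
  ring

theorem det_utGL_pos : 0 < ((utGL a b d ha hd).det : ℝ) := by
  rw [det_utGL]; exact mul_pos ha hd

theorem denom_utGL (τ : ℍ) : denom (utGL a b d ha hd) τ = d := by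
  simp [denom, val_utGL]

theorem coe_utGL_smul (τ : ℍ) :
    ((utGL a b d ha hd • τ : ℍ) : ℂ) = ((a : ℂ) * τ + b) / d := by
  rw [coe_smul_of_det_pos (det_utGL_pos ha hd)]
  simp [num, denom, val_utGL]

theorem im_utGL_smul (τ : ℍ) : (utGL a b d ha hd • τ : ℍ).im = a / d * τ.im := by
  have h := coe_utGL_smul ha hd (b := b) τ
  have h2 : (utGL a b d ha hd • τ : ℍ).im = (((a : ℂ) * τ + b) / d).im := by
    rw [← h]; rfl
  rw [h2]
  have : ((a : ℂ) * τ + b) / d = (((a / d : ℝ) : ℂ) * τ + ((b / d : ℝ) : ℂ)) := by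
    push_cast
    have : (d : ℂ) ≠ 0 := by exact_mod_cast hd.ne'
    field_simp
  rw [this]
  simp

theorem σ_utGL : σ (utGL a b d ha hd) = .refl ℝ ℂ := by
  rw [σ, if_pos (det_utGL_pos ha hd)]

theorem slash_utGL_apply (k : ℤ) (f : ℍ → ℂ) (τ : ℍ) :
    (f ∣[k] utGL a b d ha hd) τ =
      f (utGL a b d ha hd • τ) * ((a * d : ℝ) : ℂ) ^ (k - 1) * (d : ℂ) ^ (-k) := by
  rw [ModularForm.slash_apply, σ_utGL, det_utGL, denom_utGL]
  simp only [ContinuousAlgEquiv.refl_apply]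
  rw [abs_of_pos (mul_pos ha hd)]

theorem tendsto_utGL_smul_atImInfty :
    Filter.Tendsto (fun τ : ℍ => utGL a b d ha hd • τ) atImInfty atImInfty :=
  tendsto_smul_atImInfty (by simp [val_utGL])

/-- the matrix identity in `GL(2, ℝ)`. -/
theorem exists_decomp_GL (N : ℕ) (hN : 0 < N) (γ : SL(2, ℤ)) :
    ∃ (δ : SL(2, ℤ)) (a b d : ℤ) (ha : 0 < (a : ℝ)) (hd : 0 < (d : ℝ)),
      0 < a ∧ 0 < d ∧ a * d = N ∧ (d = 1 → (N : ℤ) ∣ γ 1 0) ∧
      utGL (N : ℝ) 0 1 (by exact_mod_cast hN) one_pos * (γ : GL (Fin 2) ℝ) =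
        (δ : GL (Fin 2) ℝ) * utGL a b d ha hd := by
  obtain ⟨δ, a, b, d, ha, hd, had, hdiv, h00, h01, h10, h11⟩ := exists_decomp N hN γ
  refine ⟨δ, a, b, d, by exact_mod_cast ha, by exact_mod_cast hd, ha, hd, had, hdiv, ?_⟩
  apply Units.ext
  rw [Units.val_mul, Units.val_mul]
  have e1 : ((γ : GL (Fin 2) ℝ) : Matrix (Fin 2) (Fin 2) ℝ) =
      (γ : Matrix (Fin 2) (Fin 2) ℤ).map (algebraMap ℤ ℝ) :=
    Matrix.SpecialLinearGroup.mapGL_coe_matrix γ
  have e2 : ((δ : GL (Fin 2) ℝ) : Matrix (Fin 2) (Fin 2) ℝ) =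
      (δ : Matrix (Fin 2) (Fin 2) ℤ).map (algebraMap ℤ ℝ) :=
    Matrix.SpecialLinearGroup.mapGL_coe_matrix δ
  rw [e1, e2, val_utGL, val_utGL]
  have h00' : (N : ℝ) * (γ 0 0 : ℝ) = (δ 0 0 : ℝ) * a := by exact_mod_cast h00
  have h01' : (N : ℝ) * (γ 0 1 : ℝ) = (δ 0 0 : ℝ) * b + (δ 0 1 : ℝ) * d := by exact_mod_cast h01
  have h10' : (γ 1 0 : ℝ) = (δ 1 0 : ℝ) * a := by exact_mod_cast h10
  have h11' : (γ 1 1 : ℝ) = (δ 1 0 : ℝ) * b + (δ 1 1 : ℝ) * d := by exact_mod_cast h11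
  ext i j
  fin_cases i <;> fin_cases j <;>
    simp [Matrix.mul_apply, Fin.sum_univ_two, h00', h01', h10', h11']

end

end Fermat.Agent.RatStr
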