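import Mathlib
import Fermat.Prelude.Def_ModularForm_HeckeOperator
import Fermat.Agent.S22.Hermite

/-!
# The unit `u_N(z) = Δ(Nz)/Δ(z)` and its stabiliser

`u_N` is a `Γ₀(N)`-invariant, holomorphic, nowhere vanishing function on `ℍ` with integral
`q`-expansion.  We prove that its stabiliser in `SL(2, ℤ)` is exactly `Γ₀(N)`; hence its
`SL(2, ℤ)`-conjugates are pairwise distinct and `u_N` is a primitive element of the function field
of `X₀(N)` over the level one function field.
-/

set_option autoImplicit false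

namespace Fermat.Agent.RatStr

open Complex UpperHalfPlane ModularForm CongruenceSubgroup Filter Topology
open scoped MatrixGroups

local notation "Δ" => ModularForm.discriminant

/-- Two-sided exponential bounds for the discriminant near `i∞`. -/
theorem exists_discriminant_bounds :
    ∃ A : ℝ, ∀ w : ℍ, A ≤ w.im →
      (1 / 2 : ℝ) * Real.exp (-2 * Real.pi * w.im) ≤ ‖Δ w‖ ∧
      ‖Δ w‖ ≤ (3 / 2 : ℝ) * Real.exp (-2 * Real.pi * w.im) := by
  have hprod := ModularForm.tendsto_atImInfty_tprod_one_sub_eta_q_pow.eventually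
    (Metric.ball_mem_nhds 1 (by norm_num : (0 : ℝ) < 1 / 2))
  rw [Filter.Eventually, UpperHalfPlane.atImInfty_mem] at hprod
  obtain ⟨A, hA⟩ := hprod
  refine ⟨A, fun w hw => ?_⟩
  have hτ := hA w hw
  have hq_norm : ‖Function.Periodic.qParam 1 (w : ℂ)‖ = Real.exp (-2 * Real.pi * w.im) := by
    simp [Function.Periodic.qParam, Complex.norm_exp]
  have hsub : ‖(∏' n, (1 - ModularForm.eta_q n w) ^ 24) - 1‖ < 1 / 2 := by
    have : dist (∏' n, (1 - ModularForm.eta_q n w) ^ 24) 1 < 1 / 2 := hτ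
    rwa [Complex.dist_eq] at this
  have h1 := norm_sub_norm_le 1 (∏' n, (1 - ModularForm.eta_q n w) ^ 24)
  have h2 := norm_sub_norm_le (∏' n, (1 - ModularForm.eta_q n w) ^ 24) 1
  rw [norm_one] at h1 h2
  rw [norm_sub_rev] at h1
  have hlow : 1 / 2 ≤ ‖∏' n, (1 - ModularForm.eta_q n w) ^ 24‖ := by linarith
  have hup : ‖∏' n, (1 - ModularForm.eta_q n w) ^ 24‖ ≤ 3 / 2 := by linarith
  rw [ModularForm.discriminant_eq_q_prod, norm_mul, hq_norm]
  have hexp := (Real.exp_pos (-2 * Real.pi * w.im)).le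
  constructor
  · nlinarith
  · nlinarith


/-- The transformation law of the discriminant under `SL(2, ℤ)`. -/
theorem discriminant_SL_smul (γ : SL(2, ℤ)) (z : ℍ) :
    Δ (γ • z) = denom γ z ^ 12 * Δ z := by
  have h := congrFun
    (SlashInvariantForm.slash_action_generators_SL2Z discriminant_S_invariant
      discriminant_T_invariant γ) z
  rw [ModularForm.SL_slash_apply] at h
  have hne : denom γ z ≠ 0 := denom_ne_zero γ z
  rw [zpow_neg, mul_inv_eq_iff_eq_mul₀ (zpow_ne_zero _ hne)] at h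
  rw [h, mul_comm]
  norm_cast

/-- The unit `u_N(z) = Δ(Nz)/Δ(z)`. -/
noncomputable def unitU (N : ℕ) (z : ℍ) : ℂ :=
  Δ (ModularForm.heckeDiagMatrix N • z) / Δ z

theorem unitU_ne_zero (N : ℕ) (z : ℍ) : unitU N z ≠ 0 :=
  div_ne_zero (discriminant_ne_zero _) (discriminant_ne_zero _)


theorem σ_mapGL (γ : SL(2, ℤ)) :
    UpperHalfPlane.σ (Matrix.SpecialLinearGroup.mapGL ℝ γ : GL (Fin 2) ℝ) = .refl ℝ ℂ := by
  rw [UpperHalfPlane.σ, if_pos]
  simp

theorem det_upperTriangularGL (a b d : ℝ) (had : a * d ≠ 0) :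
    ((ModularForm.upperTriangularGL a b d had).det : ℝ) = a * d := by
  rw [Matrix.GeneralLinearGroup.val_det_apply, ModularForm.val_upperTriangularGL,
    Matrix.det_fin_two_of]
  ring

theorem σ_upperTriangularGL {a b d : ℝ} (ha : 0 < a) (hd : 0 < d) (had : a * d ≠ 0) :
    UpperHalfPlane.σ (ModularForm.upperTriangularGL a b d had) = .refl ℝ ℂ := by
  rw [UpperHalfPlane.σ, if_pos]
  rw [det_upperTriangularGL]
  exact mul_pos ha hd

theorem denom_upperTriangularGL (a b d : ℝ) (had : a * d ≠ 0) (z : ℍ) :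
    denom (ModularForm.upperTriangularGL a b d had) z = d := by
  simp [denom, ModularForm.val_upperTriangularGL]

/-- The `SL(2, ℤ)`-conjugates of `u_N` in terms of the Hermite normal form of `(N 0; 0 1) γ`. -/
theorem unitU_SL_smul {N : ℕ} (hN : N ≠ 0) (γ g' : SL(2, ℤ)) {a b d : ℝ} (ha : 0 < a)
    (hd : 0 < d) (had : a * d ≠ 0)
    (h : ModularForm.heckeDiagMatrix N * (Matrix.SpecialLinearGroup.mapGL ℝ γ : GL (Fin 2) ℝ) =
      (Matrix.SpecialLinearGroup.mapGL ℝ g' : GL (Fin 2) ℝ) *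
        ModularForm.upperTriangularGL a b d had) (z : ℍ) :
    unitU N (γ • z) =
      ((d : ℂ) ^ 12)⁻¹ * (Δ (ModularForm.upperTriangularGL a b d had • z) / Δ z) := by
  have hsmul : ModularForm.heckeDiagMatrix N • (γ • z) =
      g' • (ModularForm.upperTriangularGL a b d had • z) := by
    rw [ModularGroup.sl_moeb, ModularGroup.sl_moeb, ← mul_smul, ← mul_smul]
    exact congrArg (· • z) h
  have hden : denom γ z =
      denom g' ((ModularForm.upperTriangularGL a b d had • z : ℍ) : ℂ) * d := by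
    have h1 := UpperHalfPlane.denom_cocycle_σ (ModularForm.heckeDiagMatrix N)
      (Matrix.SpecialLinearGroup.mapGL ℝ γ : GL (Fin 2) ℝ) z
    have h2 := UpperHalfPlane.denom_cocycle_σ (Matrix.SpecialLinearGroup.mapGL ℝ g' : GL (Fin 2) ℝ)
      (ModularForm.upperTriangularGL a b d had) z
    rw [σ_mapGL, ModularForm.denom_heckeDiagMatrix hN] at h1
    rw [σ_upperTriangularGL ha hd, denom_upperTriangularGL] at h2
    simp only [ContinuousAlgEquiv.refl_apply, one_mul] at h1 h2
    exact h1.symm.trans ((congrArg (fun M => denom M (z : ℂ)) h).trans h2)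
  have hd' : (d : ℂ) ≠ 0 := by exact_mod_cast hd.ne'
  have hne : denom g' ((ModularForm.upperTriangularGL a b d had • z : ℍ) : ℂ) ≠ 0 :=
    denom_ne_zero _ _
  rw [unitU, hsmul, discriminant_SL_smul, discriminant_SL_smul, hden]
  have hΔ := discriminant_ne_zero z
  field_simp


theorem im_upperTriangularGL_smul {a b d : ℝ} (ha : 0 < a) (hd : 0 < d) (had : a * d ≠ 0)
    (u : ℍ) : (ModularForm.upperTriangularGL a b d had • u : ℍ).im = a / d * u.im := by
  have hpos : 0 < ((ModularForm.upperTriangularGL a b d had).det : ℝ) := by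
    rw [det_upperTriangularGL]; exact mul_pos ha hd
  have hcoe : ((ModularForm.upperTriangularGL a b d had • u : ℍ) : ℂ) =
      ((a / d : ℝ) : ℂ) * (u : ℂ) + ((b / d : ℝ) : ℂ) := by
    rw [UpperHalfPlane.coe_smul_of_det_pos hpos]
    have hd' : (d : ℂ) ≠ 0 := by exact_mod_cast hd.ne'
    simp only [num, denom, ModularForm.val_upperTriangularGL, Matrix.of_apply, Matrix.cons_val',
      Matrix.cons_val_zero, Matrix.cons_val_fin_one, Matrix.cons_val_one, ofReal_zero, zero_mul,
      zero_add]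
    push_cast
    field_simp
  have := congrArg Complex.im hcoe
  rw [UpperHalfPlane.coe_im] at this
  rw [this]
  simp

theorem im_heckeDiagMatrix_smul {N : ℕ} (hN : N ≠ 0) (u : ℍ) :
    (ModularForm.heckeDiagMatrix N • u : ℍ).im = N * u.im := by
  have := congrArg Complex.im (ModularForm.coe_heckeDiagMatrix_smul hN u)
  rw [UpperHalfPlane.coe_im] at this
  rw [this]
  simp

/-- Growth comparison: if `Δ((a z + b)/d) = c Δ(N z)` identically, with `a d = N`, then `d ≤ 1`. -/
theorem le_one_of_discriminant_smul_eq {N : ℕ} (hN : N ≠ 0) {a b d : ℝ} (ha : 0 < a) (hd : 0 < d)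
    (had : a * d ≠ 0) (hadN : a * d = N) (c : ℂ)
    (h : ∀ z : ℍ, Δ (ModularForm.upperTriangularGL a b d had • z) =
      c * Δ (ModularForm.heckeDiagMatrix N • z)) : d ≤ 1 := by
  by_contra hd1
  rw [not_le] at hd1
  have hNpos : (0 : ℝ) < N := by exact_mod_cast Nat.pos_of_ne_zero hN
  have hε : 0 < (N : ℝ) - a / d := by
    rw [← hadN, sub_pos, div_lt_iff₀ hd]
    nlinarith
  obtain ⟨A, hA⟩ := exists_discriminant_bounds
  have hadpos : 0 < a / d := div_pos ha hd
  -- choose `y` large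
  set y : ℝ := max (max (A / (a / d)) (A / N)) (max 1 ((3 * ‖c‖ + 1) / (2 * Real.pi * (N - a / d))))
    with hy
  have hy1 : 1 ≤ y := le_trans (le_max_left _ _) (le_max_right _ _)
  have hypos : 0 < y := lt_of_lt_of_le one_pos hy1
  have hyA1 : A / (a / d) ≤ y := le_trans (le_max_left _ _) (le_max_left _ _)
  have hyA2 : A / N ≤ y := le_trans (le_max_right _ _) (le_max_left _ _)
  have hyc : (3 * ‖c‖ + 1) / (2 * Real.pi * (N - a / d)) ≤ y :=
    le_trans (le_max_right _ _) (le_max_right _ _)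
  set z : ℍ := ⟨⟨0, y⟩, hypos⟩ with hz
  have hzim : z.im = y := rfl
  have h1 := (hA (ModularForm.upperTriangularGL a b d had • z) (by
    rw [im_upperTriangularGL_smul ha hd, hzim]
    rwa [div_le_iff₀' hadpos] at hyA1)).1
  have h2 := (hA (ModularForm.heckeDiagMatrix N • z) (by
    rw [im_heckeDiagMatrix_smul hN, hzim]
    rwa [div_le_iff₀' hNpos] at hyA2)).2
  rw [im_upperTriangularGL_smul ha hd, hzim] at h1
  rw [im_heckeDiagMatrix_smul hN, hzim] at h2
  rw [h z, norm_mul] at h1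
  have h3 : (1 / 2 : ℝ) * Real.exp (-2 * Real.pi * (a / d * y)) ≤
      ‖c‖ * ((3 / 2 : ℝ) * Real.exp (-2 * Real.pi * (N * y))) :=
    h1.trans (mul_le_mul_of_nonneg_left h2 (norm_nonneg c))
  have h4 : Real.exp (2 * Real.pi * ((N - a / d) * y)) ≤ 3 * ‖c‖ := by
    have he : Real.exp (2 * Real.pi * ((N - a / d) * y)) =
        Real.exp (-2 * Real.pi * (a / d * y)) * Real.exp (2 * Real.pi * (N * y)) := by
      rw [← Real.exp_add]
      congr 1
      ring
    have he2 : Real.exp (-2 * Real.pi * (N * y)) * Real.exp (2 * Real.pi * (N * y)) = 1 := by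
      rw [← Real.exp_add]
      have : -2 * Real.pi * (N * y) + 2 * Real.pi * (N * y) = 0 := by ring
      rw [this, Real.exp_zero]
    have hpos := Real.exp_pos (2 * Real.pi * (N * y))
    rw [he]
    have := mul_le_mul_of_nonneg_right h3 hpos.le
    have h5 : ‖c‖ * ((3 / 2 : ℝ) * Real.exp (-2 * Real.pi * (N * y))) *
        Real.exp (2 * Real.pi * (N * y)) = 3 / 2 * ‖c‖ := by
      rw [mul_assoc, mul_assoc, he2]
      ring
    rw [h5] at this
    linarith
  have h6 : 3 * ‖c‖ + 1 ≤ 2 * Real.pi * ((N - a / d) * y) := by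
    have hpos : 0 < 2 * Real.pi * (N - a / d) := by positivity
    rw [div_le_iff₀' hpos] at hyc
    linarith
  have h7 := Real.add_one_le_exp (2 * Real.pi * ((N - a / d) * y))
  linarith


/-- **The stabiliser of `u_N` in `SL(2, ℤ)` is `Γ₀(N)`** (the nontrivial inclusion). -/
theorem mem_Gamma0_of_unitU_smul_eq {N : ℕ} (hN : N ≠ 0) (γ : SL(2, ℤ))
    (h : ∀ z : ℍ, unitU N (γ • z) = unitU N z) : γ ∈ Gamma0 N := by
  obtain ⟨g', a, b, d, had, ha, hd, hadN, hH⟩ := S22.exists_hermite_heckeDiagMatrix hN γ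
  have haR : (0 : ℝ) < a := by exact_mod_cast ha
  have hdR : (0 : ℝ) < d := by exact_mod_cast hd
  have hadNR : (a : ℝ) * (d : ℝ) = (N : ℝ) := by exact_mod_cast hadN
  have key : ∀ z : ℍ, Δ (ModularForm.upperTriangularGL a b d had • z) =
      ((d : ℝ) : ℂ) ^ 12 * Δ (ModularForm.heckeDiagMatrix N • z) := by
    intro z
    have h1 := unitU_SL_smul hN γ g' haR hdR had hH z
    rw [h z, unitU] at h1
    have hΔ := discriminant_ne_zero z
    have hd' : ((d : ℝ) : ℂ) ≠ 0 := by exact_mod_cast hdR.ne'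
    field_simp at h1
    rw [← h1, mul_comm]
  have hd1 : (d : ℝ) ≤ 1 := le_one_of_discriminant_smul_eq hN haR hdR had hadNR _ key
  have hd1' : d = 1 := by
    have : d ≤ 1 := by exact_mod_cast hd1
    omega
  have haN : a = N := by rw [hd1', mul_one] at hadN; exact hadN
  have hentry := congrArg (fun M : GL (Fin 2) ℝ => (M : Matrix (Fin 2) (Fin 2) ℝ) 1 0) hH
  simp only [Matrix.GeneralLinearGroup.coe_mul, ModularForm.val_heckeDiagMatrix hN,
    ModularForm.val_upperTriangularGL, Matrix.mul_apply, Fin.sum_univ_two] at hentry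
  simp at hentry
  rw [Gamma0_mem]
  have hint : γ 1 0 = g' 1 0 * a := by exact_mod_cast hentry
  rw [hint, haN]
  simp


theorem mapGL_apply_val (g : SL(2, ℤ)) (i j : Fin 2) :
    ((Matrix.SpecialLinearGroup.mapGL ℝ g : GL (Fin 2) ℝ) : Matrix (Fin 2) (Fin 2) ℝ) i j =
      ((g i j : ℤ) : ℝ) := by
  simp

/-- `u_N` is invariant under `Γ₀(N)`. -/
theorem unitU_smul_of_mem_Gamma0 {N : ℕ} (hN : N ≠ 0) {γ : SL(2, ℤ)} (hγ : γ ∈ Gamma0 N)
    (z : ℍ) : unitU N (γ • z) = unitU N z := by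
  rw [Gamma0_mem, ZMod.intCast_zmod_eq_zero_iff_dvd] at hγ
  obtain ⟨e, he⟩ := hγ
  have hdet : γ 0 0 * γ 1 1 - γ 0 1 * γ 1 0 = 1 := by
    have := γ.det_coe
    rwa [Matrix.det_fin_two] at this
  let g' : SL(2, ℤ) := ⟨!![γ 0 0, N * γ 0 1; e, γ 1 1], by
    rw [Matrix.det_fin_two_of]
    rw [he] at hdet
    linear_combination hdet⟩
  have hH : ModularForm.heckeDiagMatrix N * (Matrix.SpecialLinearGroup.mapGL ℝ γ : GL (Fin 2) ℝ) =
      (Matrix.SpecialLinearGroup.mapGL ℝ g' : GL (Fin 2) ℝ) *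
        ModularForm.upperTriangularGL (N : ℝ) 0 1 (by
          have : (N : ℝ) ≠ 0 := by exact_mod_cast hN
          simpa using this) := by
    apply Matrix.GeneralLinearGroup.ext
    intro i j
    simp only [Matrix.GeneralLinearGroup.coe_mul, ModularForm.val_heckeDiagMatrix hN,
      ModularForm.val_upperTriangularGL, Matrix.mul_apply, Fin.sum_univ_two]
    have e00 : ((Matrix.SpecialLinearGroup.mapGL ℝ g' : GL (Fin 2) ℝ) :
        Matrix (Fin 2) (Fin 2) ℝ) 0 0 = ((γ 0 0 : ℤ) : ℝ) := by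
      rw [mapGL_apply_val]; rfl
    have e01 : ((Matrix.SpecialLinearGroup.mapGL ℝ g' : GL (Fin 2) ℝ) :
        Matrix (Fin 2) (Fin 2) ℝ) 0 1 = (N : ℝ) * ((γ 0 1 : ℤ) : ℝ) := by
      rw [mapGL_apply_val]
      have : g' 0 1 = N * γ 0 1 := rfl
      rw [this]; push_cast; ring
    have e10 : ((Matrix.SpecialLinearGroup.mapGL ℝ g' : GL (Fin 2) ℝ) :
        Matrix (Fin 2) (Fin 2) ℝ) 1 0 = (e : ℝ) := by
      rw [mapGL_apply_val]; rfl
    have e11 : ((Matrix.SpecialLinearGroup.mapGL ℝ g' : GL (Fin 2) ℝ) :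
        Matrix (Fin 2) (Fin 2) ℝ) 1 1 = ((γ 1 1 : ℤ) : ℝ) := by
      rw [mapGL_apply_val]; rfl
    have f10 : ((Matrix.SpecialLinearGroup.mapGL ℝ γ : GL (Fin 2) ℝ) :
        Matrix (Fin 2) (Fin 2) ℝ) 1 0 = (N : ℝ) * (e : ℝ) := by
      rw [mapGL_apply_val, he]
      push_cast
      ring
    fin_cases i <;> fin_cases j
    · simp only [Fin.zero_eta, Fin.isValue, e00, mapGL_apply_val]
      simp [mul_comm]
    · simp only [Fin.zero_eta, Fin.mk_one, Fin.isValue, e00, e01, mapGL_apply_val]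
      simp
    · simp only [Fin.zero_eta, Fin.mk_one, Fin.isValue, e10, e11, f10]
      simp [mul_comm]
    · simp only [Fin.mk_one, Fin.isValue, e10, e11, mapGL_apply_val]
      simp
  have hNpos : (0 : ℝ) < N := by exact_mod_cast Nat.pos_of_ne_zero hN
  have h1 := unitU_SL_smul hN γ g' hNpos one_pos _ hH z
  rw [h1, unitU]
  have hz : ModularForm.upperTriangularGL (N : ℝ) 0 1 (by
          have : (N : ℝ) ≠ 0 := by exact_mod_cast hN
          simpa using this) • z = ModularForm.heckeDiagMatrix N • z := by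
    congr 1
    apply Matrix.GeneralLinearGroup.ext
    intro i j
    rw [ModularForm.val_heckeDiagMatrix hN, ModularForm.val_upperTriangularGL]
  rw [hz]
  simp

end Fermat.Agent.RatStr
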