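import Mathlib

/-!
# S23 (rational structure), package (4): Laurent `q`-expansion bookkeeping

* `qf h : ℍ → ℂ` : the function `τ ↦ exp (2πiτ/h)`.
* `IsHolBdd h F` : `F` is holomorphic on `ℍ`, `h`-periodic and bounded at `i∞`
  (the hypotheses of Mathlib's `qExpansion` API); closed under ring operations.
* `IsMeroInfty h F := ∃ m, IsHolBdd h (F * qf h ^ m)` : finite order pole at `i∞`; closed under
  ring operations; `meroSubring h hh : Subring (ℍ → ℂ)`.
* `laurent h F : LaurentSeries ℂ`, `laurent_eq` (any admissible pole order computes it),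
  `laurent_mul/add/neg/sub/smul/const/one/zero/pow/sum/prod`, `laurent_qf`, `laurent_qf_pow`,
  `laurent_eq_zero_iff`, `laurent_injective`, `laurentHom h hh : meroSubring h hh →+* ℂ⸨X⸩`,
  `laurent_eq_div`.
* `laurent_of_isHolBdd`, `laurent_of_modularForm` : comparison with `qExpansion`;
  `isHolBdd_and_qExpansion_of_laurent_eq` : conversely a Laurent expansion without negative terms
  means bounded at `i∞`.
* `mapL σ : ℂ⸨X⸩ →+* ℂ⸨X⸩` : coefficientwise action of `σ : ℂ →+* ℂ`; `mapL_coeff`,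
  `mapL_single`, `mapL_C`, `mapL_ofPowerSeries`, `mapL_injective`, `mapL_eq_self_of_rat`.
-/



namespace Fermat.Agent.RatStr

open UpperHalfPlane hiding I
open Complex Filter Function
open scoped Manifold Topology

local notation "𝕢" => Periodic.qParam

/-- The `q`-parameter as a function on the upper half plane. -/
noncomputable def qf (h : ℝ) : ℍ → ℂ := fun τ => 𝕢 h τ

theorem qf_apply (h : ℝ) (τ : ℍ) : qf h τ = 𝕢 h τ := rfl

theorem qf_ne_zero (h : ℝ) (τ : ℍ) : qf h τ ≠ 0 := Periodic.qParam_ne_zero _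

/-- Periodicity on `ℍ` gives periodicity of the extension by `ofComplex`. -/
theorem periodic_comp_ofComplex_of_vadd {h : ℝ} {F : ℍ → ℂ}
    (hF : ∀ τ : ℍ, F (h +ᵥ τ) = F τ) : Periodic (F ∘ ofComplex) h := by
  intro w
  by_cases! hw : 0 < im w
  · have : 0 < im (w + h) := by simp [hw]
    simp only [comp_apply, ofComplex_apply_of_im_pos this, ofComplex_apply_of_im_pos hw]
    rw [← hF ⟨w, hw⟩]
    congr 1
    ext
    simp [add_comm]
  · have : im (w + h) ≤ 0 := by simpa using hw
    simp [ofComplex_apply_of_im_nonpos this, ofComplex_apply_of_im_nonpos hw]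

theorem vadd_of_periodic_comp_ofComplex {h : ℝ} {F : ℍ → ℂ}
    (hF : Periodic (F ∘ ofComplex) h) (τ : ℍ) : F (h +ᵥ τ) = F τ := by
  have := hF (τ : ℂ)
  simp only [comp_apply, ofComplex_apply] at this
  rw [← this]
  congr 1
  have h1 : 0 < im ((τ : ℂ) + h) := by simpa using τ.im_pos
  rw [ofComplex_apply_of_im_pos h1]
  ext
  simp [add_comm]

/-- Holomorphic on `ℍ`, `h`-periodic and bounded at `i∞`: exactly the hypotheses under which
Mathlib's `q`-expansion API works. -/
structure IsHolBdd (h : ℝ) (F : ℍ → ℂ) : Prop where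
  per : Periodic (F ∘ ofComplex) h
  hol : MDiff F
  bdd : IsBoundedAtImInfty F

namespace IsHolBdd

variable {h : ℝ} {F G : ℍ → ℂ}

theorem analyticAt (hh : 0 < h) (hF : IsHolBdd h F) : AnalyticAt ℂ (cuspFunction h F) 0 :=
  analyticAt_cuspFunction_zero hh hF.per hF.hol hF.bdd

theorem mul (hF : IsHolBdd h F) (hG : IsHolBdd h G) : IsHolBdd h (F * G) where
  per := by
    have : (F * G) ∘ ofComplex = (F ∘ ofComplex) * (G ∘ ofComplex) := rfl
    rw [this]
    exact hF.per.mul hG.per
  hol := hF.hol.mul hG.hol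
  bdd := hF.bdd.mul hG.bdd

theorem add (hF : IsHolBdd h F) (hG : IsHolBdd h G) : IsHolBdd h (F + G) where
  per := by
    have : (F + G) ∘ ofComplex = (F ∘ ofComplex) + (G ∘ ofComplex) := rfl
    rw [this]
    exact hF.per.add hG.per
  hol := hF.hol.add hG.hol
  bdd := hF.bdd.add hG.bdd

theorem neg (hF : IsHolBdd h F) : IsHolBdd h (-F) where
  per := fun z => by
    have := hF.per z
    simp only [comp_apply, Pi.neg_apply] at this ⊢
    rw [this]
  hol := hF.hol.neg
  bdd := hF.bdd.neg

theorem sub (hF : IsHolBdd h F) (hG : IsHolBdd h G) : IsHolBdd h (F - G) := by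
  rw [sub_eq_add_neg]; exact hF.add hG.neg

theorem const (h : ℝ) (c : ℂ) : IsHolBdd h (fun _ => c) where
  per := fun _ => rfl
  hol := mdifferentiable_const
  bdd := const_boundedAtFilter _ c

theorem one (h : ℝ) : IsHolBdd h (1 : ℍ → ℂ) := const h 1

theorem zero (h : ℝ) : IsHolBdd h (0 : ℍ → ℂ) := const h 0

theorem smul (c : ℂ) (hF : IsHolBdd h F) : IsHolBdd h (c • F) := by
  have : c • F = (fun _ => c) * F := by ext; simp
  rw [this]; exact (const h c).mul hF

theorem pow (hF : IsHolBdd h F) (n : ℕ) : IsHolBdd h (F ^ n) := by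
  induction n with
  | zero => simpa using one h
  | succ n ih => rw [pow_succ]; exact ih.mul hF

end IsHolBdd

theorem qParam_add_period {h : ℝ} (hh : h ≠ 0) (z : ℂ) : 𝕢 h (z + h) = 𝕢 h z := by
  simp only [Periodic.qParam]
  have hh' : (h : ℂ) ≠ 0 := by exact_mod_cast hh
  have : 2 * (Real.pi : ℂ) * I * (z + h) / h = 2 * Real.pi * I * z / h + 2 * Real.pi * I := by
    field_simp
  rw [this, Complex.exp_add, Complex.exp_two_pi_mul_I, mul_one]

theorem mdiff_qf (h : ℝ) : MDiff (qf h) := by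
  intro τ
  rw [UpperHalfPlane.mdifferentiableAt_iff]
  have h1 : DifferentiableAt ℂ (𝕢 h) (τ : ℂ) := (Periodic.differentiable_qParam (h := h)) _
  refine h1.congr_of_eventuallyEq ?_
  filter_upwards [(Complex.continuous_im.isOpen_preimage _ isOpen_Ioi).mem_nhds τ.im_pos] with z hz
  simp only [comp_apply, qf_apply]
  rw [ofComplex_apply_of_im_pos hz]

theorem isHolBdd_qf {h : ℝ} (hh : 0 < h) : IsHolBdd h (qf h) where
  per := by
    apply periodic_comp_ofComplex_of_vadd
    intro τ
    simp only [qf_apply, UpperHalfPlane.coe_vadd]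
    rw [add_comm]
    exact qParam_add_period hh.ne' _
  hol := mdiff_qf h
  bdd := by
    have : Tendsto (qf h) atImInfty (𝓝 0) := UpperHalfPlane.qParam_tendsto_atImInfty hh
    exact (ZeroAtFilter.boundedAtFilter this)


/-! ### The `q`-expansion of `q` itself and the shift lemma -/

theorem qExpansion_qf {h : ℝ} (hh : 0 < h) : qExpansion h (qf h) = PowerSeries.X := by
  ext m
  let _inst : FunLike (ℍ → ℂ) ℍ ℂ := { coe := id, coe_injective := fun _ _ h => h }
  have h1 := qExpansion_coeff_unique (F := ℍ → ℂ) (qf h)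
    (c := fun m => if m = 1 then (1 : ℂ) else 0) hh
    ((isHolBdd_qf hh).analyticAt hh) (fun τ => by
      have := hasSum_single (f := fun m : ℕ => (if m = 1 then (1 : ℂ) else 0) • 𝕢 h τ ^ m) 1
        (fun b hb => by simp [hb])
      change HasSum _ (qf h τ)
      rw [qf_apply]
      simpa using this) m
  rw [PowerSeries.coeff_X]
  exact h1.symm

theorem qExpansion_mul' {h : ℝ} (hh : 0 < h) {F G : ℍ → ℂ} (hF : IsHolBdd h F)
    (hG : IsHolBdd h G) : qExpansion h (F * G) = qExpansion h F * qExpansion h G :=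
  qExpansion_mul (hF.analyticAt hh) (hG.analyticAt hh)

theorem qExpansion_add' {h : ℝ} (hh : 0 < h) {F G : ℍ → ℂ} (hF : IsHolBdd h F)
    (hG : IsHolBdd h G) : qExpansion h (F + G) = qExpansion h F + qExpansion h G :=
  qExpansion_add (hF.analyticAt hh) (hG.analyticAt hh)

theorem qExpansion_qf_pow {h : ℝ} (hh : 0 < h) (n : ℕ) :
    qExpansion h (qf h ^ n) = PowerSeries.X ^ n := by
  induction n with
  | zero => simpa using qExpansion_one h
  | succ n ih =>
    rw [pow_succ, qExpansion_mul' hh ((isHolBdd_qf hh).pow n) (isHolBdd_qf hh), ih,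
      qExpansion_qf hh, pow_succ]

theorem qExpansion_const {h : ℝ} (hh : 0 < h) (c : ℂ) :
    qExpansion h (fun _ => c) = PowerSeries.C c := by
  have h1 : (fun _ : ℍ => c) = c • (1 : ℍ → ℂ) := by ext; simp
  rw [h1, qExpansion_smul ((IsHolBdd.one h).analyticAt hh), qExpansion_one]
  ext n; simp [PowerSeries.coeff_C, PowerSeries.coeff_one]

/-! ### Functions with a pole of finite order at `i∞` -/

/-- Holomorphic on `ℍ`, `h`-periodic, with a pole of finite order at `i∞`. -/
def IsMeroInfty (h : ℝ) (F : ℍ → ℂ) : Prop := ∃ m : ℕ, IsHolBdd h (F * qf h ^ m)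

theorem IsHolBdd.isMeroInfty {h : ℝ} {F : ℍ → ℂ} (hF : IsHolBdd h F) : IsMeroInfty h F :=
  ⟨0, by simpa using hF⟩

theorem IsHolBdd.mul_qf_pow_of_le {h : ℝ} (hh : 0 < h) {F : ℍ → ℂ} {m n : ℕ}
    (hF : IsHolBdd h (F * qf h ^ m)) (hmn : m ≤ n) : IsHolBdd h (F * qf h ^ n) := by
  obtain ⟨j, rfl⟩ := Nat.exists_eq_add_of_le hmn
  rw [pow_add, ← mul_assoc]
  exact hF.mul ((isHolBdd_qf hh).pow j)

open HahnSeries in
/-- The Laurent `q`-expansion at `i∞` (zero if the function is not meromorphic at `i∞`). -/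
noncomputable def laurent (h : ℝ) (F : ℍ → ℂ) : LaurentSeries ℂ :=
  haveI := Classical.propDecidable (IsMeroInfty h F)
  if hF : IsMeroInfty h F then
    single (-(hF.choose : ℤ)) (1 : ℂ) * ofPowerSeries ℤ ℂ (qExpansion h (F * qf h ^ hF.choose))
  else 0

open HahnSeries in
theorem laurent_aux {h : ℝ} (hh : 0 < h) {F : ℍ → ℂ} {m : ℕ} (hF : IsHolBdd h (F * qf h ^ m))
    (j : ℕ) :
    single (-((m + j : ℕ) : ℤ)) (1 : ℂ) *
        ofPowerSeries ℤ ℂ (qExpansion h (F * qf h ^ (m + j))) =
      single (-(m : ℤ)) (1 : ℂ) * ofPowerSeries ℤ ℂ (qExpansion h (F * qf h ^ m)) := by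
  rw [_root_.pow_add, ← mul_assoc, qExpansion_mul' hh hF ((isHolBdd_qf hh).pow j), qExpansion_qf_pow hh,
    map_mul, ofPowerSeries_X_pow, mul_comm (ofPowerSeries ℤ ℂ _), ← mul_assoc, single_mul_single]
  have e : (-((m + j : ℕ) : ℤ) + (j : ℤ)) = -(m : ℤ) := by push_cast; ring
  rw [e, one_mul]

open HahnSeries in
/-- The Laurent expansion can be computed with any admissible pole order. -/
theorem laurent_eq {h : ℝ} (hh : 0 < h) {F : ℍ → ℂ} {m : ℕ} (hF : IsHolBdd h (F * qf h ^ m)) :
    laurent h F =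
      single (-(m : ℤ)) (1 : ℂ) * ofPowerSeries ℤ ℂ (qExpansion h (F * qf h ^ m)) := by
  have hM : IsMeroInfty h F := ⟨m, hF⟩
  rw [laurent, dif_pos hM]
  have hc := hM.choose_spec
  rcases le_total m hM.choose with hle | hle
  · obtain ⟨j, hj⟩ := Nat.exists_eq_add_of_le hle
    rw [hj]
    exact laurent_aux hh hF j
  · obtain ⟨j, hj⟩ := Nat.exists_eq_add_of_le hle
    have := laurent_aux hh hc j
    rw [← hj] at this
    exact this.symm


/-! ### Closure properties of `IsMeroInfty` -/

namespace IsMeroInfty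

variable {h : ℝ} {F G : ℍ → ℂ}

theorem mul (hF : IsMeroInfty h F) (hG : IsMeroInfty h G) : IsMeroInfty h (F * G) := by
  obtain ⟨m, hm⟩ := hF
  obtain ⟨n, hn⟩ := hG
  refine ⟨m + n, ?_⟩
  have : F * G * qf h ^ (m + n) = (F * qf h ^ m) * (G * qf h ^ n) := by
    rw [_root_.pow_add]; ring
  rw [this]
  exact hm.mul hn

theorem exists_common (hh : 0 < h) (hF : IsMeroInfty h F) (hG : IsMeroInfty h G) :
    ∃ m : ℕ, IsHolBdd h (F * qf h ^ m) ∧ IsHolBdd h (G * qf h ^ m) := by
  obtain ⟨m, hm⟩ := hF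
  obtain ⟨n, hn⟩ := hG
  exact ⟨m + n, hm.mul_qf_pow_of_le hh (Nat.le_add_right _ _),
    hn.mul_qf_pow_of_le hh (Nat.le_add_left _ _)⟩

theorem add (hh : 0 < h) (hF : IsMeroInfty h F) (hG : IsMeroInfty h G) :
    IsMeroInfty h (F + G) := by
  obtain ⟨m, hm, hn⟩ := exists_common hh hF hG
  refine ⟨m, ?_⟩
  rw [add_mul]
  exact hm.add hn

theorem neg (hF : IsMeroInfty h F) : IsMeroInfty h (-F) := by
  obtain ⟨m, hm⟩ := hF
  refine ⟨m, ?_⟩
  rw [neg_mul]
  exact hm.neg

theorem sub (hh : 0 < h) (hF : IsMeroInfty h F) (hG : IsMeroInfty h G) :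
    IsMeroInfty h (F - G) := by
  rw [sub_eq_add_neg]; exact hF.add hh hG.neg

theorem const (h : ℝ) (c : ℂ) : IsMeroInfty h (fun _ => c) := (IsHolBdd.const h c).isMeroInfty

theorem one (h : ℝ) : IsMeroInfty h (1 : ℍ → ℂ) := (IsHolBdd.one h).isMeroInfty

theorem zero (h : ℝ) : IsMeroInfty h (0 : ℍ → ℂ) := (IsHolBdd.zero h).isMeroInfty

theorem smul (c : ℂ) (hF : IsMeroInfty h F) : IsMeroInfty h (c • F) := by
  have : c • F = (fun _ => c) * F := by ext; simp
  rw [this]; exact (const h c).mul hF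

theorem pow (hF : IsMeroInfty h F) (n : ℕ) : IsMeroInfty h (F ^ n) := by
  induction n with
  | zero => simpa using one h
  | succ n ih => rw [pow_succ]; exact ih.mul hF

theorem sum (hh : 0 < h) {ι : Type*} (s : Finset ι) (f : ι → ℍ → ℂ)
    (hf : ∀ i ∈ s, IsMeroInfty h (f i)) : IsMeroInfty h (∑ i ∈ s, f i) := by
  classical
  induction s using Finset.induction_on with
  | empty => simpa using zero h
  | insert a s ha ih =>
    rw [Finset.sum_insert ha]
    exact (hf a (Finset.mem_insert_self _ _)).add hh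
      (ih fun i hi => hf i (Finset.mem_insert_of_mem hi))

theorem prod {ι : Type*} (s : Finset ι) (f : ι → ℍ → ℂ)
    (hf : ∀ i ∈ s, IsMeroInfty h (f i)) : IsMeroInfty h (∏ i ∈ s, f i) := by
  classical
  induction s using Finset.induction_on with
  | empty => simpa using one h
  | insert a s ha ih =>
    rw [Finset.prod_insert ha]
    exact (hf a (Finset.mem_insert_self _ _)).mul
      (ih fun i hi => hf i (Finset.mem_insert_of_mem hi))

/-- `q` itself. -/
theorem qf (hh : 0 < h) : IsMeroInfty h (qf h) := (isHolBdd_qf hh).isMeroInfty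

theorem per (hF : IsMeroInfty h F) : Periodic (F ∘ ofComplex) h := by
  obtain ⟨m, hm⟩ := hF
  have h1 := hm.per
  by_cases hh : h = 0
  · subst hh; intro z; simp
  intro z
  have h2 := h1 z
  simp only [comp_apply, Pi.mul_apply, Pi.pow_apply] at h2 ⊢
  by_cases hz : 0 < im z
  · have hz' : 0 < im (z + h) := by simpa using hz
    have e : RatStr.qf h (ofComplex (z + h)) = RatStr.qf h (ofComplex z) := by
      rw [qf_apply, qf_apply, ofComplex_apply_of_im_pos hz', ofComplex_apply_of_im_pos hz]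
      exact qParam_add_period hh z
    rw [e] at h2
    exact mul_right_cancel₀ (pow_ne_zero _ (qf_ne_zero _ _)) h2
  · have hz0 : im z ≤ 0 := not_lt.mp hz
    have hz' : im (z + h) ≤ 0 := by simpa using hz0
    rw [ofComplex_apply_of_im_nonpos hz', ofComplex_apply_of_im_nonpos hz0]

theorem hol (hF : IsMeroInfty h F) : MDiff F := by
  obtain ⟨m, hm⟩ := hF
  have h1 : F = (F * RatStr.qf h ^ m) * (RatStr.qf h ^ m)⁻¹ := by
    ext τ
    simp only [Pi.mul_apply, Pi.pow_apply, Pi.inv_apply]
    rw [mul_assoc, mul_inv_cancel₀ (pow_ne_zero _ (qf_ne_zero _ _)), mul_one]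
  rw [h1]
  exact hm.hol.mul (((mdiff_qf h).pow m).inv fun z => pow_ne_zero _ (qf_ne_zero _ _))

end IsMeroInfty


/-! ### Algebraic properties of the Laurent expansion -/

section laurent

open HahnSeries

variable {h : ℝ} {F G : ℍ → ℂ}

theorem laurent_of_not (hF : ¬ IsMeroInfty h F) : laurent h F = 0 := by
  rw [laurent, dif_neg hF]

/-- For functions bounded at `i∞` the Laurent expansion is the usual `q`-expansion. -/
theorem laurent_of_isHolBdd (hh : 0 < h) (hF : IsHolBdd h F) :
    laurent h F = ofPowerSeries ℤ ℂ (qExpansion h F) := by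
  have h0 : IsHolBdd h (F * qf h ^ 0) := by simpa using hF
  rw [laurent_eq hh h0]
  simp

theorem laurent_coeff_of_isHolBdd (hh : 0 < h) (hF : IsHolBdd h F) (n : ℕ) :
    (laurent h F).coeff (n : ℤ) = (qExpansion h F).coeff n := by
  rw [laurent_of_isHolBdd hh hF, ofPowerSeries_apply_coeff]

theorem laurent_mul (hh : 0 < h) (hF : IsMeroInfty h F) (hG : IsMeroInfty h G) :
    laurent h (F * G) = laurent h F * laurent h G := by
  obtain ⟨m, hm⟩ := hF
  obtain ⟨n, hn⟩ := hG
  have e : F * G * qf h ^ (m + n) = (F * qf h ^ m) * (G * qf h ^ n) := by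
    rw [_root_.pow_add]; ring
  have hmn : IsHolBdd h (F * G * qf h ^ (m + n)) := by rw [e]; exact hm.mul hn
  rw [laurent_eq hh hm, laurent_eq hh hn, laurent_eq hh hmn, e, qExpansion_mul' hh hm hn, map_mul]
  have e2 : (single (-((m + n : ℕ) : ℤ)) (1 : ℂ) : LaurentSeries ℂ) =
      single (-(m : ℤ)) 1 * single (-(n : ℤ)) 1 := by
    rw [single_mul_single, one_mul]
    have e3 : (-((m + n : ℕ) : ℤ)) = -(m : ℤ) + -(n : ℤ) := by push_cast; ring
    rw [e3]
  rw [e2]
  ring

theorem laurent_add (hh : 0 < h) (hF : IsMeroInfty h F) (hG : IsMeroInfty h G) :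
    laurent h (F + G) = laurent h F + laurent h G := by
  obtain ⟨m, hm, hn⟩ := IsMeroInfty.exists_common hh hF hG
  have hmn : IsHolBdd h ((F + G) * qf h ^ m) := by rw [add_mul]; exact hm.add hn
  rw [laurent_eq hh hm, laurent_eq hh hn, laurent_eq hh hmn, add_mul, qExpansion_add' hh hm hn,
    map_add, mul_add]

theorem laurent_const (hh : 0 < h) (c : ℂ) : laurent h (fun _ => c) = C c := by
  rw [laurent_of_isHolBdd hh (IsHolBdd.const h c), qExpansion_const hh, ofPowerSeries_C]

theorem laurent_one (hh : 0 < h) : laurent h (1 : ℍ → ℂ) = 1 := by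
  have := laurent_const hh 1
  rw [map_one] at this
  exact this

theorem laurent_zero (h : ℝ) : laurent h (0 : ℍ → ℂ) = 0 := by
  by_cases hh : 0 < h
  · have := laurent_const hh 0
    rw [map_zero] at this
    exact this
  · by_cases hM : IsMeroInfty h (0 : ℍ → ℂ)
    · rw [laurent, dif_pos hM]
      simp [qExpansion_zero]
    · exact laurent_of_not hM

theorem laurent_smul (hh : 0 < h) (c : ℂ) (hF : IsMeroInfty h F) :
    laurent h (c • F) = C c * laurent h F := by
  have : c • F = (fun _ => c) * F := by ext; simp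
  rw [this, laurent_mul hh (IsMeroInfty.const h c) hF, laurent_const hh]

theorem laurent_neg (hh : 0 < h) (hF : IsMeroInfty h F) : laurent h (-F) = -laurent h F := by
  have : -F = (-1 : ℂ) • F := by ext; simp
  rw [this, laurent_smul hh _ hF]
  simp

theorem laurent_sub (hh : 0 < h) (hF : IsMeroInfty h F) (hG : IsMeroInfty h G) :
    laurent h (F - G) = laurent h F - laurent h G := by
  rw [sub_eq_add_neg, laurent_add hh hF hG.neg, laurent_neg hh hG, sub_eq_add_neg]

theorem laurent_pow (hh : 0 < h) (hF : IsMeroInfty h F) (n : ℕ) :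
    laurent h (F ^ n) = laurent h F ^ n := by
  induction n with
  | zero => simpa using laurent_one hh
  | succ n ih => rw [pow_succ, laurent_mul hh (hF.pow n) hF, ih, pow_succ]

theorem laurent_sum (hh : 0 < h) {ι : Type*} (s : Finset ι) (f : ι → ℍ → ℂ)
    (hf : ∀ i ∈ s, IsMeroInfty h (f i)) :
    laurent h (∑ i ∈ s, f i) = ∑ i ∈ s, laurent h (f i) := by
  classical
  induction s using Finset.induction_on with
  | empty => simpa using laurent_zero h
  | insert a s ha ih =>
    rw [Finset.sum_insert ha, Finset.sum_insert ha,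
      laurent_add hh (hf a (Finset.mem_insert_self _ _))
        (IsMeroInfty.sum hh s f fun i hi => hf i (Finset.mem_insert_of_mem hi)),
      ih fun i hi => hf i (Finset.mem_insert_of_mem hi)]

theorem laurent_prod (hh : 0 < h) {ι : Type*} (s : Finset ι) (f : ι → ℍ → ℂ)
    (hf : ∀ i ∈ s, IsMeroInfty h (f i)) :
    laurent h (∏ i ∈ s, f i) = ∏ i ∈ s, laurent h (f i) := by
  classical
  induction s using Finset.induction_on with
  | empty => simpa using laurent_one hh
  | insert a s ha ih =>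
    rw [Finset.prod_insert ha, Finset.prod_insert ha,
      laurent_mul hh (hf a (Finset.mem_insert_self _ _))
        (IsMeroInfty.prod s f fun i hi => hf i (Finset.mem_insert_of_mem hi)),
      ih fun i hi => hf i (Finset.mem_insert_of_mem hi)]

theorem laurent_qf (hh : 0 < h) : laurent h (qf h) = single 1 (1 : ℂ) := by
  rw [laurent_of_isHolBdd hh (isHolBdd_qf hh), qExpansion_qf hh, ofPowerSeries_X]

theorem laurent_qf_pow (hh : 0 < h) (n : ℕ) : laurent h (qf h ^ n) = single (n : ℤ) (1 : ℂ) := by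
  rw [laurent_pow hh (IsMeroInfty.qf hh), laurent_qf hh, single_pow]
  simp

/-- Injectivity (identity theorem): the Laurent expansion vanishes only for the zero function. -/
theorem laurent_eq_zero_iff (hh : 0 < h) (hF : IsMeroInfty h F) : laurent h F = 0 ↔ F = 0 := by
  constructor
  · intro h0
    obtain ⟨m, hm⟩ := hF
    rw [laurent_eq hh hm] at h0
    have h1 : (single (-(m : ℤ)) (1 : ℂ) : LaurentSeries ℂ) ≠ 0 := by simp
    have h2 : ofPowerSeries ℤ ℂ (qExpansion h (F * qf h ^ m)) = 0 :=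
      (mul_eq_zero.mp h0).resolve_left h1
    have h3 : qExpansion h (F * qf h ^ m) = 0 := by
      apply ofPowerSeries_injective (Γ := ℤ) (R := ℂ)
      rw [h2, map_zero]
    have h4 := (qExpansion_eq_zero_iff hh hm.per hm.hol hm.bdd).mp h3
    ext τ
    have h5 := congrFun h4 τ
    simp only [Pi.mul_apply, Pi.pow_apply, Pi.zero_apply, mul_eq_zero] at h5
    exact h5.resolve_right (pow_ne_zero _ (qf_ne_zero _ _))
  · rintro rfl
    exact laurent_zero h

theorem laurent_injective (hh : 0 < h) (hF : IsMeroInfty h F) (hG : IsMeroInfty h G)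
    (hFG : laurent h F = laurent h G) : F = G := by
  have h1 : laurent h (F - G) = 0 := by rw [laurent_sub hh hF hG, hFG, sub_self]
  exact sub_eq_zero.mp ((laurent_eq_zero_iff hh (hF.sub hh hG)).mp h1)

end laurent


/-! ### The ring of functions meromorphic at `i∞` and the Laurent ring homomorphism -/

/-- Holomorphic `h`-periodic functions on `ℍ` with at most a pole at `i∞`, as a subring of
`ℍ → ℂ`. -/
def meroSubring (h : ℝ) (hh : 0 < h) : Subring (ℍ → ℂ) where
  carrier := {F | IsMeroInfty h F}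
  mul_mem' := fun hF hG => IsMeroInfty.mul hF hG
  one_mem' := IsMeroInfty.one h
  add_mem' := fun hF hG => IsMeroInfty.add hh hF hG
  zero_mem' := IsMeroInfty.zero h
  neg_mem' := fun hF => IsMeroInfty.neg hF

theorem mem_meroSubring {h : ℝ} {hh : 0 < h} {F : ℍ → ℂ} :
    F ∈ meroSubring h hh ↔ IsMeroInfty h F := Iff.rfl

/-- The Laurent expansion as an (injective) ring homomorphism. -/
noncomputable def laurentHom (h : ℝ) (hh : 0 < h) : meroSubring h hh →+* LaurentSeries ℂ where
  toFun F := laurent h F.1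
  map_one' := laurent_one hh
  map_mul' F G := laurent_mul hh F.2 G.2
  map_zero' := laurent_zero h
  map_add' F G := laurent_add hh F.2 G.2

@[simp] theorem laurentHom_apply {h : ℝ} (hh : 0 < h) (F : meroSubring h hh) :
    laurentHom h hh F = laurent h F.1 := rfl

theorem laurentHom_injective {h : ℝ} (hh : 0 < h) : Function.Injective (laurentHom h hh) :=
  fun F G hFG => Subtype.ext (laurent_injective hh F.2 G.2 hFG)

/-! ### Coefficientwise action of ring endomorphisms of `ℂ` on Laurent series -/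

/-- Apply a ring homomorphism `σ : ℂ →+* ℂ` to every coefficient of a Laurent series. -/
noncomputable def mapL (σ : ℂ →+* ℂ) : LaurentSeries ℂ →+* LaurentSeries ℂ where
  toFun x := x.map σ
  map_one' := HahnSeries.map_one σ.toMonoidWithZeroHom
  map_mul' x y := HahnSeries.map_mul σ.toNonUnitalRingHom (x := x) (y := y)
  map_zero' := HahnSeries.map_zero σ.toMonoidWithZeroHom.toZeroHom
  map_add' x y := HahnSeries.map_add σ.toAddMonoidHom (x := x) (y := y)

@[simp] theorem mapL_coeff (σ : ℂ →+* ℂ) (x : LaurentSeries ℂ) (n : ℤ) :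
    (mapL σ x).coeff n = σ (x.coeff n) := rfl

theorem mapL_single (σ : ℂ →+* ℂ) (n : ℤ) (c : ℂ) :
    mapL σ (HahnSeries.single n c) = HahnSeries.single n (σ c) := by
  ext m
  simp only [mapL_coeff, HahnSeries.coeff_single]
  split_ifs <;> simp

theorem mapL_C (σ : ℂ →+* ℂ) (c : ℂ) : mapL σ (HahnSeries.C c) = HahnSeries.C (σ c) :=
  mapL_single σ 0 c

theorem mapL_ofPowerSeries (σ : ℂ →+* ℂ) (p : PowerSeries ℂ) :
    mapL σ (HahnSeries.ofPowerSeries ℤ ℂ p) = HahnSeries.ofPowerSeries ℤ ℂ (p.map σ) := by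
  ext n
  rw [mapL_coeff]
  by_cases hn : 0 ≤ n
  · obtain ⟨k, rfl⟩ := Int.eq_ofNat_of_zero_le hn
    rw [HahnSeries.ofPowerSeries_apply_coeff, HahnSeries.ofPowerSeries_apply_coeff,
      PowerSeries.coeff_map]
  · have h1 : ∀ q : PowerSeries ℂ, (HahnSeries.ofPowerSeries ℤ ℂ q).coeff n = 0 := by
      intro q
      rw [HahnSeries.ofPowerSeries_apply]
      apply HahnSeries.embDomain_of_notMem_range
      simp only [Set.mem_range, not_exists]
      intro k hk
      apply hn
      rw [← hk]
      simp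
    rw [h1, h1, map_zero]

theorem mapL_injective (σ : ℂ →+* ℂ) : Function.Injective (mapL σ) := by
  intro x y hxy
  ext n
  have := congrArg (fun z => z.coeff n) hxy
  simp only [mapL_coeff] at this
  exact σ.injective this

theorem mapL_comp (σ τ : ℂ →+* ℂ) (x : LaurentSeries ℂ) :
    mapL σ (mapL τ x) = mapL (σ.comp τ) x := by
  ext n; simp

theorem mapL_id (x : LaurentSeries ℂ) : mapL (RingHom.id ℂ) x = x := by
  ext n; simp

/-- A Laurent series all of whose coefficients are fixed by `σ` is fixed by `mapL σ`. -/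
theorem mapL_eq_self_of_coeff (σ : ℂ →+* ℂ) (x : LaurentSeries ℂ)
    (hx : ∀ n, σ (x.coeff n) = x.coeff n) : mapL σ x = x := by
  ext n; simp [hx]

/-- In particular Laurent series with rational coefficients are fixed. -/
theorem mapL_eq_self_of_rat (σ : ℂ →+* ℂ) (x : LaurentSeries ℂ)
    (hx : ∀ n, ∃ r : ℚ, x.coeff n = r) : mapL σ x = x := by
  apply mapL_eq_self_of_coeff
  intro n
  obtain ⟨r, hr⟩ := hx n
  rw [hr, map_ratCast]


/-! ### Modular forms -/

section modular

variable {k : ℤ} {M : Type*} [FunLike M ℍ ℂ] {Γ : Subgroup (GL (Fin 2) ℝ)} {h : ℝ}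

/-- A modular form is holomorphic, periodic and bounded at `i∞`. -/
theorem isHolBdd_of_modularForm [ModularFormClass M Γ k] (f : M) (hh : 0 < h)
    (hΓ : h ∈ Γ.strictPeriods) : IsHolBdd h (f : ℍ → ℂ) where
  per := SlashInvariantFormClass.periodic_comp_ofComplex f hΓ
  hol := ModularFormClass.holo f
  bdd :=
    have : Fact (IsCusp OnePoint.infty Γ) := ⟨Γ.isCusp_of_mem_strictPeriods hh hΓ⟩
    ModularFormClass.bdd_at_infty f

theorem isMeroInfty_of_modularForm [ModularFormClass M Γ k] (f : M) (hh : 0 < h)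
    (hΓ : h ∈ Γ.strictPeriods) : IsMeroInfty h (f : ℍ → ℂ) :=
  (isHolBdd_of_modularForm f hh hΓ).isMeroInfty

theorem laurent_of_modularForm [ModularFormClass M Γ k] (f : M) (hh : 0 < h)
    (hΓ : h ∈ Γ.strictPeriods) :
    laurent h (f : ℍ → ℂ) = HahnSeries.ofPowerSeries ℤ ℂ (qExpansion h f) :=
  laurent_of_isHolBdd hh (isHolBdd_of_modularForm f hh hΓ)

end modular

/-- Two functions bounded at `i∞` with the same `q`-expansion coincide. -/
theorem IsHolBdd.eq_of_qExpansion_eq {h : ℝ} (hh : 0 < h) {F G : ℍ → ℂ} (hF : IsHolBdd h F)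
    (hG : IsHolBdd h G) (hFG : qExpansion h F = qExpansion h G) : F = G :=
  laurent_injective hh hF.isMeroInfty hG.isMeroInfty (by
    rw [laurent_of_isHolBdd hh hF, laurent_of_isHolBdd hh hG, hFG])

/-- If the Laurent expansion of `F` has no negative terms then `F` is bounded at `i∞`. -/
theorem isHolBdd_of_laurent_coeff_neg {h : ℝ} (hh : 0 < h) {F : ℍ → ℂ} (hF : IsMeroInfty h F)
    (hneg : ∀ n : ℤ, n < 0 → (laurent h F).coeff n = 0) : IsHolBdd h F := by
  have hper := hF.per
  have hhol := hF.hol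
  obtain ⟨m, hm⟩ := hF
  refine ⟨hper, hhol, ?_⟩
  -- the low coefficients of the `q`-expansion of `F * q ^ m` vanish
  have hlow : ∀ j : ℕ, j < m → (qExpansion h (F * qf h ^ m)).coeff j = 0 := by
    intro j hj
    have h1 := hneg ((j : ℤ) - m) (by omega)
    rw [laurent_eq hh hm, HahnSeries.coeff_single_mul] at h1
    simpa [HahnSeries.ofPowerSeries_apply_coeff] using h1
  apply isBoundedAtImInfty_of_hasSum_qExpansion (h := h)
    (c := fun j => (qExpansion h (F * qf h ^ m)).coeff (j + m)) hh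
  intro τ
  have h1 := hasSum_qExpansion hh hm.per hm.hol hm.bdd τ
  have h2 : HasSum (fun j : ℕ => (qExpansion h (F * qf h ^ m)).coeff (j + m) • 𝕢 h τ ^ (j + m))
      ((F * qf h ^ m) τ) := by
    have h3 : ∑ i ∈ Finset.range m, (qExpansion h (F * qf h ^ m)).coeff i • 𝕢 h τ ^ i = 0 := by
      apply Finset.sum_eq_zero
      intro i hi
      rw [hlow i (Finset.mem_range.mp hi), zero_smul]
    have h5 := (hasSum_nat_add_iff' (f := fun j : ℕ =>
      (qExpansion h (F * qf h ^ m)).coeff j • 𝕢 h τ ^ j) m (g := (F * qf h ^ m) τ)).mpr h1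
    rw [h3, sub_zero] at h5
    exact h5
  have hq : (𝕢 h τ) ^ m ≠ 0 := pow_ne_zero _ (Periodic.qParam_ne_zero _)
  have h4 := h2.mul_right ((𝕢 h τ ^ m)⁻¹)
  have e1 : (F * qf h ^ m) τ * (𝕢 h τ ^ m)⁻¹ = F τ := by
    simp only [Pi.mul_apply, Pi.pow_apply, qf_apply]
    rw [mul_assoc, mul_inv_cancel₀ hq, mul_one]
  rw [e1] at h4
  have e2 : (fun j : ℕ => (qExpansion h (F * qf h ^ m)).coeff (j + m) • 𝕢 h τ ^ j) =
      fun i : ℕ => (qExpansion h (F * qf h ^ m)).coeff (i + m) • 𝕢 h τ ^ (i + m) *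
        (𝕢 h τ ^ m)⁻¹ := by
    funext j
    rw [smul_eq_mul, smul_eq_mul, _root_.pow_add, mul_assoc, mul_assoc, mul_inv_cancel₀ hq,
      mul_one]
  rw [e2]
  exact h4


theorem laurent_coeff_neg_of_isHolBdd {h : ℝ} (hh : 0 < h) {F : ℍ → ℂ} (hF : IsHolBdd h F)
    {n : ℤ} (hn : n < 0) : (laurent h F).coeff n = 0 := by
  rw [laurent_of_isHolBdd hh hF, HahnSeries.ofPowerSeries_apply]
  apply HahnSeries.embDomain_of_notMem_range
  simp only [Set.mem_range, not_exists]
  intro k hk
  have : (0 : ℤ) ≤ n := by rw [← hk]; simp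
  omega

/-- Reading off the `q`-expansion from the Laurent expansion. -/
theorem qExpansion_eq_of_laurent_eq {h : ℝ} (hh : 0 < h) {F : ℍ → ℂ} (hF : IsHolBdd h F)
    {p : PowerSeries ℂ} (hp : laurent h F = HahnSeries.ofPowerSeries ℤ ℂ p) :
    qExpansion h F = p := by
  rw [laurent_of_isHolBdd hh hF] at hp
  exact HahnSeries.ofPowerSeries_injective hp

/-- If the Laurent expansion of `F` is a power series then `F` is bounded at `i∞` and that power
series is its `q`-expansion. -/
theorem isHolBdd_and_qExpansion_of_laurent_eq {h : ℝ} (hh : 0 < h) {F : ℍ → ℂ}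
    (hF : IsMeroInfty h F) {p : PowerSeries ℂ}
    (hp : laurent h F = HahnSeries.ofPowerSeries ℤ ℂ p) :
    IsHolBdd h F ∧ qExpansion h F = p := by
  have h1 : IsHolBdd h F := by
    apply isHolBdd_of_laurent_coeff_neg hh hF
    intro n hn
    rw [hp, HahnSeries.ofPowerSeries_apply]
    apply HahnSeries.embDomain_of_notMem_range
    simp only [Set.mem_range, not_exists]
    intro k hk
    have : (0 : ℤ) ≤ n := by rw [← hk]; simp
    omega
  exact ⟨h1, qExpansion_eq_of_laurent_eq hh h1 hp⟩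

/-- Division: if `F * G = H` with `G ≠ 0` then the Laurent expansion of `F` is the quotient. -/
theorem laurent_eq_div {h : ℝ} (hh : 0 < h) {F G H : ℍ → ℂ} (hF : IsMeroInfty h F)
    (hG : IsMeroInfty h G) (hG0 : G ≠ 0) (hFG : F * G = H) :
    laurent h F = laurent h H / laurent h G := by
  have h1 : laurent h G ≠ 0 := fun h0 => hG0 ((laurent_eq_zero_iff hh hG).mp h0)
  rw [eq_div_iff h1, ← laurent_mul hh hF hG, hFG]

end Fermat.Agent.RatStr
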