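import Fermat.Agent.RatStr.ConjPair

set_option autoImplicit false

/-!
# Dividing power series with coefficients in a subfield
-/

namespace Fermat.Agent.RatStr

open UpperHalfPlane

noncomputable section

/-- If `W ≠ 0` and `P * W` both have coefficients in a subfield `K`, so does `P`. -/
theorem coeff_mem_of_mul_mem (K : Subfield ℂ) (P W : PowerSeries ℂ) (hW : W ≠ 0)
    (hWK : ∀ n, W.coeff n ∈ K) (hPW : ∀ n, (P * W).coeff n ∈ K) : ∀ n, P.coeff n ∈ K := by
  set m := W.order.toNat with hm
  have hwm : W.coeff m ≠ 0 := PowerSeries.coeff_order hW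
  have hlt : ∀ i < m, W.coeff i = 0 := fun i hi =>
    PowerSeries.coeff_of_lt_order_toNat i hi
  intro n
  induction n using Nat.strong_induction_on with
  | _ n ih =>
  have h1 : (P * W).coeff (n + m) =
      P.coeff n * W.coeff m + ∑ i ∈ Finset.range n, P.coeff i * W.coeff (n + m - i) := by
    rw [PowerSeries.coeff_mul, Finset.Nat.sum_antidiagonal_eq_sum_range_succ_mk]
    have hsplit : Finset.range (n + m + 1) = Finset.range (n + 1) ∪
        (Finset.range (n + m + 1)).filter (fun i => n + 1 ≤ i) := by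
      ext i
      simp only [Finset.mem_range, Finset.mem_union, Finset.mem_filter]
      omega
    have hdisj : Disjoint (Finset.range (n + 1))
        ((Finset.range (n + m + 1)).filter (fun i => n + 1 ≤ i)) := by
      rw [Finset.disjoint_left]
      intro i hi hi'
      simp only [Finset.mem_range, Finset.mem_filter] at hi hi'
      omega
    rw [hsplit, Finset.sum_union hdisj]
    have hz : ∑ i ∈ (Finset.range (n + m + 1)).filter (fun i => n + 1 ≤ i),
        P.coeff i * W.coeff (n + m - i) = 0 := by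
      refine Finset.sum_eq_zero fun i hi => ?_
      simp only [Finset.mem_range, Finset.mem_filter] at hi
      rw [hlt (n + m - i) (by omega), mul_zero]
    rw [hz, add_zero, Finset.sum_range_succ, add_comm]
    congr 2
    rw [Nat.add_sub_cancel_left]
  have h2 : P.coeff n = ((P * W).coeff (n + m) -
      ∑ i ∈ Finset.range n, P.coeff i * W.coeff (n + m - i)) / W.coeff m := by
    rw [h1, add_sub_cancel_right, mul_div_assoc, div_self hwm, mul_one]
  rw [h2]
  refine K.div_mem (K.sub_mem (hPW _) (K.sum_mem fun i hi => ?_)) (hWK m)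
  exact K.mul_mem (ih i (Finset.mem_range.mp hi)) (hWK _)

theorem isRatQ_iff {F : ℍ → ℂ} :
    IsRatQ F ↔ ∀ n, (qExpansion 1 F).coeff n ∈ (algebraMap ℚ ℂ).fieldRange := by
  constructor
  · rintro ⟨P, hP⟩ n
    rw [hP, PowerSeries.coeff_map]
    exact ⟨P.coeff n, rfl⟩
  · intro h
    choose c hc using h
    refine ⟨PowerSeries.mk c, ?_⟩
    ext n
    rw [PowerSeries.coeff_map, PowerSeries.coeff_mk, hc]

/-- If `G ≠ 0` and `F * G` are rational, so is `F`. -/
theorem isRatQ_of_mul {F G : ℍ → ℂ} (hF : IsNice F) (hG : IsNice G) (hG0 : G ≠ 0)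
    (hGr : IsRatQ G) (hFG : IsRatQ (F * G)) : IsRatQ F := by
  rw [isRatQ_iff] at hGr hFG ⊢
  rw [hF.qExpansion_mul hG] at hFG
  exact coeff_mem_of_mul_mem _ _ _ (fun h => hG0 (hG.qExpansion_eq_zero_iff.mp h)) hGr hFG

end

end Fermat.Agent.RatStr
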