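import Fermat.Agent.RatStr.TNAsymp
import Fermat.Agent.RatStr.RatDiv

set_option autoImplicit false

/-!
# The primitive element `t_N` is a modular form for `Γ₀(N)` with the right asymptotics
-/

namespace Fermat.Agent.RatStr

open UpperHalfPlane ModularForm Filter Function
open scoped MatrixGroups ModularForm Manifold Topology Real

noncomputable section

local notation "Δ" => ModularForm.discriminant
local notation "𝕢" => Periodic.qParam

variable (N : ℕ) [NeZero N]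

/-- Each translate of `t_N` is a constant multiple of some `Rfun`. -/
theorem tN_slash_eq (γ : SL(2, ℤ)) :
    ∃ (a b d : ℝ) (ha : 0 < a) (hd : 0 < d) (c : ℂ), a / d ≤ N ∧
      (γ ∉ CongruenceSubgroup.Gamma0 N → a / d < N) ∧
      (tN N) ∣[wN N] γ = c • Rfun ha hd (b := b) N := by
  obtain ⟨δ, a, b, d, ha, hd, ha', hd', had, hdiv, hmat⟩ :=
    exists_decomp_GL N (Nat.pos_of_ne_zero (NeZero.ne N)) γ
  have hd1 : (1 : ℝ) ≤ d := by exact_mod_cast hd'
  have haN : (a : ℝ) ≤ N := by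
    have h1 : (a : ℤ) ≤ a * d := le_mul_of_one_le_right ha'.le hd'
    rw [had] at h1
    exact_mod_cast h1
  refine ⟨a, b, d, ha, hd, (N : ℂ) ^ (11 : ℤ) / (((a * d : ℝ) : ℂ) ^ ((12 : ℤ) - 1) *
    (d : ℂ) ^ (-(12 : ℤ))), ?_, ?_, ?_⟩
  · calc (a : ℝ) / d ≤ a := div_le_self ha.le hd1
      _ ≤ N := haN
  · intro hγ
    have hd2 : (2 : ℝ) ≤ d := by
      have : d ≠ 1 := by
        intro h1
        apply hγ
        rw [CongruenceSubgroup.Gamma0_mem, ZMod.intCast_zmod_eq_zero_iff_dvd]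
        exact hdiv h1
      have : (2 : ℤ) ≤ d := by omega
      exact_mod_cast this
    calc (a : ℝ) / d < a := div_lt_self ha (by linarith)
      _ ≤ N := haN
  · have hmat' : alphaN N * (γ : GL (Fin 2) ℝ) = (δ : GL (Fin 2) ℝ) * utGL a b d ha hd := hmat
    rw [tN_slash, DN_slash_of_decomp N hmat']
    ext z
    rw [Pi.smul_apply, Pi.div_apply, Pi.pow_apply, slash_utGL_apply, Pi.smul_apply]
    unfold Rfun
    have h1 := discriminant_ne_zero (utGL (a : ℝ) b d ha hd • z)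
    have h2 : (((a : ℝ) * d : ℝ) : ℂ) ≠ 0 := by
      have := (mul_pos ha hd).ne'
      exact_mod_cast this
    have h3 : ((d : ℝ) : ℂ) ≠ 0 := by exact_mod_cast hd.ne'
    have h4 : (((a : ℝ) * d : ℝ) : ℂ) ^ ((12 : ℤ) - 1) ≠ 0 := zpow_ne_zero _ h2
    have h5 : ((d : ℝ) : ℂ) ^ (-(12 : ℤ)) ≠ 0 := zpow_ne_zero _ h3
    simp only [smul_eq_mul]
    field_simp
    simp only [Complex.ofReal_intCast]

theorem tN_bdd (γ : SL(2, ℤ)) : IsBoundedAtImInfty ((tN N) ∣[wN N] γ) := by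
  obtain ⟨a, b, d, ha, hd, c, h1, -, h3⟩ := tN_slash_eq N γ
  rw [h3]
  exact (Rfun_bdd ha hd N h1).smul c

theorem tN_zero_at {γ : SL(2, ℤ)} (hγ : γ ∉ CongruenceSubgroup.Gamma0 N) :
    IsZeroAtImInfty ((tN N) ∣[wN N] γ) := by
  obtain ⟨a, b, d, ha, hd, c, -, h2, h3⟩ := tN_slash_eq N γ
  rw [h3]
  exact (Rfun_zero ha hd N (h2 hγ)).smul c

theorem tN_isMF : IsMF (CongruenceSubgroup.Gamma0 N) (wN N) (tN N) :=
  ⟨tN_holo N, fun _ hγ => tN_slash_Gamma0 N hγ, tN_bdd N⟩

theorem qParam_alphaN_smul (z : ℍ) : 𝕢 1 ((alphaN N • z : ℍ) : ℂ) = 𝕢 1 (z : ℂ) ^ N := by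
  unfold alphaN
  rw [coe_utGL_smul]
  unfold Periodic.qParam
  rw [← Complex.exp_nat_mul]
  congr 1
  push_cast
  ring

theorem tN_tendsto_one : Tendsto (tN N) atImInfty (𝓝 1) := by
  have h1 : tN N = Qfun (N_pos_real N) one_pos (b := 0) N := by
    ext z
    rw [tN_apply]
    have := Rfun_eq (N_pos_real N) one_pos (b := 0) N z
    unfold Rfun at this
    unfold alphaN
    rw [this]
    have h2 : Efun (N_pos_real N) one_pos (b := 0) N z = 1 := by
      unfold Efun
      have := qParam_alphaN_smul N z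
      unfold alphaN at this
      rw [this, div_self]
      exact pow_ne_zero _ (qParam_ne_zero _)
    rw [h2, one_mul]
  rw [h1]
  exact Qfun_tendsto _ _ N

end

end Fermat.Agent.RatStr
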