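import Mathlib

set_option autoImplicit false

namespace Fermat.Agent.RatStr

open UpperHalfPlane ModularForm ModularFormClass MatrixGroups EisensteinSeries

/-- The monomial `E₄^a E₆^b` as a level one modular form of weight `k = 4a + 6b`. -/
noncomputable def monoForm (a b : ℕ) (k : ℤ) (h : 4 * (a : ℤ) + 6 * (b : ℤ) = k) :
    ModularForm 𝒮ℒ k :=
  ModularForm.mcast (by linarith) ((E₄.pow a).mul (E₆.pow b))

theorem monoForm_apply (a b : ℕ) (k : ℤ) (h : 4 * (a : ℤ) + 6 * (b : ℤ) = k) (z : ℍ) :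
    monoForm a b k h z = E₄ z ^ a * E₆ z ^ b := by
  simp [monoForm, ModularForm.coe_mcast, ModularForm.coe_pow]

theorem qExpansion_monoForm (a b : ℕ) (k : ℤ) (h : 4 * (a : ℤ) + 6 * (b : ℤ) = k) :
    qExpansion 1 (monoForm a b k h) = qExpansion 1 E₄ ^ a * qExpansion 1 E₆ ^ b := by
  have h1 : (monoForm a b k h : ℍ → ℂ) = ((E₄.pow a).mul (E₆.pow b) : ℍ → ℂ) := by
    simp [monoForm, ModularForm.coe_mcast]
  rw [h1, ModularForm.qExpansion_mul one_pos one_mem_strictPeriods_SL,
    ModularForm.qExpansion_pow one_pos one_mem_strictPeriods_SL,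
    ModularForm.qExpansion_pow one_pos one_mem_strictPeriods_SL]

theorem qExpansion_monoForm_coeff_zero (a b : ℕ) (k : ℤ) (h : 4 * (a : ℤ) + 6 * (b : ℤ) = k) :
    (qExpansion 1 (monoForm a b k h)).coeff 0 = 1 := by
  rw [qExpansion_monoForm]
  have h4 : PowerSeries.constantCoeff (qExpansion 1 E₄) = 1 := by
    rw [← PowerSeries.coeff_zero_eq_constantCoeff_apply]
    exact E_qExpansion_coeff_zero _ ⟨2, rfl⟩
  have h6 : PowerSeries.constantCoeff (qExpansion 1 E₆) = 1 := by
    rw [← PowerSeries.coeff_zero_eq_constantCoeff_apply]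
    exact E_qExpansion_coeff_zero _ ⟨3, rfl⟩
  rw [PowerSeries.coeff_zero_eq_constantCoeff_apply, map_mul, map_pow, map_pow, h4, h6]
  simp

end Fermat.Agent.RatStr
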