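import Mathlib
import Fermat.Agent.RatStr.B_helper9_Mono

set_option autoImplicit false

namespace Fermat.Agent.RatStr

open UpperHalfPlane ModularForm ModularFormClass MatrixGroups EisensteinSeries

/-- The span of the isobaric monomials `E₄^a E₆^b`, `4a + 6b = k`. -/
def isoSpan (k : ℤ) : Submodule ℂ (ℍ → ℂ) :=
  Submodule.span ℂ {F | ∃ (a b : ℕ), 4 * (a : ℤ) + 6 * (b : ℤ) = k ∧
    F = fun z => E₄ z ^ a * E₆ z ^ b}

theorem mono_mem_isoSpan {k : ℤ} (a b : ℕ) (h : 4 * (a : ℤ) + 6 * (b : ℤ) = k) :
    (fun z : ℍ => E₄ z ^ a * E₆ z ^ b) ∈ isoSpan k :=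
  Submodule.subset_span ⟨a, b, h, rfl⟩

theorem discriminant_mul_mem_isoSpan {k : ℤ} {H : ℍ → ℂ} (hH : H ∈ isoSpan (k - 12)) :
    (fun z => discriminant z * H z) ∈ isoSpan k := by
  refine Submodule.span_induction (p := fun H _ => (fun z => discriminant z * H z) ∈ isoSpan k)
    ?_ ?_ ?_ ?_ hH
  · rintro _ ⟨a, b, hab, rfl⟩
    have h1 : (fun z : ℍ => discriminant z * (E₄ z ^ a * E₆ z ^ b)) =
        (1 / 1728 : ℂ) • ((fun z : ℍ => E₄ z ^ (a + 3) * E₆ z ^ b) -
          (fun z : ℍ => E₄ z ^ a * E₆ z ^ (b + 2))) := by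
      ext z
      simp only [Pi.smul_apply, Pi.sub_apply, smul_eq_mul]
      rw [discriminant_eq_E₄_cube_sub_E₆_sq z]
      ring
    rw [h1]
    refine (isoSpan k).smul_mem _ ((isoSpan k).sub_mem ?_ ?_)
    · exact mono_mem_isoSpan (a + 3) b (by push_cast; linarith)
    · exact mono_mem_isoSpan a (b + 2) (by push_cast; linarith)
  · have : (fun z => discriminant z * (0 : ℍ → ℂ) z) = 0 := by
      ext z; simp
    rw [this]
    exact (isoSpan k).zero_mem
  · intro x y _ _ hx hy
    have : (fun z => discriminant z * (x + y) z) =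
        (fun z => discriminant z * x z) + (fun z => discriminant z * y z) := by
      ext z; simp [mul_add]
    rw [this]
    exact (isoSpan k).add_mem hx hy
  · intro c x _ hx
    have : (fun z => discriminant z * (c • x) z) = c • (fun z => discriminant z * x z) := by
      ext z; simp [mul_left_comm]
    rw [this]
    exact (isoSpan k).smul_mem c hx

theorem exists_mono_weight {k : ℤ} (hk4 : 4 ≤ k) (hk : Even k) :
    ∃ a b : ℕ, 4 * (a : ℤ) + 6 * (b : ℤ) = k := by
  obtain ⟨r, hr⟩ := hk
  rcases Int.even_or_odd r with ⟨s, hs⟩ | ⟨s, hs⟩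
  · refine ⟨s.toNat, 0, ?_⟩
    rw [Int.toNat_of_nonneg (by omega)]
    push_cast
    omega
  · refine ⟨(s - 1).toNat, 1, ?_⟩
    rw [Int.toNat_of_nonneg (by omega)]
    push_cast
    omega

/-- **Structure theorem**: every level one modular form is an isobaric polynomial in `E₄`, `E₆`. -/
theorem coe_mem_isoSpan : ∀ (n : ℕ) (k : ℤ), k < n → ∀ F : ModularForm 𝒮ℒ k, ⇑F ∈ isoSpan k := by
  intro n
  induction n with
  | zero =>
    intro k hk F
    have : (F : ℍ → ℂ) = 0 := by
      ext z
      have := ModularFormClass.levelOne_neg_weight_eq_zero (by exact_mod_cast hk) F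
      rw [this]
    rw [this]
    exact (isoSpan k).zero_mem
  | succ n ih =>
    intro k hk F
    have hk' : k < (n : ℤ) + 1 := by push_cast at hk; exact hk
    rcases (Int.lt_add_one_iff.mp hk').lt_or_eq with hlt | rfl
    · exact ih k hlt F
    -- now `k = n`
    rcases Int.even_or_odd (n : ℤ) with hev | hodd
    swap
    · rw [levelOne_odd_weight_eq_zero hodd F]
      have : ((0 : ModularForm 𝒮ℒ (n : ℤ)) : ℍ → ℂ) = 0 := by ext z; simp
      rw [this]
      exact (isoSpan (n : ℤ)).zero_mem
    rcases Nat.lt_or_ge n 4 with hn4 | hn4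
    · -- n ∈ {0, 2}
      have hn : n = 0 ∨ n = 2 := by
        have : Even n := by exact_mod_cast hev
        interval_cases n
        · left; rfl
        · exact absurd this (by decide)
        · right; rfl
        · exact absurd this (by decide)
      rcases hn with rfl | rfl
      · obtain ⟨c, hc⟩ := ModularFormClass.levelOne_weight_zero_const F
        have : (F : ℍ → ℂ) = c • (fun z : ℍ => E₄ z ^ 0 * E₆ z ^ 0) := by
          rw [hc]
          ext z
          simp
        rw [this]
        exact (isoSpan _).smul_mem c (mono_mem_isoSpan 0 0 (by simp))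
      · have h0 : F = 0 :=
          rank_zero_iff_forall_zero.mp levelOne_weight_two_rank_zero F
        rw [h0]
        have : ((0 : ModularForm 𝒮ℒ ((2 : ℕ) : ℤ)) : ℍ → ℂ) = 0 := by ext z; simp
        rw [this]
        exact (isoSpan _).zero_mem
    · -- n ≥ 4 even
      obtain ⟨a, b, hab⟩ := exists_mono_weight (k := (n : ℤ)) (by exact_mod_cast hn4) hev
      set M := monoForm a b n hab with hM
      have hM0 := qExpansion_monoForm_coeff_zero a b n hab
      obtain ⟨g, hg⟩ := sub_smul_isCuspForm F M hM0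
      have hgE : (g : ℍ → ℂ) = ⇑(F - (qExpansion 1 F).coeff 0 • M) := congrArg DFunLike.coe hg
      have hH := ih ((n : ℤ) - 12) (by omega) (CuspForm.discriminantEquiv g)
      have hΔ := discriminant_mul_mem_isoSpan hH
      have key : (F : ℍ → ℂ) = (qExpansion 1 F).coeff 0 • (fun z : ℍ => E₄ z ^ a * E₆ z ^ b) +
          (fun z => discriminant z * (CuspForm.discriminantEquiv g) z) := by
        ext z
        simp only [Pi.add_apply, Pi.smul_apply, smul_eq_mul]
        rw [discriminant_mul_discriminantEquiv_apply, congr_fun hgE z]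
        simp [hM, monoForm_apply]
      rw [key]
      exact (isoSpan _).add_mem ((isoSpan _).smul_mem _ (mono_mem_isoSpan a b hab)) hΔ

theorem coe_mem_isoSpan' {k : ℤ} (F : ModularForm 𝒮ℒ k) : ⇑F ∈ isoSpan k :=
  coe_mem_isoSpan (k.toNat + 1) k (by omega) F

end Fermat.Agent.RatStr
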