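import Fermat.Agent.RatStr.Basic

set_option autoImplicit false

/-!
# Bundling / unbundling cusp forms for finite index subgroups of `SL(2, ℤ)`
-/

namespace Fermat.Agent.RatStr

open UpperHalfPlane ModularForm Filter
open scoped MatrixGroups ModularForm Manifold Topology

noncomputable section

variable {H : Subgroup SL(2, ℤ)} [H.FiniteIndex] {k : ℤ}

theorem IsCF.of_cuspForm (f : CuspForm (H : Subgroup (GL (Fin 2) ℝ)) k) : IsCF H k (f : ℍ → ℂ) where
  holo := CuspFormClass.holo f
  inv γ hγ := by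
    rw [SL_slash]
    exact SlashInvariantFormClass.slash_action_eq f _ (Subgroup.mem_map_of_mem _ hγ)
  bdd γ := ModularFormClass.bdd_at_infty_slash f γ
  zero γ := CuspFormClass.zero_at_infty_slash f γ

/-- bundle an unbundled cusp form. -/
def IsCF.toCuspForm {F : ℍ → ℂ} (h : IsCF H k F) : CuspForm (H : Subgroup (GL (Fin 2) ℝ)) k where
  toFun := F
  slash_action_eq' := by
    rintro _ ⟨γ, hγ, rfl⟩
    exact h.inv γ hγ
  holo' := h.holo
  zero_at_cusps' {c} hc := by
    rw [Subgroup.IsArithmetic.isCusp_iff_isCusp_SL2Z] at hc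
    rw [OnePoint.isZeroAt_iff_forall_SL2Z hc]
    intro γ _
    exact h.zero γ

@[simp] theorem IsCF.coe_toCuspForm {F : ℍ → ℂ} (h : IsCF H k F) :
    (h.toCuspForm : ℍ → ℂ) = F := rfl

end

end Fermat.Agent.RatStr
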