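import Mathlib

set_option autoImplicit false

/-!
# Unbundled modular forms for subgroups of `SL(2, ℤ)`

`IsMF H k F` says that `F : ℍ → ℂ` is holomorphic, invariant of weight `k` under `H ≤ SL(2,ℤ)`
and bounded at infinity after every `SL(2,ℤ)`-translate.
-/

namespace Fermat.Agent.RatStr

open UpperHalfPlane ModularForm Filter
open scoped MatrixGroups ModularForm Manifold Topology

noncomputable section

/-- Unbundled modular form of weight `k` for the subgroup `H` of `SL(2, ℤ)`. -/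
structure IsMF (H : Subgroup SL(2, ℤ)) (k : ℤ) (F : ℍ → ℂ) : Prop where
  holo : MDiff F
  inv : ∀ γ ∈ H, F ∣[k] γ = F
  bdd : ∀ γ : SL(2, ℤ), IsBoundedAtImInfty (F ∣[k] γ)

/-- Unbundled cusp form: additionally zero at infinity after each translate. -/
structure IsCF (H : Subgroup SL(2, ℤ)) (k : ℤ) (F : ℍ → ℂ) : Prop extends IsMF H k F where
  zero : ∀ γ : SL(2, ℤ), IsZeroAtImInfty (F ∣[k] γ)

variable {H : Subgroup SL(2, ℤ)} {k k₁ k₂ : ℤ} {F G : ℍ → ℂ}

theorem IsMF.mono {H' : Subgroup SL(2, ℤ)} (h : H' ≤ H) (hF : IsMF H k F) : IsMF H' k F :=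
  ⟨hF.holo, fun γ hγ => hF.inv γ (h hγ), hF.bdd⟩

theorem IsMF.weight_cast (h : k₁ = k₂) (hF : IsMF H k₁ F) : IsMF H k₂ F := h ▸ hF

theorem IsMF.bdd_one (hF : IsMF H k F) : IsBoundedAtImInfty F := by
  simpa using hF.bdd 1

theorem IsMF.zero : IsMF H k (0 : ℍ → ℂ) :=
  ⟨mdifferentiable_const, fun γ _ => SlashAction.zero_slash k γ, fun γ => by
    rw [SlashAction.zero_slash]; exact zero_form_isBoundedAtImInfty⟩

theorem IsMF.add (hF : IsMF H k F) (hG : IsMF H k G) : IsMF H k (F + G) :=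
  ⟨hF.holo.add hG.holo, fun γ hγ => by rw [SlashAction.add_slash, hF.inv γ hγ, hG.inv γ hγ],
    fun γ => by rw [SlashAction.add_slash]; exact (hF.bdd γ).add (hG.bdd γ)⟩

theorem IsMF.neg (hF : IsMF H k F) : IsMF H k (-F) :=
  ⟨hF.holo.neg, fun γ hγ => by rw [SlashAction.neg_slash, hF.inv γ hγ],
    fun γ => by rw [SlashAction.neg_slash]; exact (hF.bdd γ).neg⟩

theorem IsMF.sub (hF : IsMF H k F) (hG : IsMF H k G) : IsMF H k (F - G) := by
  rw [sub_eq_add_neg]; exact hF.add hG.neg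

theorem IsMF.smul (c : ℂ) (hF : IsMF H k F) : IsMF H k (c • F) :=
  ⟨hF.holo.const_smul c, fun γ hγ => by rw [SL_smul_slash, hF.inv γ hγ],
    fun γ => by rw [SL_smul_slash]; exact (hF.bdd γ).smul c⟩

theorem IsMF.mul (hF : IsMF H k₁ F) (hG : IsMF H k₂ G) : IsMF H (k₁ + k₂) (F * G) :=
  ⟨hF.holo.mul hG.holo, fun γ hγ => by rw [mul_slash_SL2, hF.inv γ hγ, hG.inv γ hγ],
    fun γ => by rw [mul_slash_SL2]; exact (hF.bdd γ).mul (hG.bdd γ)⟩

theorem IsMF.one : IsMF H 0 (1 : ℍ → ℂ) :=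
  ⟨mdifferentiable_const, fun γ _ => is_invariant_one γ, fun γ => by
    rw [is_invariant_one]; exact const_boundedAtFilter atImInfty (1 : ℂ)⟩

theorem IsMF.const (c : ℂ) : IsMF H 0 (fun _ => c : ℍ → ℂ) := by
  have : (fun _ => c : ℍ → ℂ) = c • (1 : ℍ → ℂ) := by ext z; simp
  rw [this]; exact IsMF.one.smul c

theorem IsMF.pow (hF : IsMF H k F) (n : ℕ) : IsMF H (n * k) (F ^ n) := by
  induction n with
  | zero => simpa using (IsMF.one : IsMF H 0 (1 : ℍ → ℂ))
  | succ n ih =>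
    rw [pow_succ]
    exact (ih.mul hF).weight_cast (by push_cast; ring)

theorem IsMF.sum {ι : Type*} (s : Finset ι) (f : ι → ℍ → ℂ) (hf : ∀ i ∈ s, IsMF H k (f i)) :
    IsMF H k (∑ i ∈ s, f i) := by
  classical
  induction s using Finset.induction_on with
  | empty => simpa using (IsMF.zero : IsMF H k 0)
  | insert i t hi ih =>
    rw [Finset.sum_insert hi]
    exact (hf i (Finset.mem_insert_self i t)).add
      (ih fun j hj => hf j (Finset.mem_insert_of_mem hj))

end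

end Fermat.Agent.RatStr
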