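import Fermat.Agent.RatStr.Primitive

set_option autoImplicit false

/-!
# `t_N` has rational q-expansion
-/

namespace Fermat.Agent.RatStr

open UpperHalfPlane ModularForm Filter Function
open scoped MatrixGroups ModularForm Manifold Topology Real

noncomputable section

local notation "Δ" => ModularForm.discriminant
local notation "𝕢" => Periodic.qParam

variable (N : ℕ) [NeZero N]

omit [NeZero N] in
theorem T_mem_Gamma0 : ModularGroup.T ∈ CongruenceSubgroup.Gamma0 N := by
  rw [CongruenceSubgroup.Gamma0_mem]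
  simp [ModularGroup.T]

theorem DN_isNice : IsNice (DN N) :=
  ⟨periodic_of_slash_T (DN_slash_Gamma0 N (T_mem_Gamma0 N)), DN_holo N, by
    unfold DN
    exact IsBoundedAtImInfty.slash 12 (by simp [alphaN, val_utGL])
      discriminant_isZeroAtImInfty.isBoundedAtImInfty⟩

theorem tN_isNice : IsNice (tN N) := (tN_isMF N).isNice (T_mem_Gamma0 N)

/-- coefficients of `DN`. -/
def cDN (m : ℕ) : ℂ :=
  if N ∣ m then (N : ℂ) ^ (11 : ℤ) * (qExpansion 1 (Δ : ℍ → ℂ)).coeff (m / N) else 0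

theorem DN_hasSum (z : ℍ) : HasSum (fun m : ℕ => cDN N m • 𝕢 1 z ^ m) (DN N z) := by
  have h := isNice_discriminant.hasSum_qExpansion (alphaN N • z)
  rw [qParam_alphaN_smul] at h
  have h' := h.mul_right ((N : ℂ) ^ (11 : ℤ))
  rw [← DN_apply] at h'
  have hinj : Injective (fun n : ℕ => N * n) := mul_right_injective₀ (NeZero.ne N)
  rw [← hinj.hasSum_iff]
  · have hfun : ((fun m : ℕ => cDN N m • 𝕢 1 (z : ℂ) ^ m) ∘ fun n : ℕ => N * n) =
        fun i => (qExpansion 1 (Δ : ℍ → ℂ)).coeff i • (𝕢 1 (z : ℂ) ^ N) ^ i *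
          (N : ℂ) ^ (11 : ℤ) := by
      funext n
      simp only [comp_apply, cDN, dvd_mul_right, if_true, smul_eq_mul,
        Nat.mul_div_cancel_left n (Nat.pos_of_ne_zero (NeZero.ne N)), pow_mul]
      ring
    rw [hfun]
    exact h'
  · intro m hm
    have : ¬ N ∣ m := by
      rintro ⟨n, rfl⟩
      exact hm ⟨n, rfl⟩
    simp [cDN, this]

theorem DN_qExpansion_coeff (m : ℕ) : (qExpansion 1 (DN N)).coeff m = cDN N m :=
  ((DN_isNice N).coeff_unique (DN_hasSum N) m).symm

theorem DN_isRatQ : IsRatQ (DN N) := by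
  rw [isRatQ_iff]
  intro m
  rw [DN_qExpansion_coeff]
  unfold cDN
  split_ifs
  · have h1 := (isRatQ_iff.mp isRatQ_discriminant) (m / N)
    refine Subfield.mul_mem _ ?_ h1
    exact ⟨(N : ℚ) ^ (11 : ℤ), by simp⟩
  · exact Subfield.zero_mem _

theorem DN_ne_zero_fun : DN N ≠ 0 := fun h => DN_ne_zero N UpperHalfPlane.I (by rw [h]; rfl)

theorem tN_mul_DN : tN N * DN N = ((N : ℂ) ^ (11 : ℤ)) • (Δ : ℍ → ℂ) ^ N := by
  ext z
  unfold tN
  simp only [Pi.mul_apply, Pi.smul_apply, Pi.div_apply, Pi.pow_apply, smul_eq_mul]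
  have := DN_ne_zero N z
  field_simp

theorem tN_isRatQ : IsRatQ (tN N) := by
  refine isRatQ_of_mul (tN_isNice N) (DN_isNice N) (DN_ne_zero_fun N) (DN_isRatQ N) ?_
  rw [tN_mul_DN]
  have h := IsRatQ.smul_rat (isNice_discriminant.pow N) (IsRatQ.pow isNice_discriminant
    isRatQ_discriminant N) ((N : ℚ) ^ (11 : ℤ))
  convert h using 2
  simp

end

end Fermat.Agent.RatStr
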