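import Fermat.Agent.RatStr.ConjPair

set_option autoImplicit false

/-!
# Level one forms are spanned by forms with rational q-expansion
-/

namespace Fermat.Agent.RatStr

open UpperHalfPlane ModularForm Filter Function EisensteinSeries
open scoped MatrixGroups ModularForm Manifold Topology

noncomputable section

variable {k : ℤ}

/-- bundled level one forms are unbundled level one forms. -/
theorem IsMF.of_modularForm (G : ModularForm 𝒮ℒ k) : IsMF ⊤ k (G : ℍ → ℂ) :=
  ⟨ModularFormClass.holo G,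
    fun γ _ => by
      rw [SL_slash]
      exact SlashInvariantFormClass.slash_action_eq G _ ⟨γ, rfl⟩,
    fun γ => ModularFormClass.bdd_at_infty_slash G γ⟩

/-- unbundled level one forms can be bundled. -/
def IsMF.toModularForm {F : ℍ → ℂ} (h : IsMF ⊤ k F) : ModularForm 𝒮ℒ k where
  toFun := F
  slash_action_eq' := by
    rintro _ ⟨γ, rfl⟩
    exact h.inv γ (Subgroup.mem_top γ)
  holo' := h.holo
  bdd_at_cusps' {c} hc := by
    rw [Subgroup.IsArithmetic.isCusp_iff_isCusp_SL2Z] at hc
    rw [OnePoint.isBoundedAt_iff_forall_SL2Z hc]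
    intro γ _
    exact h.bdd γ

@[simp] theorem IsMF.coe_toModularForm {F : ℍ → ℂ} (h : IsMF ⊤ k F) :
    (h.toModularForm : ℍ → ℂ) = F := rfl

theorem T_mem_top : ModularGroup.T ∈ (⊤ : Subgroup SL(2, ℤ)) := Subgroup.mem_top _

theorem isNice_modularForm (G : ModularForm 𝒮ℒ k) : IsNice (G : ℍ → ℂ) :=
  (IsMF.of_modularForm G).isNice T_mem_top

theorem isRatQ_E {k : ℕ} (hk : 3 ≤ k) (hk2 : Even k) : IsRatQ (E hk : ℍ → ℂ) := by
  refine ⟨PowerSeries.mk fun m => if m = 0 then 1
    else -(2 * k / bernoulli k : ℚ) * (ArithmeticFunction.sigma (k - 1) m : ℚ), ?_⟩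
  ext m
  rw [E_qExpansion_coeff hk hk2, PowerSeries.coeff_map, PowerSeries.coeff_mk]
  split_ifs
  · simp
  · simp only [eq_ratCast]
    push_cast
    ring

theorem discriminant_eq_smul :
    (ModularForm.discriminant : ℍ → ℂ) =
      ((1 / 1728 : ℚ) : ℂ) • ((E₄ : ℍ → ℂ) ^ 3 - (E₆ : ℍ → ℂ) ^ 2) := by
  ext z
  rw [discriminant_eq_E₄_cube_sub_E₆_sq z]
  simp only [Pi.smul_apply, Pi.sub_apply, Pi.pow_apply, smul_eq_mul]
  push_cast
  ring

theorem isRatQ_discriminant : IsRatQ (ModularForm.discriminant : ℍ → ℂ) := by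
  rw [discriminant_eq_smul]
  have h4 : IsNice (E₄ : ℍ → ℂ) := isNice_modularForm _
  have h6 : IsNice (E₆ : ℍ → ℂ) := isNice_modularForm _
  exact IsRatQ.smul_rat ((h4.pow 3).sub (h6.pow 2))
    (IsRatQ.sub (h4.pow 3) (h6.pow 2) (IsRatQ.pow h4 (isRatQ_E _ ⟨2, rfl⟩) 3)
      (IsRatQ.pow h6 (isRatQ_E _ ⟨3, rfl⟩) 2)) _

theorem isNice_discriminant : IsNice (ModularForm.discriminant : ℍ → ℂ) :=
  isNice_modularForm (CuspForm.discriminant : ModularForm 𝒮ℒ 12)

/-- multiplication by `Δ` as a linear map. -/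
def mulDiscriminantₗ (k : ℤ) : ModularForm 𝒮ℒ (k - 12) →ₗ[ℂ] ModularForm 𝒮ℒ k :=
  CuspForm.toModularFormₗ.comp (CuspForm.discriminantEquiv (k := k)).symm.toLinearMap

theorem mulDiscriminantₗ_apply (G : ModularForm 𝒮ℒ (k - 12)) :
    (mulDiscriminantₗ k G : ℍ → ℂ) = (ModularForm.discriminant : ℍ → ℂ) * (G : ℍ → ℂ) := by
  ext z
  rfl

/-- **Every level one modular form is a combination of forms with rational q-expansion.** -/
theorem levelOne_mem_span_rat (k : ℤ) (G : ModularForm 𝒮ℒ k) :
    G ∈ Submodule.span ℂ {G' : ModularForm 𝒮ℒ k | IsRatQ (G' : ℍ → ℂ)} := by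
  induction hn : k.toNat using Nat.strong_induction_on generalizing k with
  | _ n ih =>
  rcases lt_or_ge k 0 with hneg | hnn
  · have : G = 0 := rank_zero_iff_forall_zero.mp (levelOne_neg_weight_rank_zero hneg) G
    rw [this]; exact Submodule.zero_mem _
  rcases Int.even_or_odd k with hev | hodd
  swap
  · rw [levelOne_odd_weight_eq_zero hodd G]; exact Submodule.zero_mem _
  lift k to ℕ using hnn
  have hev' : Even k := by exact_mod_cast hev
  by_cases hk3 : 3 ≤ k
  · have hc := sub_smul_isCuspForm G (E hk3) (E_qExpansion_coeff_zero hk3 hev')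
    rw [isCuspForm_iff_coeffZero_eq_zero] at hc
    set a₀ := (qExpansion 1 G).coeff 0 with ha₀
    set G₁ := G - a₀ • E hk3 with hG₁
    set G' := CuspForm.discriminantEquiv (toCuspForm G₁ hc) with hG'
    have ih' := ih ((k : ℤ) - 12).toNat (by omega) ((k : ℤ) - 12) G' rfl
    have h1 : mulDiscriminantₗ (k : ℤ) G' = G₁ := by
      ext z
      rw [mulDiscriminantₗ_apply]
      simp only [Pi.mul_apply]
      rw [hG', discriminant_mul_discriminantEquiv_apply]
      rfl
    have h2 : mulDiscriminantₗ (k : ℤ) G' ∈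
        Submodule.span ℂ {G' : ModularForm 𝒮ℒ (k : ℤ) | IsRatQ (G' : ℍ → ℂ)} := by
      have := Submodule.apply_mem_span_image_of_mem_span (mulDiscriminantₗ (k : ℤ)) ih'
      refine Submodule.span_mono ?_ this
      rintro _ ⟨G'', hG'', rfl⟩
      simp only [Set.mem_ofPred_eq] at hG'' ⊢
      rw [mulDiscriminantₗ_apply]
      exact IsRatQ.mul isNice_discriminant (isNice_modularForm _) isRatQ_discriminant hG''
    have h3 : G = mulDiscriminantₗ (k : ℤ) G' + a₀ • E hk3 := by
      rw [h1, hG₁]; abel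
    rw [h3]
    exact Submodule.add_mem _ h2
      (Submodule.smul_mem _ _ (Submodule.subset_span (isRatQ_E hk3 hev')))
  · have hk : k = 0 ∨ k = 2 := by
      rcases hev' with ⟨r, hr⟩
      omega
    rcases hk with rfl | rfl
    · obtain ⟨c, hc⟩ := ModularFormClass.levelOne_weight_zero_const G
      have : G = c • (1 : ModularForm 𝒮ℒ 0) := by
        ext z
        rw [hc]
        simp
      have h0 : ((0 : ℕ) : ℤ) = 0 := rfl
      rw [this]
      refine Submodule.smul_mem _ _ (Submodule.subset_span ?_)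
      simp only [Set.mem_ofPred_eq]
      rw [one_coe_eq_one]
      exact IsRatQ.one
    · have : G = 0 :=
        rank_zero_iff_forall_zero.mp levelOne_weight_two_rank_zero G
      rw [this]; exact Submodule.zero_mem _

end

end Fermat.Agent.RatStr
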