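import Mathlib
import Fermat.Agent.S22
import Fermat.Agent.Helper2.CuspLattice

/-!
# Bounded denominators from finiteness of the Hecke algebra

If `f ∈ S_k(Γ₀(N))` (`k ≥ 1`) has rational `q`-expansion coefficients, then some nonzero integer
multiple of `f` has integral coefficients.  Consequently a rational structure on `S_k(Γ₀(N))`
gives an integral structure.  Input: `Module.Finite ℤ (heckeAlgebra N k ∅)` (statement S22).
-/

set_option autoImplicit false

namespace Fermat.Agent.RatStr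

open ModularForm ModularFormClass CuspForm Fermat.Agent.Helper2

local notation "Γ₀(" N ")" => CongruenceSubgroup.Gamma0 N

noncomputable section

variable {N : ℕ} [NeZero N] {k : ℤ}

/-- `t ↦ a₁ ∘ t`, as a `ℤ`-linear map. -/
def a1Comp (N : ℕ) (k : ℤ) :
    Module.End ℂ (CuspForm Γ₀(N) k) →ₗ[ℤ] Module.Dual ℂ (CuspForm Γ₀(N) k) where
  toFun t := (qCoeffLin N k 1).comp t
  map_add' s t := by ext f; simp
  map_smul' c t := by ext f; simp

omit [NeZero N] in
@[simp] theorem a1Comp_apply (t : Module.End ℂ (CuspForm Γ₀(N) k)) (f : CuspForm Γ₀(N) k) :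
    a1Comp N k t f = qCoeff ⇑(t f) 1 := rfl

/-- The lattice of functionals `f ↦ a₁(t f)`, `t` in the Hecke algebra. -/
def coeffLattice (N : ℕ) [NeZero N] (k : ℤ) :
    Submodule ℤ (Module.Dual ℂ (CuspForm Γ₀(N) k)) :=
  Submodule.map (a1Comp N k) (Subalgebra.toSubmodule (heckeAlgebra N k ∅))

theorem coeffLattice_fg (N : ℕ) [NeZero N] (k : ℤ) : (coeffLattice N k).FG := by
  have h : Module.Finite ℤ (heckeAlgebra N k ∅) := Fermat.Agent.S22.result N k ∅
  have h2 : (Subalgebra.toSubmodule (heckeAlgebra N k ∅)).FG := by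
    rw [← Submodule.fg_top]
    exact Module.finite_def.mp h
  exact h2.map _

theorem mem_coeffLattice {φ : Module.Dual ℂ (CuspForm Γ₀(N) k)} :
    φ ∈ coeffLattice N k ↔ ∃ t ∈ heckeAlgebra N k ∅, (qCoeffLin N k 1).comp t = φ := by
  simp [coeffLattice, Submodule.mem_map, a1Comp]

theorem comp_mem_coeffLattice {φ : Module.Dual ℂ (CuspForm Γ₀(N) k)} (hφ : φ ∈ coeffLattice N k)
    {s : Module.End ℂ (CuspForm Γ₀(N) k)} (hs : s ∈ heckeAlgebra N k ∅) :
    φ.comp s ∈ coeffLattice N k := by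
  obtain ⟨t, ht, rfl⟩ := mem_coeffLattice.mp hφ
  exact mem_coeffLattice.mpr ⟨t * s, mul_mem ht hs, rfl⟩

/-- Every coefficient functional `aₙ` lies in the lattice. -/
theorem qCoeffLin_mem_coeffLattice (hk : 1 ≤ k) (n : ℕ) : qCoeffLin N k n ∈ coeffLattice N k := by
  induction n using Nat.strong_induction_on with
  | _ n ih =>
    rcases Nat.lt_or_ge n 2 with hn | hn
    · interval_cases n
      · have : qCoeffLin N k 0 = 0 := by
          ext f
          exact qCoeff_cusp_idx_zero f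
        rw [this]
        exact zero_mem _
      · exact mem_coeffLattice.mpr ⟨1, one_mem _, by ext f; simp [qCoeffLin]⟩
    · have hn1 : n ≠ 1 := by omega
      set p := n.minFac with hp
      have hpp : p.Prime := Nat.minFac_prime hn1
      obtain ⟨m, hm⟩ : p ∣ n := Nat.minFac_dvd n
      have hm' : n = m * p := by rw [hm, mul_comm]
      have hmpos : 0 < m := by
        rcases Nat.eq_zero_or_pos m with h0 | h0
        · rw [h0, mul_zero] at hm; omega
        · exact h0
      have hmn : m < n := by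
        rw [hm']
        exact lt_mul_of_one_lt_right hmpos hpp.one_lt
      by_cases hpN : p ∣ N
      · -- `aₙ = aₘ ∘ U_p`
        have hU := heckeULin_mem_heckeAlgebra (N := N) (k := k) (S := ∅) hpp hpN (Set.notMem_empty _)
        have key : qCoeffLin N k n = (qCoeffLin N k m).comp (CuspForm.heckeULin k hpN) := by
          ext f
          show qCoeff ⇑f n = qCoeff ⇑(CuspForm.heckeULin k hpN f) m
          rw [qCoeff_heckeULin hpp hpN, coeffHeckeU_apply, hm']
        rw [key]
        exact comp_mem_coeffLattice (ih m hmn) hU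
      · -- `aₙ = aₘ ∘ T_p - [p ∣ m] p^(k-1) a_(m/p)`
        have hT := heckeTLin_mem_heckeAlgebra (N := N) (k := k) (S := ∅) hpp hpN (Set.notMem_empty _)
        have h1 := comp_mem_coeffLattice (ih m hmn) hT
        obtain ⟨e, he⟩ : ∃ e : ℕ, k - 1 = (e : ℤ) := ⟨(k - 1).toNat, by omega⟩
        by_cases hpm : p ∣ m
        · have hdiv : m / p < n := lt_of_le_of_lt (Nat.div_le_self m p) hmn
          have key : qCoeffLin N k n = (qCoeffLin N k m).comp (CuspForm.heckeTLin k hpp hpN) -
              ((p ^ e : ℕ) : ℤ) • qCoeffLin N k (m / p) := by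
            ext f
            show qCoeff ⇑f n = qCoeff ⇑(CuspForm.heckeTLin k hpp hpN f) m -
              (((p ^ e : ℕ) : ℤ) • qCoeffLin N k (m / p)) f
            rw [qCoeff_heckeTLin hpp hpN, coeffHeckeT_of_dvd k hpm, he, zpow_natCast, ← hm']
            simp [qCoeffLin]
          rw [key]
          exact sub_mem h1 (Submodule.smul_mem _ _ (ih (m / p) hdiv))
        · have key : qCoeffLin N k n = (qCoeffLin N k m).comp (CuspForm.heckeTLin k hpp hpN) := by
            ext f
            show qCoeff ⇑f n = qCoeff ⇑(CuspForm.heckeTLin k hpp hpN f) m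
            rw [qCoeff_heckeTLin hpp hpN, coeffHeckeT_of_not_dvd k hpm, hm']
          rw [key]
          exact h1

/-- Cusp forms with rational `q`-expansion coefficients. -/
def ratForms (N : ℕ) (k : ℤ) : AddSubgroup (CuspForm Γ₀(N) k) where
  carrier := {f | ∀ n : ℕ, ∃ r : ℚ, qCoeff ⇑f n = (r : ℂ)}
  zero_mem' n := ⟨0, by rw [qCoeff_cusp_zero]; simp⟩
  add_mem' {f g} hf hg n := by
    obtain ⟨r, hr⟩ := hf n
    obtain ⟨s, hs⟩ := hg n
    exact ⟨r + s, by rw [qCoeff_cusp_add, hr, hs]; push_cast; rfl⟩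
  neg_mem' {f} hf n := by
    obtain ⟨r, hr⟩ := hf n
    exact ⟨-r, by rw [qCoeff_cusp_neg, hr]; push_cast; rfl⟩

omit [NeZero N] in
theorem mem_ratForms {f : CuspForm Γ₀(N) k} :
    f ∈ ratForms N k ↔ ∀ n : ℕ, ∃ r : ℚ, qCoeff ⇑f n = (r : ℂ) := Iff.rfl

omit [NeZero N] in
theorem heckeTLin_mem_ratForms {p : ℕ} (hp : p.Prime) (hpN : ¬ p ∣ N) {f : CuspForm Γ₀(N) k}
    (hf : f ∈ ratForms N k) : CuspForm.heckeTLin k hp hpN f ∈ ratForms N k := by
  intro n
  rw [qCoeff_heckeTLin hp hpN, coeffHeckeT_apply]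
  obtain ⟨r, hr⟩ := hf (n * p)
  split_ifs with h
  · obtain ⟨s, hs⟩ := hf (n / p)
    exact ⟨r + (p : ℚ) ^ (k - 1) * s, by rw [hr, hs]; push_cast; rfl⟩
  · exact ⟨r, by rw [hr, add_zero]⟩

theorem heckeULin_mem_ratForms {p : ℕ} (hp : p.Prime) (hpN : p ∣ N) {f : CuspForm Γ₀(N) k}
    (hf : f ∈ ratForms N k) : CuspForm.heckeULin k hpN f ∈ ratForms N k := by
  intro n
  rw [qCoeff_heckeULin hp hpN, coeffHeckeU_apply]
  exact hf (n * p)

/-- The Hecke algebra preserves the forms with rational coefficients. -/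
theorem heckeAlgebra_apply_mem_ratForms {t : Module.End ℂ (CuspForm Γ₀(N) k)}
    (ht : t ∈ heckeAlgebra N k ∅) {f : CuspForm Γ₀(N) k} (hf : f ∈ ratForms N k) :
    t f ∈ ratForms N k := by
  induction ht using Algebra.adjoin_induction generalizing f with
  | mem t ht =>
    rcases ht with ⟨ℓ, hℓ, hℓN, -, rfl⟩ | ⟨q, hqN, hq, -, rfl⟩
    · exact heckeTLin_mem_ratForms hℓ hℓN hf
    · exact heckeULin_mem_ratForms hq hqN hf
  | algebraMap c =>
    have : (algebraMap ℤ (Module.End ℂ (CuspForm Γ₀(N) k)) c) f = c • f := by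
      simp
    rw [this]
    exact (ratForms N k).zsmul_mem hf c
  | add s t _ _ hs ht =>
    rw [LinearMap.add_apply]
    exact (ratForms N k).add_mem (hs hf) (ht hf)
  | mul s t _ _ hs ht =>
    rw [Module.End.mul_apply]
    exact hs (ht hf)

/-- A finitely generated `ℤ`-submodule of `ℂ` consisting of rational numbers has a common
denominator. -/
theorem exists_common_denominator (M : Submodule ℤ ℂ) (hfg : M.FG)
    (hM : ∀ x ∈ M, ∃ r : ℚ, x = (r : ℂ)) :
    ∃ D : ℤ, D ≠ 0 ∧ ∀ x ∈ M, ∃ m : ℤ, (D : ℂ) * x = (m : ℂ) := by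
  obtain ⟨s, hs⟩ := hfg
  subst hs
  classical
  have key : ∀ t : Finset ℂ, (∀ x ∈ t, ∃ r : ℚ, x = (r : ℂ)) →
      ∃ D : ℤ, D ≠ 0 ∧ ∀ x ∈ t, ∃ m : ℤ, (D : ℂ) * x = (m : ℂ) := by
    intro t
    induction t using Finset.induction_on with
    | empty => intro _; exact ⟨1, one_ne_zero, by simp⟩
    | insert a t _ ih =>
      intro h
      obtain ⟨D, hD, hDt⟩ := ih (fun x hx => h x (Finset.mem_insert_of_mem hx))
      obtain ⟨r, hr⟩ := h a (Finset.mem_insert_self a t)
      refine ⟨D * r.den, mul_ne_zero hD (by exact_mod_cast r.den_ne_zero), fun x hx => ?_⟩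
      rcases Finset.mem_insert.mp hx with rfl | hx
      · refine ⟨D * r.num, ?_⟩
        rw [hr]
        have : ((r.den : ℂ)) * (r : ℂ) = (r.num : ℂ) := by
          have := Rat.den_mul_eq_num r
          exact_mod_cast this
        push_cast
        linear_combination (D : ℂ) * this
      · obtain ⟨m, hm⟩ := hDt x hx
        refine ⟨m * r.den, ?_⟩
        push_cast
        linear_combination (r.den : ℂ) * hm
  obtain ⟨D, hD, hDs⟩ := key s (fun x hx => hM x (Submodule.subset_span hx))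
  refine ⟨D, hD, fun x hx => ?_⟩
  induction hx using Submodule.span_induction with
  | mem x hx => exact hDs x hx
  | zero => exact ⟨0, by simp⟩
  | add x y _ _ hx hy =>
    obtain ⟨m, hm⟩ := hx
    obtain ⟨n, hn⟩ := hy
    exact ⟨m + n, by push_cast; rw [mul_add, hm, hn]⟩
  | smul c x _ hx =>
    obtain ⟨m, hm⟩ := hx
    refine ⟨c * m, ?_⟩
    rw [zsmul_eq_mul]
    push_cast
    linear_combination (c : ℂ) * hm

/-- **Bounded denominators**: a cusp form of weight `k ≥ 1` and level `Γ₀(N)` with rational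
`q`-coefficients has an integer multiple with integral `q`-coefficients. -/
theorem exists_int_smul_mem_intLattice (hk : 1 ≤ k) {f : CuspForm Γ₀(N) k}
    (hf : f ∈ ratForms N k) : ∃ D : ℤ, D ≠ 0 ∧ D • f ∈ CuspForm.intLattice N k := by
  -- evaluate the coefficient lattice at `f`
  let evf : Module.Dual ℂ (CuspForm Γ₀(N) k) →ₗ[ℤ] ℂ :=
    { toFun := fun φ => φ f
      map_add' := fun φ ψ => rfl
      map_smul' := fun c φ => rfl }
  have hfg : (Submodule.map evf (coeffLattice N k)).FG := (coeffLattice_fg N k).map _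
  have hrat : ∀ x ∈ Submodule.map evf (coeffLattice N k), ∃ r : ℚ, x = (r : ℂ) := by
    rintro x ⟨φ, hφ, rfl⟩
    obtain ⟨t, ht, rfl⟩ := mem_coeffLattice.mp hφ
    exact heckeAlgebra_apply_mem_ratForms ht hf 1
  obtain ⟨D, hD, hDint⟩ := exists_common_denominator _ hfg hrat
  refine ⟨D, hD, ?_⟩
  rw [mem_intLattice_iff']
  intro n
  obtain ⟨m, hm⟩ := hDint (qCoeff ⇑f n)
    ⟨qCoeffLin N k n, qCoeffLin_mem_coeffLattice hk n, rfl⟩
  exact ⟨m, by rw [qCoeff_cusp_zsmul, hm]⟩

/-- A rational structure on `S_k(Γ₀(N))`, `k ≥ 1`, yields an integral structure. -/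
theorem hasIntegralStructure_of_span_ratForms (hk : 1 ≤ k)
    (h : Submodule.span ℂ ((ratForms N k : AddSubgroup (CuspForm Γ₀(N) k)) :
      Set (CuspForm Γ₀(N) k)) = ⊤) : CuspForm.HasIntegralStructure N k := by
  unfold CuspForm.HasIntegralStructure
  rw [eq_top_iff, ← h]
  refine Submodule.span_le.mpr (fun f hf => ?_)
  obtain ⟨D, hD, hDf⟩ := exists_int_smul_mem_intLattice hk hf
  have hD' : (D : ℂ) ≠ 0 := by exact_mod_cast hD
  have : f = ((D : ℂ)⁻¹) • (D • f) := by
    rw [← Int.cast_smul_eq_zsmul ℂ D f, smul_smul, inv_mul_cancel₀ hD', one_smul]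
  rw [this]
  exact Submodule.smul_mem _ _ (Submodule.subset_span hDf)

end

end Fermat.Agent.RatStr
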