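import Mathlib

/-!
# S23 (rational structure), package (E): Galois descent for spaces of complex sequences

* `exists_ringAut_ne` : the fixed field of `Aut(ℂ)` is `ℚ`.
* `span_rational_of_aut_stable` : a finite-dimensional space of complex sequences stable under
  `Aut(ℂ)` (acting coordinatewise) is spanned by its rational points.
-/

set_option autoImplicit false
set_option linter.style.haveILetI false

namespace Fermat.Agent.RatStr

open MvPolynomial Module

section Extend

variable {R K ι : Type*} [Field R] [Field K] [IsAlgClosed K] [Algebra R K]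

/-- Any ring automorphism of the polynomial ring on a transcendence basis extends to a ring
automorphism of the algebraically closed field. -/
theorem exists_ringEquiv_of_mvPolynomial (v : ι → K) (hv : IsTranscendenceBasis R v)
    (θ : MvPolynomial ι R ≃+* MvPolynomial ι R) :
    ∃ σ : K ≃+* K, ∀ p : MvPolynomial ι R, σ (aeval v p) = aeval v (θ p) := by
  letI := IsAlgClosed.isAlgClosure_of_transcendence_basis v hv
  let e : Algebra.adjoin R (Set.range v) ≃+* Algebra.adjoin R (Set.range v) :=
    hv.1.aevalEquiv.symm.toRingEquiv.trans (θ.trans hv.1.aevalEquiv.toRingEquiv)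
  refine ⟨IsAlgClosure.equivOfEquiv K K e, fun p => ?_⟩
  rw [← hv.1.algebraMap_aevalEquiv, IsAlgClosure.equivOfEquiv_algebraMap,
    ← hv.1.algebraMap_aevalEquiv]
  congr 1
  simp [e]

end Extend

/-- The fixed field of the ring automorphisms of `ℂ` is `ℚ`. -/
theorem exists_ringAut_ne {x : ℂ} (hx : x ∉ Set.range ((↑) : ℚ → ℂ)) :
    ∃ σ : ℂ ≃+* ℂ, σ x ≠ x := by
  by_cases halg : IsAlgebraic ℚ x
  · -- algebraic case: move `x` inside the algebraic closure of `ℚ` in `ℂ`
    let x' : algebraicClosure ℚ ℂ := ⟨x, (mem_algebraicClosure_iff).2 halg⟩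
    have hx' : x' ∉ Set.range (algebraMap ℚ (algebraicClosure ℚ ℂ)) := by
      rintro ⟨q, hq⟩
      apply hx
      refine ⟨q, ?_⟩
      have := congrArg (algebraMap (algebraicClosure ℚ ℂ) ℂ) hq
      simpa [x'] using this
    haveI : IsAlgClosure ℚ (algebraicClosure ℚ ℂ) := algebraicClosure.isAlgClosure ℚ ℂ
    haveI : IsGalois ℚ (algebraicClosure ℚ ℂ) := IsAlgClosure.isGalois ℚ (algebraicClosure ℚ ℂ)
    rw [InfiniteGalois.mem_range_algebraMap_iff_fixed] at hx'
    push Not at hx'
    obtain ⟨f, hf⟩ := hx'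
    obtain ⟨ι, v, hv⟩ := exists_isTranscendenceBasis' (algebraicClosure ℚ ℂ) ℂ
    obtain ⟨σ, hσ⟩ := exists_ringEquiv_of_mvPolynomial v hv
      (MvPolynomial.mapEquiv ι f.toRingEquiv)
    refine ⟨σ, ?_⟩
    have h1 := hσ (C x')
    simp only [aeval_C, MvPolynomial.mapEquiv_apply, map_C] at h1
    have h2 : algebraMap (algebraicClosure ℚ ℂ) ℂ x' = x := rfl
    rw [h2] at h1
    rw [h1]
    intro h3
    apply hf
    apply (algebraMap (algebraicClosure ℚ ℂ) ℂ).injective
    rw [h2]
    exact h3
  · -- transcendental case: shift `x` to `x + 1`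
    have hind : AlgebraicIndepOn ℚ id ({x} : Set ℂ) := by
      exact (algebraicIndependent_singleton_iff (R := ℚ) (x := fun i : ({x} : Set ℂ) => id (i : ℂ))
        (⟨x, rfl⟩ : ({x} : Set ℂ))).2 halg
    obtain ⟨t, hxt, ht⟩ := exists_isTranscendenceBasis_superset hind
    classical
    let x₀ : t := ⟨x, hxt rfl⟩
    let c : t → ℚ := fun i => if i = x₀ then 1 else 0
    let f₁ : MvPolynomial t ℚ →ₐ[ℚ] MvPolynomial t ℚ := aeval fun i => X i + C (c i)
    let f₂ : MvPolynomial t ℚ →ₐ[ℚ] MvPolynomial t ℚ := aeval fun i => X i - C (c i)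
    let θ : MvPolynomial t ℚ ≃ₐ[ℚ] MvPolynomial t ℚ := AlgEquiv.ofAlgHom f₁ f₂
      (by ext i; simp [f₁, f₂]) (by ext i; simp [f₁, f₂])
    obtain ⟨σ, hσ⟩ := exists_ringEquiv_of_mvPolynomial (Subtype.val : t → ℂ) ht θ.toRingEquiv
    refine ⟨σ, ?_⟩
    have h1 := hσ (X x₀)
    simp only [aeval_X] at h1
    have h2 : (θ.toRingEquiv (X x₀) : MvPolynomial t ℚ) = X x₀ + C 1 := by
      simp [θ, f₁, c]
    rw [h2] at h1
    simp only [map_add, aeval_X, aeval_C] at h1
    have h3 : (x₀ : ℂ) = x := rfl
    rw [h3] at h1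
    rw [h1]
    simp

/-- A complex number fixed by all ring automorphisms of `ℂ` is rational. -/
theorem exists_rat_of_forall_ringAut {x : ℂ} (hx : ∀ σ : ℂ ≃+* ℂ, σ x = x) : ∃ q : ℚ, x = q := by
  by_contra h
  obtain ⟨σ, hσ⟩ := exists_ringAut_ne (x := x) (by
    rintro ⟨q, hq⟩
    exact h ⟨q, hq.symm⟩)
  exact hσ (hx σ)

section Descent

variable {ι : Type*}

/-- **Galois descent for spaces of sequences**: a finite-dimensional space of complex sequences
which is stable under all ring automorphisms of `ℂ` (acting coordinatewise) is spanned by its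
elements with rational coordinates. -/
theorem span_rational_of_aut_stable (V : Submodule ℂ (ι → ℂ)) [FiniteDimensional ℂ V]
    (hV : ∀ σ : ℂ ≃+* ℂ, ∀ v ∈ V, (fun n => σ (v n)) ∈ V) :
    V = Submodule.span ℂ {v | v ∈ V ∧ ∀ n, ∃ q : ℚ, v n = q} := by
  classical
  apply le_antisymm _ (Submodule.span_le.2 fun v hv => hv.1)
  -- coordinate functionals on `V`
  let ev : ι → Module.Dual ℂ V := fun n => (LinearMap.proj n).comp V.subtype
  have hev : ∀ n (v : V), ev n v = (v : ι → ℂ) n := fun n v => rfl
  -- they span the dual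
  have hspan : Submodule.span ℂ (Set.range ev) = ⊤ := by
    have h1 : (Submodule.span ℂ (Set.range ev)).dualCoannihilator = ⊥ := by
      rw [eq_bot_iff]
      intro v hv
      rw [Submodule.mem_dualCoannihilator] at hv
      rw [Submodule.mem_bot]
      apply Subtype.ext
      funext n
      exact hv (ev n) (Submodule.subset_span ⟨n, rfl⟩)
    rw [← Subspace.dualCoannihilator_dualAnnihilator_eq (W := Submodule.span ℂ (Set.range ev)), h1,
      Submodule.dualAnnihilator_bot]
  obtain ⟨b, hbt, hbspan, hbli⟩ := exists_linearIndependent ℂ (Set.range ev)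
  have hbfin : Finite b := hbli.finite
  have : Fintype b := Fintype.ofFinite b
  let B : Basis b ℂ (Module.Dual ℂ V) := Basis.mk hbli (by
    rw [Subtype.range_coe, hbspan, hspan])
  have hB : ∀ i : b, B i = (i : Module.Dual ℂ V) := fun i => by simp [B]
  -- indices realising the basis
  have hidx : ∀ i : b, ∃ n, ev n = (i : Module.Dual ℂ V) := fun i => hbt i.2
  choose idx hidx using hidx
  -- the dual basis inside `V`
  let e : b → V := fun j => (Module.evalEquiv ℂ V).symm (B.dualBasis j)
  have he : ∀ i j : b, ((e j : V) : ι → ℂ) (idx i) = if i = j then 1 else 0 := by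
    intro i j
    have h1 : (B i) (e j) = if i = j then 1 else 0 := by
      have h2 : (Module.evalEquiv ℂ V (e j)) (B i) = (B.dualBasis j) (B i) := by
        simp [e]
      rw [Module.evalEquiv_apply, Module.Dual.eval_apply] at h2
      rw [h2, Basis.dualBasis_apply_self]
    rw [hB i, ← hidx i, hev] at h1
    exact h1
  -- an element of `V` vanishing at all `idx i` is zero
  have hzero : ∀ v : V, (∀ i : b, ((v : V) : ι → ℂ) (idx i) = 0) → v = 0 := by
    intro v hv
    rw [← Module.forall_dual_apply_eq_zero_iff ℂ v]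
    intro φ
    have hφ : φ ∈ Submodule.span ℂ (Set.range B) := by rw [B.span_eq]; trivial
    induction hφ using Submodule.span_induction with
    | mem φ hφ =>
      obtain ⟨i, rfl⟩ := hφ
      rw [hB i, ← hidx i, hev]
      exact hv i
    | zero => simp
    | add φ ψ _ _ h1 h2 => rw [LinearMap.add_apply, h1, h2, add_zero]
    | smul a φ _ h1 => rw [LinearMap.smul_apply, h1, smul_zero]
  -- the `e j` have rational coordinates
  have hrat : ∀ j : b, ∀ n, ∃ q : ℚ, ((e j : V) : ι → ℂ) n = q := by
    intro j n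
    apply exists_rat_of_forall_ringAut
    intro σ
    have hmem : (fun n => σ (((e j : V) : ι → ℂ) n)) ∈ V := hV σ _ (e j).2
    have h1 : (⟨_, hmem⟩ : V) - e j = 0 := by
      apply hzero
      intro i
      show σ (((e j : V) : ι → ℂ) (idx i)) - ((e j : V) : ι → ℂ) (idx i) = 0
      rw [he i j]
      split_ifs <;> simp
    have h2 := congrArg (fun v : V => ((v : V) : ι → ℂ) n) (sub_eq_zero.1 h1)
    exact h2
  -- every element of `V` is a combination of the `e j`
  intro v hv
  have hv' : (⟨v, hv⟩ : V) = ∑ j : b, (v (idx j)) • e j := by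
    rw [← sub_eq_zero]
    apply hzero
    intro i
    have h1 : ((((⟨v, hv⟩ : V) - ∑ j : b, (v (idx j)) • e j : V) : V) : ι → ℂ) (idx i) =
        v (idx i) - ∑ j : b, v (idx j) * ((e j : V) : ι → ℂ) (idx i) := by
      simp [Finset.sum_apply]
    rw [h1]
    simp only [he, mul_ite, mul_one, mul_zero]
    simp
  have hv'' : v = ∑ j : b, (v (idx j)) • ((e j : V) : ι → ℂ) := by
    have := congrArg (fun w : V => (w : ι → ℂ)) hv'
    simpa [Submodule.coe_sum] using this
  rw [hv'']
  exact Submodule.sum_mem _ fun j _ => Submodule.smul_mem _ _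
    (Submodule.subset_span ⟨(e j).2, hrat j⟩)

end Descent

end Fermat.Agent.RatStr
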