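import Mathlib
import Fermat.Agent.RatStr.BoundedDenominators
import Fermat.Agent.RatStr.Descent_helper1

/-!
# Glue: `Aut(ℂ)`-stability of `q`-expansions of cusp forms ⇒ integral structure

If the set of `q`-expansions of `S_k(Γ₀(N))` (`k ≥ 1`) is stable under the coefficientwise action
of all field automorphisms of `ℂ`, then `S_k(Γ₀(N))` has an integral structure.
Inputs: Galois descent (helper1) and bounded denominators (from S22).
-/

set_option autoImplicit false

namespace Fermat.Agent.RatStr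

open ModularForm ModularFormClass CuspForm Fermat.Agent.Helper2

local notation "Γ₀(" N ")" => CongruenceSubgroup.Gamma0 N

noncomputable section

variable {N : ℕ} [NeZero N] {k : ℤ}

/-- The `q`-expansion map `S_k(Γ₀(N)) → (ℕ → ℂ)`. -/
def qexpLin (N : ℕ) (k : ℤ) : CuspForm Γ₀(N) k →ₗ[ℂ] (ℕ → ℂ) :=
  LinearMap.pi fun n => qCoeffLin N k n

omit [NeZero N] in
@[simp] theorem qexpLin_apply (f : CuspForm Γ₀(N) k) (n : ℕ) : qexpLin N k f n = qCoeff ⇑f n := rfl

theorem qexpLin_injective : Function.Injective (qexpLin N k) := by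
  intro f g h
  exact cusp_ext_qCoeff f g (fun n => congrFun h n)

/-- If the `q`-expansions of cusp forms are stable under `Aut(ℂ)`, the forms with rational
coefficients span. -/
theorem span_ratForms_eq_top_of_aut_stable
    (hD : ∀ (σ : ℂ ≃+* ℂ) (f : CuspForm Γ₀(N) k), ∃ g : CuspForm Γ₀(N) k,
      ∀ n, qCoeff ⇑g n = σ (qCoeff ⇑f n)) :
    Submodule.span ℂ ((ratForms N k : AddSubgroup (CuspForm Γ₀(N) k)) :
      Set (CuspForm Γ₀(N) k)) = ⊤ := by
  set V : Submodule ℂ (ℕ → ℂ) := LinearMap.range (qexpLin N k) with hV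
  have hVfd : FiniteDimensional ℂ V := by
    rw [hV]
    infer_instance
  have hstab : ∀ σ : ℂ ≃+* ℂ, ∀ v ∈ V, (fun n => σ (v n)) ∈ V := by
    rintro σ v ⟨f, rfl⟩
    obtain ⟨g, hg⟩ := hD σ f
    exact ⟨g, funext fun n => by rw [qexpLin_apply, hg n, qexpLin_apply]⟩
  have hspan := span_rational_of_aut_stable V hstab
  have himage : (qexpLin N k) '' ((ratForms N k : AddSubgroup (CuspForm Γ₀(N) k)) :
      Set (CuspForm Γ₀(N) k)) = {v | v ∈ V ∧ ∀ n, ∃ q : ℚ, v n = q} := by
    ext v
    constructor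
    · rintro ⟨f, hf, rfl⟩
      exact ⟨⟨f, rfl⟩, fun n => hf n⟩
    · rintro ⟨⟨f, rfl⟩, hrat⟩
      exact ⟨f, fun n => hrat n, rfl⟩
  apply Submodule.map_injective_of_injective (f := qexpLin N k) qexpLin_injective
  rw [Submodule.map_span, himage, ← hspan, Submodule.map_top]

/-- **Reduction of the integral structure to `Aut(ℂ)`-stability of `q`-expansions.** -/
theorem hasIntegralStructure_of_aut_stable (hk : 1 ≤ k)
    (hD : ∀ (σ : ℂ ≃+* ℂ) (f : CuspForm Γ₀(N) k), ∃ g : CuspForm Γ₀(N) k,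
      ∀ n, qCoeff ⇑g n = σ (qCoeff ⇑f n)) :
    CuspForm.HasIntegralStructure N k :=
  hasIntegralStructure_of_span_ratForms hk (span_ratForms_eq_top_of_aut_stable hD)

end

end Fermat.Agent.RatStr
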