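import Fermat.Agent.RatStr.ConjForm
import Fermat.Agent.RatStr.Glue

set_option autoImplicit false

/-!
# `Aut(ℂ)`-stability of q-expansions of cusp forms on `Γ₀(N)`, and the integral structure
-/

namespace Fermat.Agent.RatStr

open UpperHalfPlane ModularForm ModularFormClass
open scoped MatrixGroups ModularForm

noncomputable section

variable {N : ℕ} [NeZero N] {k : ℤ}

/-- **The q-expansions of `S_k(Γ₀(N))` are stable under ring endomorphisms of `ℂ`.** -/
theorem exists_conj_cuspForm (σ : ℂ →+* ℂ) (f : CuspForm (CongruenceSubgroup.Gamma0 N) k) :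
    ∃ g : CuspForm (CongruenceSubgroup.Gamma0 N) k, ∀ n, qCoeff ⇑g n = σ (qCoeff ⇑f n) := by
  obtain ⟨g, hg, hq⟩ := exists_conj_isCF N σ (IsCF.of_cuspForm f)
  refine ⟨hg.toCuspForm, fun n => ?_⟩
  unfold qCoeff
  rw [IsCF.coe_toCuspForm, hq, PowerSeries.coeff_map]

/-- **`S_k(Γ₀(N))` has an integral structure for every `k ≥ 1`.** -/
theorem hasIntegralStructure (N : ℕ) [NeZero N] {k : ℤ} (hk : 1 ≤ k) :
    CuspForm.HasIntegralStructure N k :=
  hasIntegralStructure_of_aut_stable hk fun σ f => exists_conj_cuspForm (σ : ℂ →+* ℂ) f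

end

end Fermat.Agent.RatStr
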