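import Fermat.Agent.RatStr.Basic

set_option autoImplicit false

/-!
# The ring of 1-periodic holomorphic functions bounded at infinity, and q-expansions
-/

namespace Fermat.Agent.RatStr

open UpperHalfPlane ModularForm Filter Function
open scoped MatrixGroups ModularForm Manifold Topology

noncomputable section

/-- 1-periodic, holomorphic, bounded at `i∞`. -/
structure IsNice (F : ℍ → ℂ) : Prop where
  per : Periodic (F ∘ ofComplex) 1
  holo : MDiff F
  bdd : IsBoundedAtImInfty F

variable {F G : ℍ → ℂ}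

namespace IsNice

theorem analyticAt (hF : IsNice F) : AnalyticAt ℂ (cuspFunction 1 F) 0 :=
  analyticAt_cuspFunction_zero one_pos (by simpa using hF.per) hF.holo hF.bdd

theorem zero : IsNice (0 : ℍ → ℂ) :=
  ⟨fun _ => rfl, mdifferentiable_const, zero_form_isBoundedAtImInfty⟩

theorem one : IsNice (1 : ℍ → ℂ) :=
  ⟨fun _ => rfl, mdifferentiable_const, const_boundedAtFilter atImInfty (1 : ℂ)⟩

theorem const (c : ℂ) : IsNice (fun _ => c : ℍ → ℂ) :=
  ⟨fun _ => rfl, mdifferentiable_const, const_boundedAtFilter atImInfty c⟩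

theorem add (hF : IsNice F) (hG : IsNice G) : IsNice (F + G) :=
  ⟨fun w => by
    have h1 := hF.per w
    have h2 := hG.per w
    simp only [comp_apply, Pi.add_apply] at h1 h2 ⊢
    rw [h1, h2], hF.holo.add hG.holo, hF.bdd.add hG.bdd⟩

theorem mul (hF : IsNice F) (hG : IsNice G) : IsNice (F * G) :=
  ⟨fun w => by
    have h1 := hF.per w
    have h2 := hG.per w
    simp only [comp_apply, Pi.mul_apply] at h1 h2 ⊢
    rw [h1, h2], hF.holo.mul hG.holo, hF.bdd.mul hG.bdd⟩

theorem neg (hF : IsNice F) : IsNice (-F) :=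
  ⟨fun w => by
    have h1 := hF.per w
    simp only [comp_apply, Pi.neg_apply] at h1 ⊢
    rw [h1], hF.holo.neg, hF.bdd.neg⟩

theorem sub (hF : IsNice F) (hG : IsNice G) : IsNice (F - G) := by
  rw [sub_eq_add_neg]; exact hF.add hG.neg

theorem smul (c : ℂ) (hF : IsNice F) : IsNice (c • F) :=
  ⟨fun w => by
    have h1 := hF.per w
    simp only [comp_apply, Pi.smul_apply] at h1 ⊢
    rw [h1], hF.holo.const_smul c, hF.bdd.smul c⟩

end IsNice

/-- The subring of nice functions. -/
def niceSubring : Subring (ℍ → ℂ) where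
  carrier := {F | IsNice F}
  mul_mem' := IsNice.mul
  one_mem' := IsNice.one
  add_mem' := IsNice.add
  zero_mem' := IsNice.zero
  neg_mem' := IsNice.neg

theorem mem_niceSubring {F : ℍ → ℂ} : F ∈ niceSubring ↔ IsNice F := Iff.rfl

namespace IsNice

theorem pow (hF : IsNice F) (n : ℕ) : IsNice (F ^ n) := niceSubring.pow_mem hF n

theorem sum {ι : Type*} (s : Finset ι) (f : ι → ℍ → ℂ) (hf : ∀ i ∈ s, IsNice (f i)) :
    IsNice (∑ i ∈ s, f i) := niceSubring.sum_mem hf

theorem prod {ι : Type*} (s : Finset ι) (f : ι → ℍ → ℂ) (hf : ∀ i ∈ s, IsNice (f i)) :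
    IsNice (∏ i ∈ s, f i) := niceSubring.prod_mem hf

theorem qExpansion_add (hF : IsNice F) (hG : IsNice G) :
    qExpansion 1 (F + G) = qExpansion 1 F + qExpansion 1 G :=
  UpperHalfPlane.qExpansion_add hF.analyticAt hG.analyticAt

theorem qExpansion_mul (hF : IsNice F) (hG : IsNice G) :
    qExpansion 1 (F * G) = qExpansion 1 F * qExpansion 1 G :=
  UpperHalfPlane.qExpansion_mul hF.analyticAt hG.analyticAt

theorem qExpansion_neg (hF : IsNice F) : qExpansion 1 (-F) = -qExpansion 1 F :=
  UpperHalfPlane.qExpansion_neg hF.analyticAt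

theorem qExpansion_sub (hF : IsNice F) (hG : IsNice G) :
    qExpansion 1 (F - G) = qExpansion 1 F - qExpansion 1 G :=
  UpperHalfPlane.qExpansion_sub hF.analyticAt hG.analyticAt

theorem qExpansion_smul (c : ℂ) (hF : IsNice F) :
    qExpansion 1 (c • F) = c • qExpansion 1 F :=
  UpperHalfPlane.qExpansion_smul hF.analyticAt c

theorem qExpansion_eq_zero_iff (hF : IsNice F) : qExpansion 1 F = 0 ↔ F = 0 :=
  UpperHalfPlane.qExpansion_eq_zero_iff one_pos (by simpa using hF.per) hF.holo hF.bdd

theorem hasSum_qExpansion (hF : IsNice F) (τ : ℍ) :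
    HasSum (fun m : ℕ => (qExpansion 1 F).coeff m • Periodic.qParam 1 τ ^ m) (F τ) :=
  UpperHalfPlane.hasSum_qExpansion one_pos (by simpa using hF.per) hF.holo hF.bdd τ

theorem qExpansion_coeff_zero (hF : IsNice F) :
    (qExpansion 1 F).coeff 0 = valueAtInfty F :=
  UpperHalfPlane.qExpansion_coeff_zero one_pos hF.analyticAt (by simpa using hF.per)

theorem tendsto_valueAtInfty (hF : IsNice F) :
    Tendsto F atImInfty (𝓝 (valueAtInfty F)) := by
  have hper : Periodic (F ∘ ofComplex) 1 := by simpa using hF.per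
  rw [← cuspFunction_apply_zero one_pos hF.analyticAt hper]
  exact (hF.analyticAt.continuousAt.tendsto.comp (qParam_tendsto_atImInfty one_pos)).congr
    (fun τ => eq_cuspFunction τ one_ne_zero hper)

theorem isZeroAtImInfty_iff (hF : IsNice F) :
    IsZeroAtImInfty F ↔ (qExpansion 1 F).coeff 0 = 0 := by
  rw [hF.qExpansion_coeff_zero]
  constructor
  · intro h
    exact h.valueAtInfty_eq_zero
  · intro h
    have := hF.tendsto_valueAtInfty
    rwa [h] at this

theorem tendsto_coeff_zero (hF : IsNice F) :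
    Tendsto F atImInfty (𝓝 ((qExpansion 1 F).coeff 0)) := by
  rw [hF.qExpansion_coeff_zero]; exact hF.tendsto_valueAtInfty

/-- uniqueness of q-expansion coefficients, for plain functions. -/
theorem coeff_unique (hF : IsNice F) {c : ℕ → ℂ}
    (hf : ∀ τ : ℍ, HasSum (fun m => c m • Periodic.qParam 1 τ ^ m) (F τ)) (m : ℕ) :
    c m = (qExpansion 1 F).coeff m := by
  let _ : FunLike (ℍ → ℂ) ℍ ℂ := ⟨id, fun _ _ h => h⟩
  exact UpperHalfPlane.qExpansion_coeff_unique (F := ℍ → ℂ) F one_pos hF.analyticAt hf m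

end IsNice

/-- q-expansion as a ring homomorphism on nice functions. -/
def qExpHom : niceSubring →+* PowerSeries ℂ where
  toFun F := qExpansion 1 (F : ℍ → ℂ)
  map_one' := qExpansion_one 1
  map_mul' F G := IsNice.qExpansion_mul F.2 G.2
  map_zero' := qExpansion_zero 1
  map_add' F G := IsNice.qExpansion_add F.2 G.2

@[simp] theorem qExpHom_apply (F : niceSubring) : qExpHom F = qExpansion 1 (F : ℍ → ℂ) := rfl

theorem qExpHom_injective : Function.Injective qExpHom := by
  rw [injective_iff_map_eq_zero]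
  intro F hF
  exact Subtype.ext ((IsNice.qExpansion_eq_zero_iff F.2).mp hF)

/-- Invariance under `T` gives periodicity. -/
theorem periodic_of_slash_T {k : ℤ} (h : F ∣[k] ModularGroup.T = F) :
    Periodic (F ∘ ofComplex) 1 := by
  intro w
  by_cases! hw : 0 < Complex.im w
  · have hw1 : 0 < Complex.im (w + 1) := by simpa using hw
    simp only [comp_apply, ofComplex_apply_of_im_pos hw1, ofComplex_apply_of_im_pos hw]
    have h2 := congrFun h ⟨w, hw⟩
    rw [SL_slash_apply] at h2
    have h3 : denom ModularGroup.T (⟨w, hw⟩ : ℍ) = 1 := by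
      simp [denom, ModularGroup.T]
    rw [h3, one_zpow, mul_one] at h2
    rw [← h2]
    congr 1
    rw [UpperHalfPlane.modular_T_smul]
    ext
    simp [add_comm]
  · have hw1 : Complex.im (w + 1) ≤ 0 := by simpa using hw
    simp [ofComplex_apply_of_im_nonpos hw1, ofComplex_apply_of_im_nonpos hw]

theorem IsMF.isNice {H : Subgroup SL(2, ℤ)} {k : ℤ} (hT : ModularGroup.T ∈ H)
    (hF : IsMF H k F) : IsNice F :=
  ⟨periodic_of_slash_T (hF.inv _ hT), hF.holo, hF.bdd_one⟩

end

end Fermat.Agent.RatStr
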