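import Fermat.Agent.RatStr.Continuation

set_option autoImplicit false

namespace Fermat.Agent.RatStr

open Filter Topology Set Function UpperHalfPlane
open scoped Manifold

/-- **Division under a monic relation on the upper half plane.** -/
theorem exists_div_of_monic_relation_uhp {A B : ℍ → ℂ} (hA : MDiff A) (hB : MDiff B)
    (hB0 : ∃ z, B z ≠ 0) {n : ℕ} (c : Fin n → ℍ → ℂ) (hc : ∀ j, MDiff (c j))
    (hrel : ∀ z, A z ^ n + ∑ j : Fin n, c j z * A z ^ (j : ℕ) * B z ^ (n - j) = 0) :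
    ∃ g : ℍ → ℂ, MDiff g ∧ (∀ z, g z * B z = A z) ∧
      ∀ z, g z ^ n + ∑ j : Fin n, c j z * g z ^ (j : ℕ) = 0 := by
  have hU : IsOpen {z : ℂ | 0 < z.im} := isOpen_upperHalfPlaneSet
  have hUc : IsPreconnected {z : ℂ | 0 < z.im} := (convex_halfSpace_im_gt 0).isPreconnected
  rw [UpperHalfPlane.mdifferentiable_iff] at hA hB
  have hc' : ∀ j, ContinuousOn (c j ∘ ofComplex) {z : ℂ | 0 < z.im} := fun j =>
    (UpperHalfPlane.mdifferentiable_iff.mp (hc j)).continuousOn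
  obtain ⟨z₁, hz₁⟩ := hB0
  have hB0' : ∃ z ∈ {z : ℂ | 0 < z.im}, (B ∘ ofComplex) z ≠ 0 :=
    ⟨z₁, z₁.2, by simpa [ofComplex_apply_of_im_pos z₁.2] using hz₁⟩
  have hrel' : ∀ z ∈ {z : ℂ | 0 < z.im}, (A ∘ ofComplex) z ^ n +
      ∑ j : Fin n, (c j ∘ ofComplex) z * (A ∘ ofComplex) z ^ (j : ℕ) *
        (B ∘ ofComplex) z ^ (n - j) = 0 := by
    intro z hz
    simpa [ofComplex_apply_of_im_pos hz] using hrel ⟨z, hz⟩
  obtain ⟨g, hg1, hg2, hg3⟩ := exists_div_of_monic_relation hU hUc hA hB hB0'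
    (fun j => c j ∘ ofComplex) hc' hrel'
  refine ⟨fun τ => g τ, ?_, ?_, ?_⟩
  · rw [UpperHalfPlane.mdifferentiable_iff]
    refine hg1.congr ?_
    intro z hz
    simp [ofComplex_apply_of_im_pos hz]
  · intro τ
    have := hg2 τ τ.2
    simpa [ofComplex_apply_of_im_pos τ.2] using this
  · intro τ
    have := hg3 τ τ.2
    simpa [ofComplex_apply_of_im_pos τ.2] using this

/-- A continuous function killed by a nonzero holomorphic function vanishes. -/
theorem eq_zero_of_mul_eq_zero_uhp {H B : ℍ → ℂ} (hH : Continuous H) (hB : MDiff B)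
    (hB0 : ∃ z, B z ≠ 0) (h : ∀ z, H z * B z = 0) : H = 0 := by
  have hU : IsOpen {z : ℂ | 0 < z.im} := isOpen_upperHalfPlaneSet
  have hUc : IsPreconnected {z : ℂ | 0 < z.im} := (convex_halfSpace_im_gt 0).isPreconnected
  rw [UpperHalfPlane.mdifferentiable_iff] at hB
  obtain ⟨z₁, hz₁⟩ := hB0
  have hB0' : ∃ z ∈ {z : ℂ | 0 < z.im}, (B ∘ ofComplex) z ≠ 0 :=
    ⟨z₁, z₁.2, by simpa [ofComplex_apply_of_im_pos z₁.2] using hz₁⟩
  ext τ
  have hev := eventually_ne_zero_of_not_eqOn_zero hU hUc hB hB0' τ.2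
  have hc : ContinuousAt (H ∘ ofComplex) (τ : ℂ) := by
    refine ContinuousAt.comp hH.continuousAt ?_
    exact (contMDiffAt_ofComplex (n := 0) τ.2).continuousAt
  have := eq_zero_of_eventually_punctured (H := H ∘ ofComplex) hc ?_
  · simpa using this
  · have hUn : ∀ᶠ z in 𝓝[≠] (τ : ℂ), z ∈ {z : ℂ | 0 < z.im} :=
      nhdsWithin_le_nhds (hU.mem_nhds τ.2)
    filter_upwards [hev, hUn] with z hBz hz
    have := h ⟨z, hz⟩
    simp only [comp_apply, ofComplex_apply_of_im_pos hz] at hBz ⊢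
    exact (mul_eq_zero.mp this).resolve_right hBz

end Fermat.Agent.RatStr
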