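import Mathlib

/-!
# S23 (rational structure): roots of monic polynomials with holomorphic / bounded coefficients

* `cauchyBound_of_monic_root` : Cauchy's bound.
* `isBigO_one_of_monic_root`, `tendsto_zero_of_monic_root` (+ `BoundedAtFilter`, `ZeroAtFilter`,
  `IsBoundedAtImInfty`, `IsZeroAtImInfty` versions) : roots are bounded / tend to zero when the
  coefficients are / do.
* `meromorphicOrderAt_nonneg_of_monic_root`, `analyticOnNhd_toMeromorphicNFOn_of_monic_root` :
  a meromorphic function integral over the continuous (e.g. holomorphic) functions has no poles.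
-/

set_option autoImplicit false

namespace Fermat.Agent.RatStr

open Filter Topology Asymptotics

/-- Cauchy's bound for the roots of a monic polynomial. -/
theorem cauchyBound_of_monic_root {d : ℕ} (c : ℕ → ℂ) (z : ℂ)
    (h : z ^ d + ∑ i ∈ Finset.range d, c i * z ^ i = 0) :
    ‖z‖ ≤ max 1 (∑ i ∈ Finset.range d, ‖c i‖) := by
  rcases le_or_gt ‖z‖ 1 with h1 | h1
  · exact le_max_of_le_left h1
  · apply le_max_of_le_right
    rcases Nat.eq_zero_or_pos d with rfl | hd
    · simp at h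
    have hz : z ^ d = -∑ i ∈ Finset.range d, c i * z ^ i := eq_neg_of_add_eq_zero_left h
    have h2 : ‖z‖ ^ d ≤ (∑ i ∈ Finset.range d, ‖c i‖) * ‖z‖ ^ (d - 1) := by
      calc ‖z‖ ^ d = ‖z ^ d‖ := (norm_pow z d).symm
        _ = ‖∑ i ∈ Finset.range d, c i * z ^ i‖ := by rw [hz, norm_neg]
        _ ≤ ∑ i ∈ Finset.range d, ‖c i * z ^ i‖ := norm_sum_le _ _
        _ ≤ ∑ i ∈ Finset.range d, ‖c i‖ * ‖z‖ ^ (d - 1) := by
            apply Finset.sum_le_sum
            intro i hi
            rw [norm_mul, norm_pow]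
            apply mul_le_mul_of_nonneg_left _ (norm_nonneg _)
            apply pow_le_pow_right₀ h1.le
            have := Finset.mem_range.1 hi
            omega
        _ = (∑ i ∈ Finset.range d, ‖c i‖) * ‖z‖ ^ (d - 1) := by rw [Finset.sum_mul]
    have h3 : ‖z‖ ^ d = ‖z‖ * ‖z‖ ^ (d - 1) := by
      rw [← pow_succ']; congr 1; omega
    rw [h3] at h2
    have hpos : 0 < ‖z‖ ^ (d - 1) := pow_pos (lt_trans one_pos h1) _
    exact le_of_mul_le_mul_right h2 hpos

/-- A quantitative version: the `d`-th power of a root is controlled by the coefficients. -/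
theorem norm_pow_le_of_monic_root {d : ℕ} (c : ℕ → ℂ) (z : ℂ)
    (h : z ^ d + ∑ i ∈ Finset.range d, c i * z ^ i = 0) :
    ‖z‖ ^ d ≤ (∑ i ∈ Finset.range d, ‖c i‖) * (max 1 (∑ i ∈ Finset.range d, ‖c i‖)) ^ d := by
  have hz : z ^ d = -∑ i ∈ Finset.range d, c i * z ^ i := eq_neg_of_add_eq_zero_left h
  have hb := cauchyBound_of_monic_root c z h
  set M := max 1 (∑ i ∈ Finset.range d, ‖c i‖) with hM
  have hM1 : 1 ≤ M := le_max_left _ _
  calc ‖z‖ ^ d = ‖z ^ d‖ := (norm_pow z d).symm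
    _ = ‖∑ i ∈ Finset.range d, c i * z ^ i‖ := by rw [hz, norm_neg]
    _ ≤ ∑ i ∈ Finset.range d, ‖c i * z ^ i‖ := norm_sum_le _ _
    _ ≤ ∑ i ∈ Finset.range d, ‖c i‖ * M ^ d := by
        apply Finset.sum_le_sum
        intro i hi
        rw [norm_mul, norm_pow]
        apply mul_le_mul_of_nonneg_left _ (norm_nonneg _)
        calc ‖z‖ ^ i ≤ M ^ i := pow_le_pow_left₀ (norm_nonneg _) hb i
          _ ≤ M ^ d := pow_le_pow_right₀ hM1 (Finset.mem_range.1 hi).le
    _ = (∑ i ∈ Finset.range d, ‖c i‖) * M ^ d := by rw [Finset.sum_mul]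

section Filter

variable {α : Type*} {l : Filter α}

/-- Roots of a monic polynomial with bounded coefficients are bounded (along any filter). -/
theorem isBigO_one_of_monic_root {d : ℕ} (a : ℕ → α → ℂ) (g : α → ℂ)
    (ha : ∀ i ∈ Finset.range d, a i =O[l] (fun _ => (1 : ℂ)))
    (h : ∀ᶠ z in l, g z ^ d + ∑ i ∈ Finset.range d, a i z * g z ^ i = 0) :
    g =O[l] (fun _ => (1 : ℂ)) := by
  have hsum : (fun z => ∑ i ∈ Finset.range d, ‖a i z‖) =O[l] (fun _ => (1 : ℂ)) :=
    IsBigO.fun_sum fun i hi => (ha i hi).norm_left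
  obtain ⟨C, hC⟩ := hsum.bound
  rw [isBigO_iff]
  refine ⟨max 1 C, ?_⟩
  filter_upwards [h, hC] with z hz hCz
  have := cauchyBound_of_monic_root (fun i => a i z) (g z) hz
  simp only [norm_one, mul_one] at hCz ⊢
  refine this.trans (max_le_max le_rfl ?_)
  refine le_trans ?_ hCz
  rw [Real.norm_of_nonneg (Finset.sum_nonneg fun i _ => norm_nonneg _)]

/-- Roots of a monic polynomial whose coefficients tend to zero tend to zero. -/
theorem tendsto_zero_of_monic_root {d : ℕ} (hd : 0 < d) (a : ℕ → α → ℂ) (g : α → ℂ)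
    (ha : ∀ i ∈ Finset.range d, Tendsto (a i) l (𝓝 0))
    (h : ∀ᶠ z in l, g z ^ d + ∑ i ∈ Finset.range d, a i z * g z ^ i = 0) :
    Tendsto g l (𝓝 0) := by
  have hsum : Tendsto (fun z => ∑ i ∈ Finset.range d, ‖a i z‖) l (𝓝 0) := by
    have : Tendsto (fun z => ∑ i ∈ Finset.range d, ‖a i z‖) l
        (𝓝 (∑ i ∈ Finset.range d, (0 : ℝ))) :=
      tendsto_finsetSum _ fun i hi => by simpa using (ha i hi).norm
    simpa using this
  -- the bound `‖g‖ ^ d ≤ S * max 1 S ^ d` tends to zero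
  have hbound : Tendsto (fun z => (∑ i ∈ Finset.range d, ‖a i z‖) *
      (max 1 (∑ i ∈ Finset.range d, ‖a i z‖)) ^ d) l (𝓝 0) := by
    have h1 : Tendsto (fun z => (max 1 (∑ i ∈ Finset.range d, ‖a i z‖)) ^ d) l
        (𝓝 ((max 1 (0 : ℝ)) ^ d)) := (tendsto_const_nhds.max hsum).pow d
    have := hsum.mul h1
    simpa using this
  have hgd : Tendsto (fun z => ‖g z‖ ^ d) l (𝓝 0) := by
    apply squeeze_zero' (Eventually.of_forall fun z => pow_nonneg (norm_nonneg _) _) _ hbound
    filter_upwards [h] with z hz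
    exact norm_pow_le_of_monic_root (fun i => a i z) (g z) hz
  rw [tendsto_zero_iff_norm_tendsto_zero]
  have h2 : Tendsto (fun z => (‖g z‖ ^ d) ^ ((d : ℝ)⁻¹)) l (𝓝 (0 ^ ((d : ℝ)⁻¹))) :=
    hgd.rpow_const (Or.inr (by positivity))
  rw [Real.zero_rpow (by positivity)] at h2
  refine h2.congr fun z => ?_
  rw [← Real.rpow_natCast, ← Real.rpow_mul (norm_nonneg _), mul_inv_cancel₀ (by positivity),
    Real.rpow_one]

end Filter

/-- **Integral over holomorphic implies holomorphic**: a meromorphic germ which is (frequently,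
near the point) a root of a monic polynomial with coefficients continuous at the point has no
pole there. -/
theorem meromorphicOrderAt_nonneg_of_monic_root {d : ℕ} (a : ℕ → ℂ → ℂ) (g : ℂ → ℂ) (x : ℂ)
    (ha : ∀ i ∈ Finset.range d, ContinuousAt (a i) x)
    (h : ∃ᶠ z in 𝓝[≠] x, g z ^ d + ∑ i ∈ Finset.range d, a i z * g z ^ i = 0) :
    0 ≤ meromorphicOrderAt g x := by
  by_contra hneg
  rw [not_le] at hneg
  have htend := tendsto_cobounded_of_meromorphicOrderAt_neg hneg
  -- the coefficients are bounded near `x`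
  have hsum : ContinuousAt (fun z => ∑ i ∈ Finset.range d, ‖a i z‖) x :=
    tendsto_finsetSum _ fun i hi => (ha i hi).norm
  have hev : ∀ᶠ z in 𝓝[≠] x, ∑ i ∈ Finset.range d, ‖a i z‖ <
      (∑ i ∈ Finset.range d, ‖a i x‖) + 1 :=
    (hsum.eventually_lt continuousAt_const (lt_add_one _)).filter_mono nhdsWithin_le_nhds
  rw [← tendsto_norm_atTop_iff_cobounded] at htend
  have hlarge := htend.eventually_gt_atTop (max 1 ((∑ i ∈ Finset.range d, ‖a i x‖) + 1))
  obtain ⟨z, hz, hz1, hz2⟩ := (h.and_eventually (hev.and hlarge)).exists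
  have := cauchyBound_of_monic_root (fun i => a i z) (g z) hz
  have h3 : max 1 (∑ i ∈ Finset.range d, ‖a i z‖) ≤
      max 1 ((∑ i ∈ Finset.range d, ‖a i x‖) + 1) := max_le_max le_rfl hz1.le
  linarith


section Corollaries

variable {α : Type*} {l : Filter α}

/-- `BoundedAtFilter` version of `isBigO_one_of_monic_root`. -/
theorem boundedAtFilter_of_monic_root {d : ℕ} (a : ℕ → α → ℂ) (g : α → ℂ)
    (ha : ∀ i ∈ Finset.range d, BoundedAtFilter l (a i))
    (h : ∀ᶠ z in l, g z ^ d + ∑ i ∈ Finset.range d, a i z * g z ^ i = 0) :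
    BoundedAtFilter l g := by
  have h1 : ∀ i ∈ Finset.range d, a i =O[l] (fun _ => (1 : ℂ)) := fun i hi =>
    (ha i hi).trans (isBigO_of_le _ fun _ => by simp)
  exact (isBigO_one_of_monic_root a g h1 h).trans (isBigO_of_le _ fun _ => by simp)

/-- `ZeroAtFilter` version of `tendsto_zero_of_monic_root`. -/
theorem zeroAtFilter_of_monic_root {d : ℕ} (hd : 0 < d) (a : ℕ → α → ℂ) (g : α → ℂ)
    (ha : ∀ i ∈ Finset.range d, ZeroAtFilter l (a i))
    (h : ∀ᶠ z in l, g z ^ d + ∑ i ∈ Finset.range d, a i z * g z ^ i = 0) :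
    ZeroAtFilter l g :=
  tendsto_zero_of_monic_root hd a g ha h

open UpperHalfPlane in
/-- Roots of monic polynomials with coefficients bounded at `i∞` are bounded at `i∞`. -/
theorem isBoundedAtImInfty_of_monic_root {d : ℕ} (a : ℕ → ℍ → ℂ) (g : ℍ → ℂ)
    (ha : ∀ i ∈ Finset.range d, IsBoundedAtImInfty (a i))
    (h : ∀ z, g z ^ d + ∑ i ∈ Finset.range d, a i z * g z ^ i = 0) :
    IsBoundedAtImInfty g :=
  boundedAtFilter_of_monic_root a g ha (Eventually.of_forall h)

open UpperHalfPlane in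
/-- Roots of monic polynomials with coefficients vanishing at `i∞` vanish at `i∞`. -/
theorem isZeroAtImInfty_of_monic_root {d : ℕ} (hd : 0 < d) (a : ℕ → ℍ → ℂ) (g : ℍ → ℂ)
    (ha : ∀ i ∈ Finset.range d, IsZeroAtImInfty (a i))
    (h : ∀ z, g z ^ d + ∑ i ∈ Finset.range d, a i z * g z ^ i = 0) :
    IsZeroAtImInfty g :=
  zeroAtFilter_of_monic_root hd a g ha (Eventually.of_forall h)

end Corollaries

/-- **Integral over holomorphic implies holomorphic**, global version: if `g` is meromorphic on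
`U` and near every point of `U` it is (frequently) a root of a monic polynomial whose
coefficients are continuous on `U`, then the normal form of `g` is analytic on `U`. -/
theorem analyticOnNhd_toMeromorphicNFOn_of_monic_root {d : ℕ} (a : ℕ → ℂ → ℂ) (g : ℂ → ℂ)
    (U : Set ℂ) (hg : MeromorphicOn g U)
    (ha : ∀ i ∈ Finset.range d, ∀ x ∈ U, ContinuousAt (a i) x)
    (h : ∀ x ∈ U, ∃ᶠ z in 𝓝[≠] x, g z ^ d + ∑ i ∈ Finset.range d, a i z * g z ^ i = 0) :
    AnalyticOnNhd ℂ (toMeromorphicNFOn g U) U := by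
  intro x hx
  have hNF : MeromorphicNFAt (toMeromorphicNFOn g U) x :=
    meromorphicNFOn_toMeromorphicNFOn g U hx
  rw [← hNF.meromorphicOrderAt_nonneg_iff_analyticAt, meromorphicOrderAt_toMeromorphicNFOn hg hx]
  exact meromorphicOrderAt_nonneg_of_monic_root a g x (fun i hi => ha i hi x hx) (h x hx)

/-- Variant: the equation is assumed wherever `g` is analytic, on an open set. -/
theorem analyticOnNhd_toMeromorphicNFOn_of_monic_root' {d : ℕ} (a : ℕ → ℂ → ℂ) (g : ℂ → ℂ)
    (U : Set ℂ) (hU : IsOpen U) (hg : MeromorphicOn g U)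
    (ha : ∀ i ∈ Finset.range d, ∀ x ∈ U, ContinuousAt (a i) x)
    (h : ∀ z ∈ U, AnalyticAt ℂ g z → g z ^ d + ∑ i ∈ Finset.range d, a i z * g z ^ i = 0) :
    AnalyticOnNhd ℂ (toMeromorphicNFOn g U) U := by
  apply analyticOnNhd_toMeromorphicNFOn_of_monic_root a g U hg ha
  intro x hx
  apply Eventually.frequently
  have h1 : ∀ᶠ z in 𝓝[≠] x, z ∈ U := mem_nhdsWithin_of_mem_nhds (hU.mem_nhds hx)
  filter_upwards [(hg x hx).eventually_analyticAt, h1] with z hz hzU
  exact h z hzU hz

end Fermat.Agent.RatStr
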