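import Fermat.Agent.RatStr.LevelOne

set_option autoImplicit false

/-!
# Conjugating level one forms
-/

namespace Fermat.Agent.RatStr

open UpperHalfPlane ModularForm Filter Function EisensteinSeries
open scoped MatrixGroups ModularForm Manifold Topology

noncomputable section

variable {k : ℤ}

/-- Every level one form has a conjugate under any `φ` whose source contains finitely many
prescribed complex numbers. -/
theorem levelOne_conj (G : ModularForm 𝒮ℒ k) :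
    ∃ Λ : Finset ℂ, ∀ {R : Type} [CommRing R] [Algebra ℚ R] (ι φ : R →+* ℂ),
      (↑Λ ⊆ Set.range ι) → ∃ G' : ModularForm 𝒮ℒ k, IsConjPair ι φ (G : ℍ → ℂ) (G' : ℍ → ℂ) := by
  classical
  obtain ⟨n, c, g, hG⟩ := Submodule.mem_span_set'.mp (levelOne_mem_span_rat k G)
  refine ⟨Finset.univ.image c, ?_⟩
  intro R _ _ ι φ hΛ
  have hc : ∀ i, ∃ r : R, ι r = c i := fun i =>
    hΛ (by simp)
  choose r hr using hc
  refine ⟨∑ i, φ (r i) • (g i : ModularForm 𝒮ℒ k), ?_⟩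
  rw [← hG, FunLike.coe_sum, FunLike.coe_sum]
  refine IsConjPair.sum _ _ _ fun i _ => ?_
  rw [FunLike.coe_smul, FunLike.coe_smul, ← hr i]
  exact IsConjPair.smul (r i)
    (IsConjPair.of_isRatQ (isNice_modularForm _) (g i).2)

/-- unbundled version. -/
theorem IsMF.levelOne_conj {G : ℍ → ℂ} (hG : IsMF ⊤ k G) :
    ∃ Λ : Finset ℂ, ∀ {R : Type} [CommRing R] [Algebra ℚ R] (ι φ : R →+* ℂ),
      (↑Λ ⊆ Set.range ι) → ∃ G' : ℍ → ℂ, IsMF ⊤ k G' ∧ IsConjPair ι φ G G' := by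
  obtain ⟨Λ, h⟩ := Fermat.Agent.RatStr.levelOne_conj hG.toModularForm
  refine ⟨Λ, fun ι φ hΛ => ?_⟩
  obtain ⟨G', hG'⟩ := h ι φ hΛ
  exact ⟨G', IsMF.of_modularForm G', hG'⟩

/-- family version. -/
theorem IsMF.levelOne_conj_family {α : Type*} [Fintype α] (w : α → ℤ) (G : α → ℍ → ℂ)
    (hG : ∀ a, IsMF ⊤ (w a) (G a)) :
    ∃ Λ : Finset ℂ, ∀ {R : Type} [CommRing R] [Algebra ℚ R] (ι φ : R →+* ℂ),
      (↑Λ ⊆ Set.range ι) → ∃ G' : α → ℍ → ℂ, ∀ a, IsMF ⊤ (w a) (G' a) ∧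
        IsConjPair ι φ (G a) (G' a) := by
  classical
  choose Λ hΛ using fun a => (hG a).levelOne_conj
  refine ⟨Finset.univ.biUnion Λ, fun ι φ h => ?_⟩
  have : ∀ a, ∃ G' : ℍ → ℂ, IsMF ⊤ (w a) G' ∧ IsConjPair ι φ (G a) G' := fun a =>
    hΛ a ι φ (fun x hx => h (by
      simp only [Finset.coe_biUnion, Finset.coe_univ, Set.mem_univ, Set.iUnion_true,
        Set.mem_iUnion]
      exact ⟨a, hx⟩))
  choose G' hG' using this
  exact ⟨G', hG'⟩

end

end Fermat.Agent.RatStr
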