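import Fermat.Agent.RatStr.BpolyLimit
import Fermat.Agent.RatStr.LevelOneConj
import Fermat.Agent.RatStr.ContinuationUHP
import Fermat.Agent.RatStr.IntegralHol_helper1
import Fermat.Agent.RatStr.Bundle

set_option autoImplicit false

/-!
# Conjugating a cusp form on `Γ₀(N)` by a ring endomorphism of `ℂ`
-/

namespace Fermat.Agent.RatStr

open UpperHalfPlane ModularForm Filter
open scoped MatrixGroups ModularForm Manifold Topology

noncomputable section

variable (N : ℕ) [NeZero N] {k : ℤ}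

local notation "Γ₀" => CongruenceSubgroup.Gamma0 N

theorem levelOne_conj_id (σ : ℂ →+* ℂ) {k' : ℤ} {G : ℍ → ℂ} (hG : IsMF ⊤ k' G) :
    ∃ G' : ℍ → ℂ, IsMF ⊤ k' G' ∧ IsConjPair (RingHom.id ℂ) σ G G' := by
  obtain ⟨Λ, h⟩ := hG.levelOne_conj
  exact h (RingHom.id ℂ) σ (fun x _ => ⟨x, rfl⟩)

theorem conjPair_id_qExpansion {σ : ℂ →+* ℂ} {F F' : ℍ → ℂ}
    (h : IsConjPair (RingHom.id ℂ) σ F F') : qExpansion 1 F' = (qExpansion 1 F).map σ := by
  obtain ⟨-, -, P, hP, hP'⟩ := h
  rw [PowerSeries.map_id] at hP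
  rw [hP', hP]
  rfl

/-- **Conjugation of cusp forms** (unbundled). -/
theorem exists_conj_isCF (σ : ℂ →+* ℂ) {f : ℍ → ℂ} (hf : IsCF Γ₀ k f) :
    ∃ g : ℍ → ℂ, IsCF Γ₀ k g ∧ qExpansion 1 g = (qExpansion 1 f).map σ := by
  classical
  set n := idx Γ₀ with hn
  set u := tN N with hu_def
  set w := wN N with hw_def
  have hu : IsMF Γ₀ w u := tN_isMF N
  have hT := T_mem_Gamma0 N
  have hn0 : 0 < n := Fintype.card_pos
  have hid : Function.Injective (RingHom.id ℂ) := fun _ _ h => h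
  -- conjugates of the level one coefficient forms
  choose cU' hcU'1 hcU'2 using fun j => levelOne_conj_id σ (charCoeff_isMF hu j)
  choose cF' hcF'1 hcF'2 using fun j => levelOne_conj_id σ (charCoeff_isMF hf.toIsMF j)
  have hS : ∀ r : ℕ, ∃ G' : ℍ → ℂ, (r < n → IsMF ⊤ (k + ((n - 1 - r : ℕ) : ℤ) * w) G') ∧
      IsConjPair (RingHom.id ℂ) σ (Scoeff Γ₀ k w f u r) G' := by
    intro r
    by_cases hr : r < n
    · obtain ⟨G', h1, h2⟩ := levelOne_conj_id σ (Scoeff_isMF hf.toIsMF hu hr)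
      exact ⟨G', fun _ => h1, h2⟩
    · refine ⟨0, fun h => absurd h hr, ?_⟩
      have : Scoeff Γ₀ k w f u r = 0 := by
        unfold Scoeff
        rw [Finset.Icc_eq_empty (by rw [← hn]; omega), Finset.sum_empty]
      rw [this]
      exact IsConjPair.zero
  choose S' hS'1 hS'2 using hS
  set A := Apoly Γ₀ k w f u with hA_def
  set B := Bpoly Γ₀ w u with hB_def
  set A' := polyA n u S' with hA'_def
  set B' := polyB n u cU' with hB'_def
  have hUU : IsConjPair (RingHom.id ℂ) σ u u :=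
    IsConjPair.of_isRatQ (tN_isNice N) (tN_isRatQ N)
  have hAA : IsConjPair (RingHom.id ℂ) σ A A' := polyA_conj hUU hS'2
  have hBB : IsConjPair (RingHom.id ℂ) σ B B' := polyB_conj hUU hcU'2
  have hA'mf : IsMF Γ₀ (k + ((n - 1 : ℕ) : ℤ) * w) A' := polyA_isMF hu hS'1
  have hB'mf : IsMF Γ₀ (((n - 1 : ℕ) : ℤ) * w) B' := polyB_isMF hu hcU'1
  -- relations
  have hfB : f * B = A := mul_Bpoly_eq_Apoly hf.inv hu.inv
  have hrel0 : polyRel n (charCoeff Γ₀ k f) A B = 0 :=
    polyRel_eq_zero hfB (charCoeff_relation hf.inv)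
  have hrel1 : polyRel n cF' A' B' = 0 := (polyRel_conj hcF'2 hAA hBB).eq_zero hid hrel0
  have hcFn : cF' n = 1 := by
    have h1 : IsConjPair (RingHom.id ℂ) σ (charCoeff Γ₀ k f n - 1) (cF' n - 1) :=
      (hcF'2 n).sub IsConjPair.one
    have := h1.eq_zero hid (by rw [hn, charCoeff_idx, sub_self])
    exact sub_eq_zero.mp this
  have hrel_pt : ∀ z, A' z ^ n + ∑ j : Fin n, cF' j z * A' z ^ (j : ℕ) * B' z ^ (n - j) = 0 := by
    intro z
    have := congrFun hrel1 z
    unfold polyRel at this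
    rw [Finset.sum_range_succ, hcFn, Nat.sub_self, pow_zero, mul_one, one_mul,
      Finset.sum_range, add_comm] at this
    simpa using this
  -- B' is not identically zero
  have hB'c : (qExpansion 1 B').coeff 0 = 1 := by
    rw [conjPair_id_qExpansion hBB, PowerSeries.coeff_map, hB_def, hu_def, hw_def,
      Bpoly_tN_coeff_zero, map_one]
  have hB'ne : B' ≠ 0 := by
    intro h
    rw [h, qExpansion_zero] at hB'c
    simp at hB'c
  have hB'0 : ∃ z, B' z ≠ 0 := Function.ne_iff.mp hB'ne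
  -- continuation
  obtain ⟨g, hg1, hg2, hg3⟩ := exists_div_of_monic_relation_uhp hA'mf.holo hB'mf.holo hB'0
    (fun j : Fin n => cF' j) (fun j => (hcF'1 j).holo) hrel_pt
  have hgB : g * B' = A' := funext hg2
  have hgrel : g ^ n + ∑ i ∈ Finset.range n, cF' i * g ^ i = 0 := by
    ext z
    have := hg3 z
    rw [← Finset.sum_range (fun i => cF' i z * g z ^ i)] at this
    simpa using this
  -- invariance
  have hginv : ∀ γ ∈ Γ₀, g ∣[k] γ = g := by
    intro γ hγ
    have h1 : (g ∣[k] γ) * B' = g * B' := by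
      have := hA'mf.inv γ hγ
      rw [← hgB, mul_slash_SL2, hB'mf.inv γ hγ] at this
      exact this
    have h2 : ∀ z, (g ∣[k] γ - g) z * B' z = 0 := by
      intro z
      have := congrFun h1 z
      simp only [Pi.mul_apply, Pi.sub_apply] at this ⊢
      rw [sub_mul, this, sub_self]
    have hcont : Continuous (g ∣[k] γ - g) :=
      ((hg1.slash k (γ : GL (Fin 2) ℝ)).sub hg1).continuous
    have := eq_zero_of_mul_eq_zero_uhp hcont hB'mf.holo hB'0 h2
    exact sub_eq_zero.mp this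
  -- cusps
  have hcF'zero : ∀ i ∈ Finset.range n, IsZeroAtImInfty (cF' i) := by
    intro i hi
    rw [Finset.mem_range] at hi
    have hp := hcF'2 i
    rw [hp.2.1.isZeroAtImInfty_iff, conjPair_id_qExpansion hp, PowerSeries.coeff_map,
      (hp.1.isZeroAtImInfty_iff).mp (charCoeff_zero_at hf hi), map_zero]
  have hzero : ∀ γ : SL(2, ℤ), IsZeroAtImInfty (g ∣[k] γ) := by
    intro γ
    refine isZeroAtImInfty_of_monic_root hn0 (fun i => cF' i) (g ∣[k] γ) hcF'zero ?_
    have h1 : (g ^ n + ∑ i ∈ Finset.range n, cF' i * g ^ i) ∣[(n : ℤ) * k] γ = 0 := by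
      rw [hgrel, SlashAction.zero_slash]
    rw [SlashAction.add_slash, pow_slash_SL2, SlashAction.sum_slash] at h1
    have h2 : ∀ i ∈ Finset.range n, (cF' i * g ^ i) ∣[(n : ℤ) * k] γ =
        cF' i * (g ∣[k] γ) ^ i := by
      intro i hi
      rw [Finset.mem_range] at hi
      have hw : (n : ℤ) * k = ((n - i : ℕ) : ℤ) * k + (i : ℤ) * k := by
        rw [Nat.cast_sub hi.le]; ring
      rw [hw, mul_slash_SL2, pow_slash_SL2, (hcF'1 i).inv γ (Subgroup.mem_top γ)]
    rw [Finset.sum_congr rfl h2] at h1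
    intro z
    have := congrFun h1 z
    simpa using this
  have hgCF : IsCF Γ₀ k g :=
    { holo := hg1
      inv := hginv
      bdd := fun γ => (hzero γ).isBoundedAtImInfty
      zero := hzero }
  refine ⟨g, hgCF, ?_⟩
  -- q-expansion
  have hgn : IsNice g := hgCF.toIsMF.isNice hT
  have hfn : IsNice f := hf.toIsMF.isNice hT
  have hqf : qExpansion 1 f * qExpansion 1 B = qExpansion 1 A := by
    rw [← hfn.qExpansion_mul hBB.1, hfB]
  have hqg : qExpansion 1 g * qExpansion 1 B' = qExpansion 1 A' := by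
    rw [← hgn.qExpansion_mul hBB.2.1, hgB]
  have hqB'ne : qExpansion 1 B' ≠ 0 := fun h => hB'ne (hBB.2.1.qExpansion_eq_zero_iff.mp h)
  have h3 : (qExpansion 1 f).map σ * qExpansion 1 B' = qExpansion 1 g * qExpansion 1 B' := by
    rw [hqg, conjPair_id_qExpansion hBB, conjPair_id_qExpansion hAA, ← map_mul, hqf]
  exact (mul_right_cancel₀ hqB'ne h3).symm

end

end Fermat.Agent.RatStr
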