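import Mathlib
import Fermat.Agent.RatStr.B_helper9_Struct

set_option autoImplicit false

namespace Fermat.Agent.RatStr

open UpperHalfPlane ModularForm ModularFormClass MatrixGroups EisensteinSeries

local notation "Δ" => ModularForm.discriminant

/-- Power series with rational coefficients. -/
noncomputable def ratPS : Subring (PowerSeries ℂ) := (PowerSeries.map (algebraMap ℚ ℂ)).range

theorem mem_ratPS_iff {p : PowerSeries ℂ} :
    p ∈ ratPS ↔ ∀ n, ∃ r : ℚ, p.coeff n = (r : ℂ) := by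
  constructor
  · rintro ⟨q, rfl⟩ n
    exact ⟨q.coeff n, by simp⟩
  · intro h
    choose r hr using h
    refine ⟨PowerSeries.mk r, ?_⟩
    ext n
    simp [hr]

theorem map_of_mem_ratPS (σ : ℂ ≃+* ℂ) {p : PowerSeries ℂ} (hp : p ∈ ratPS) :
    PowerSeries.map (σ : ℂ →+* ℂ) p = p := by
  ext n
  obtain ⟨r, hr⟩ := mem_ratPS_iff.mp hp n
  simp [hr]

theorem qExpansion_E_mem_ratPS {k : ℕ} (hk : 3 ≤ k) (hk2 : Even k) :
    qExpansion 1 (E hk) ∈ ratPS := by
  rw [mem_ratPS_iff]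
  intro n
  rw [E_qExpansion_coeff hk hk2]
  split_ifs with h
  · exact ⟨1, by simp⟩
  · exact ⟨-(2 * k / bernoulli k) * (ArithmeticFunction.sigma (k - 1) n : ℚ), by push_cast; ring⟩

theorem qExpansion_E₄_mem_ratPS : qExpansion 1 E₄ ∈ ratPS :=
  qExpansion_E_mem_ratPS _ ⟨2, rfl⟩

theorem qExpansion_E₆_mem_ratPS : qExpansion 1 E₆ ∈ ratPS :=
  qExpansion_E_mem_ratPS _ ⟨3, rfl⟩

theorem qExpansion_monoForm_mem_ratPS (a b : ℕ) (k : ℤ) (h : 4 * (a : ℤ) + 6 * (b : ℤ) = k) :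
    qExpansion 1 (monoForm a b k h) ∈ ratPS := by
  rw [qExpansion_monoForm]
  exact ratPS.mul_mem (ratPS.pow_mem qExpansion_E₄_mem_ratPS a)
    (ratPS.pow_mem qExpansion_E₆_mem_ratPS b)


theorem qExpansion_discriminant_mem_ratPS : qExpansion 1 Δ ∈ ratPS := by
  have h : (Δ : ℍ → ℂ) = (1 / 1728 : ℂ) • ((monoForm 3 0 12 (by norm_num) : ℍ → ℂ) -
      (monoForm 0 2 12 (by norm_num) : ℍ → ℂ)) := by
    ext z
    simp only [Pi.smul_apply, Pi.sub_apply, smul_eq_mul, monoForm_apply,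
      discriminant_eq_E₄_cube_sub_E₆_sq z]
    ring
  have h2 : qExpansion 1 Δ = (1 / 1728 : ℂ) • (qExpansion 1 (monoForm 3 0 12 (by norm_num)) -
      qExpansion 1 (monoForm 0 2 12 (by norm_num))) := by
    rw [h, ← ModularForm.qExpansion_sub one_pos one_mem_strictPeriods_SL,
      ← FunLike.coe_sub, ModularForm.qExpansion_smul one_pos one_mem_strictPeriods_SL]
  rw [h2, mem_ratPS_iff]
  intro n
  obtain ⟨r, hr⟩ := mem_ratPS_iff.mp (ratPS.sub_mem (qExpansion_monoForm_mem_ratPS 3 0 12 (by norm_num))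
    (qExpansion_monoForm_mem_ratPS 0 2 12 (by norm_num))) n
  refine ⟨(1 / 1728 : ℚ) * r, ?_⟩
  rw [PowerSeries.coeff_smul, hr]
  push_cast
  ring

/-- A level one modular form is determined by its `q`-expansion. -/
theorem levelOne_ext_qExpansion {k : ℤ} {F G : ModularForm 𝒮ℒ k}
    (h : qExpansion 1 F = qExpansion 1 G) : F = G := by
  have h1 : qExpansion 1 ((F - G : ModularForm 𝒮ℒ k) : ℍ → ℂ) = 0 := by
    rw [FunLike.coe_sub, ModularForm.qExpansion_sub one_pos one_mem_strictPeriods_SL, h,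
      sub_self]
  have := (ModularForm.qExpansion_eq_zero_iff one_pos one_mem_strictPeriods_SL (F - G)).mp h1
  exact sub_eq_zero.mp this

theorem map_smul_powerSeries (σ : ℂ ≃+* ℂ) (c : ℂ) (p : PowerSeries ℂ) :
    PowerSeries.map (σ : ℂ →+* ℂ) (c • p) = σ c • PowerSeries.map (σ : ℂ →+* ℂ) p := by
  ext n
  simp

theorem exists_conjForm (σ : ℂ ≃+* ℂ) {k : ℤ} (F : ModularForm 𝒮ℒ k) :
    ∃ G : ModularForm 𝒮ℒ k,
      qExpansion 1 G = PowerSeries.map (σ : ℂ →+* ℂ) (qExpansion 1 F) := by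
  have key : ∀ H ∈ isoSpan k, ∃ F' G : ModularForm 𝒮ℒ k, ⇑F' = H ∧
      qExpansion 1 G = PowerSeries.map (σ : ℂ →+* ℂ) (qExpansion 1 F') := by
    intro H hH
    refine Submodule.span_induction (p := fun H _ => ∃ F' G : ModularForm 𝒮ℒ k, ⇑F' = H ∧
      qExpansion 1 G = PowerSeries.map (σ : ℂ →+* ℂ) (qExpansion 1 F')) ?_ ?_ ?_ ?_ hH
    · rintro _ ⟨a, b, hab, rfl⟩
      refine ⟨monoForm a b k hab, monoForm a b k hab, ?_, ?_⟩
      · ext z; exact monoForm_apply a b k hab z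
      · rw [map_of_mem_ratPS σ (qExpansion_monoForm_mem_ratPS a b k hab)]
    · refine ⟨0, 0, ?_, ?_⟩
      · ext z; simp
      · simp [qExpansion_zero]
    · rintro x y _ _ ⟨F₁, G₁, rfl, h₁⟩ ⟨F₂, G₂, rfl, h₂⟩
      refine ⟨F₁ + F₂, G₁ + G₂, ?_, ?_⟩
      · ext z; simp
      · rw [FunLike.coe_add, FunLike.coe_add,
          ModularForm.qExpansion_add one_pos one_mem_strictPeriods_SL,
          ModularForm.qExpansion_add one_pos one_mem_strictPeriods_SL, h₁, h₂, map_add]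
    · rintro c x _ ⟨F₁, G₁, rfl, h₁⟩
      refine ⟨c • F₁, σ c • G₁, ?_, ?_⟩
      · ext z; simp
      · rw [FunLike.coe_smul, FunLike.coe_smul,
          ModularForm.qExpansion_smul one_pos one_mem_strictPeriods_SL,
          ModularForm.qExpansion_smul one_pos one_mem_strictPeriods_SL, h₁,
          map_smul_powerSeries]
  obtain ⟨F', G, hF', hG⟩ := key _ (coe_mem_isoSpan' F)
  have : F' = F := DFunLike.coe_injective hF'
  exact ⟨G, this ▸ hG⟩

/-- The conjugate `F^σ` of a level one modular form under an automorphism `σ` of `ℂ`. -/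
noncomputable def conjForm (σ : ℂ ≃+* ℂ) {k : ℤ} (F : ModularForm 𝒮ℒ k) : ModularForm 𝒮ℒ k :=
  (exists_conjForm σ F).choose

theorem qExpansion_conjForm (σ : ℂ ≃+* ℂ) {k : ℤ} (F : ModularForm 𝒮ℒ k) :
    qExpansion 1 (conjForm σ F) = PowerSeries.map (σ : ℂ →+* ℂ) (qExpansion 1 F) :=
  (exists_conjForm σ F).choose_spec

theorem qExpansion_conjForm_coeff (σ : ℂ ≃+* ℂ) {k : ℤ} (F : ModularForm 𝒮ℒ k) (n : ℕ) :
    (qExpansion 1 (conjForm σ F)).coeff n = σ ((qExpansion 1 F).coeff n) := by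
  rw [qExpansion_conjForm]
  simp

theorem conjForm_zero (σ : ℂ ≃+* ℂ) {k : ℤ} : conjForm σ (0 : ModularForm 𝒮ℒ k) = 0 := by
  apply levelOne_ext_qExpansion
  rw [qExpansion_conjForm]
  simp [qExpansion_zero]

theorem conjForm_add (σ : ℂ ≃+* ℂ) {k : ℤ} (F G : ModularForm 𝒮ℒ k) :
    conjForm σ (F + G) = conjForm σ F + conjForm σ G := by
  apply levelOne_ext_qExpansion
  rw [qExpansion_conjForm, FunLike.coe_add, FunLike.coe_add,
    ModularForm.qExpansion_add one_pos one_mem_strictPeriods_SL,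
    ModularForm.qExpansion_add one_pos one_mem_strictPeriods_SL, map_add,
    qExpansion_conjForm, qExpansion_conjForm]

theorem conjForm_smul (σ : ℂ ≃+* ℂ) {k : ℤ} (c : ℂ) (F : ModularForm 𝒮ℒ k) :
    conjForm σ (c • F) = σ c • conjForm σ F := by
  apply levelOne_ext_qExpansion
  rw [qExpansion_conjForm, FunLike.coe_smul, FunLike.coe_smul,
    ModularForm.qExpansion_smul one_pos one_mem_strictPeriods_SL,
    ModularForm.qExpansion_smul one_pos one_mem_strictPeriods_SL, map_smul_powerSeries,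
    qExpansion_conjForm]

theorem conjForm_mul (σ : ℂ ≃+* ℂ) {k l : ℤ} (F : ModularForm 𝒮ℒ k) (G : ModularForm 𝒮ℒ l) :
    conjForm σ (F.mul G) = (conjForm σ F).mul (conjForm σ G) := by
  apply levelOne_ext_qExpansion
  rw [qExpansion_conjForm, ModularForm.qExpansion_mul one_pos one_mem_strictPeriods_SL,
    ModularForm.qExpansion_mul one_pos one_mem_strictPeriods_SL, map_mul,
    qExpansion_conjForm, qExpansion_conjForm]

theorem conjForm_of_mem_ratPS (σ : ℂ ≃+* ℂ) {k : ℤ} (F : ModularForm 𝒮ℒ k)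
    (hF : qExpansion 1 F ∈ ratPS) : conjForm σ F = F := by
  apply levelOne_ext_qExpansion
  rw [qExpansion_conjForm, map_of_mem_ratPS σ hF]

theorem conjForm_coeff_zero (σ : ℂ ≃+* ℂ) {k : ℤ} (F : ModularForm 𝒮ℒ k)
    (hF : (qExpansion 1 F).coeff 0 = 0) : (qExpansion 1 (conjForm σ F)).coeff 0 = 0 := by
  rw [qExpansion_conjForm_coeff, hF, map_zero]

theorem conjForm_isCuspForm (σ : ℂ ≃+* ℂ) {k : ℤ} (F : ModularForm 𝒮ℒ k)
    (hF : IsCuspForm F) : IsCuspForm (conjForm σ F) := by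
  rw [isCuspForm_iff_coeffZero_eq_zero] at hF ⊢
  exact conjForm_coeff_zero σ F hF

end Fermat.Agent.RatStr
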