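import Fermat.Agent.RatStr.PolyAB
import Fermat.Agent.RatStr.PrimitiveRat

set_option autoImplicit false

/-!
# `B → 1` at `i∞` for the primitive element `t_N`
-/

namespace Fermat.Agent.RatStr

open UpperHalfPlane ModularForm Filter
open scoped MatrixGroups ModularForm Manifold Topology

noncomputable section

variable (N : ℕ) [NeZero N]

local notation "Γ₀" => CongruenceSubgroup.Gamma0 N

theorem out_not_mem_of_ne_one {q : SL(2, ℤ) ⧸ Γ₀} (hq : q ≠ ((1 : SL(2, ℤ)) : SL(2, ℤ) ⧸ Γ₀)) :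
    (q.out)⁻¹ ∉ Γ₀ := by
  intro h
  apply hq
  have h1 : q.out ∈ Γ₀ := by simpa using (Γ₀).inv_mem h
  rw [← QuotientGroup.out_eq' q, QuotientGroup.eq]
  simpa using (Γ₀).inv_mem h1

theorem cj_tN_zero_at {q : SL(2, ℤ) ⧸ Γ₀} (hq : q ≠ ((1 : SL(2, ℤ)) : SL(2, ℤ) ⧸ Γ₀)) :
    IsZeroAtImInfty (cj Γ₀ (wN N) (tN N) q) :=
  tN_zero_at N (out_not_mem_of_ne_one N hq)

theorem Bpoly_tN_tendsto : Tendsto (Bpoly Γ₀ (wN N) (tN N)) atImInfty (𝓝 1) := by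
  classical
  have h1 : Bpoly Γ₀ (wN N) (tN N) = fun z => ∏ q ∈ (Finset.univ : Finset (SL(2, ℤ) ⧸ Γ₀)).erase
      ((1 : SL(2, ℤ)) : SL(2, ℤ) ⧸ Γ₀), (tN N z - cj Γ₀ (wN N) (tN N) q z) := by
    ext z
    exact Bpoly_apply (tN_isMF N).inv z
  rw [h1]
  have h2 : Tendsto (fun z => ∏ q ∈ (Finset.univ : Finset (SL(2, ℤ) ⧸ Γ₀)).erase
      ((1 : SL(2, ℤ)) : SL(2, ℤ) ⧸ Γ₀), (tN N z - cj Γ₀ (wN N) (tN N) q z)) atImInfty
      (𝓝 (∏ q ∈ (Finset.univ : Finset (SL(2, ℤ) ⧸ Γ₀)).erase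
        ((1 : SL(2, ℤ)) : SL(2, ℤ) ⧸ Γ₀), ((1 : ℂ) - 0))) := by
    refine tendsto_finsetProd _ fun q hq => ?_
    exact (tN_tendsto_one N).sub (cj_tN_zero_at N (Finset.ne_of_mem_erase hq))
  simpa using h2

theorem Bpoly_tN_isNice : IsNice (Bpoly Γ₀ (wN N) (tN N)) := by
  rw [Bpoly_eq_polyB]
  exact (polyB_isMF (tN_isMF N) fun j => charCoeff_isMF (tN_isMF N) j).isNice (T_mem_Gamma0 N)

theorem Bpoly_tN_coeff_zero : (qExpansion 1 (Bpoly Γ₀ (wN N) (tN N))).coeff 0 = 1 :=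
  tendsto_nhds_unique (Bpoly_tN_isNice N).tendsto_coeff_zero (Bpoly_tN_tendsto N)

end

end Fermat.Agent.RatStr
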