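import Fermat.Agent.RatStr.Nice

set_option autoImplicit false

/-!
# Conjugating q-expansions by a ring homomorphism
-/

namespace Fermat.Agent.RatStr

open UpperHalfPlane ModularForm Filter Function
open scoped MatrixGroups ModularForm Manifold Topology

noncomputable section

/-- `F` has rational q-expansion. -/
def IsRatQ (F : ℍ → ℂ) : Prop :=
  ∃ P : PowerSeries ℚ, qExpansion 1 F = P.map (algebraMap ℚ ℂ)

namespace IsRatQ

variable {F G : ℍ → ℂ}

theorem zero : IsRatQ (0 : ℍ → ℂ) := ⟨0, by simp [qExpansion_zero]⟩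

theorem one : IsRatQ (1 : ℍ → ℂ) := ⟨1, by simp [qExpansion_one]⟩

theorem add (hF : IsNice F) (hG : IsNice G) (h : IsRatQ F) (h' : IsRatQ G) : IsRatQ (F + G) := by
  obtain ⟨P, hP⟩ := h
  obtain ⟨Q, hQ⟩ := h'
  exact ⟨P + Q, by rw [hF.qExpansion_add hG, hP, hQ, map_add]⟩

theorem mul (hF : IsNice F) (hG : IsNice G) (h : IsRatQ F) (h' : IsRatQ G) : IsRatQ (F * G) := by
  obtain ⟨P, hP⟩ := h
  obtain ⟨Q, hQ⟩ := h'
  exact ⟨P * Q, by rw [hF.qExpansion_mul hG, hP, hQ, map_mul]⟩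

theorem neg (hF : IsNice F) (h : IsRatQ F) : IsRatQ (-F) := by
  obtain ⟨P, hP⟩ := h
  exact ⟨-P, by rw [hF.qExpansion_neg, hP, map_neg]⟩

theorem sub (hF : IsNice F) (hG : IsNice G) (h : IsRatQ F) (h' : IsRatQ G) : IsRatQ (F - G) := by
  rw [sub_eq_add_neg]; exact add hF hG.neg h (neg hG h')

theorem pow (hF : IsNice F) (h : IsRatQ F) (n : ℕ) : IsRatQ (F ^ n) := by
  induction n with
  | zero => simpa using one
  | succ n ih => rw [pow_succ]; exact mul (hF.pow n) hF ih h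

theorem smul_rat (hF : IsNice F) (h : IsRatQ F) (c : ℚ) : IsRatQ ((c : ℂ) • F) := by
  obtain ⟨P, hP⟩ := h
  refine ⟨PowerSeries.C c * P, ?_⟩
  rw [hF.qExpansion_smul, hP, map_mul, PowerSeries.map_C]
  ext n
  simp [PowerSeries.coeff_C_mul]

end IsRatQ

variable {R : Type*} [CommRing R] (ι φ : R →+* ℂ)

/-- `F'` is obtained from `F` by applying `φ ∘ ι⁻¹` to the q-expansion coefficients. -/
def IsConjPair (F F' : ℍ → ℂ) : Prop :=
  IsNice F ∧ IsNice F' ∧
    ∃ P : PowerSeries R, qExpansion 1 F = P.map ι ∧ qExpansion 1 F' = P.map φ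

variable {ι φ} {F F' G G' : ℍ → ℂ}

namespace IsConjPair

theorem zero : IsConjPair ι φ 0 0 :=
  ⟨IsNice.zero, IsNice.zero, 0, by simp [qExpansion_zero], by simp [qExpansion_zero]⟩

theorem one : IsConjPair ι φ 1 1 :=
  ⟨IsNice.one, IsNice.one, 1, by simp [qExpansion_one], by simp [qExpansion_one]⟩

theorem add (h : IsConjPair ι φ F F') (h' : IsConjPair ι φ G G') :
    IsConjPair ι φ (F + G) (F' + G') := by
  obtain ⟨h1, h2, P, hP, hP'⟩ := h
  obtain ⟨g1, g2, Q, hQ, hQ'⟩ := h'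
  refine ⟨h1.add g1, h2.add g2, P + Q, ?_, ?_⟩
  · rw [h1.qExpansion_add g1, hP, hQ, map_add]
  · rw [h2.qExpansion_add g2, hP', hQ', map_add]

theorem mul (h : IsConjPair ι φ F F') (h' : IsConjPair ι φ G G') :
    IsConjPair ι φ (F * G) (F' * G') := by
  obtain ⟨h1, h2, P, hP, hP'⟩ := h
  obtain ⟨g1, g2, Q, hQ, hQ'⟩ := h'
  refine ⟨h1.mul g1, h2.mul g2, P * Q, ?_, ?_⟩
  · rw [h1.qExpansion_mul g1, hP, hQ, map_mul]
  · rw [h2.qExpansion_mul g2, hP', hQ', map_mul]

theorem neg (h : IsConjPair ι φ F F') : IsConjPair ι φ (-F) (-F') := by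
  obtain ⟨h1, h2, P, hP, hP'⟩ := h
  refine ⟨h1.neg, h2.neg, -P, ?_, ?_⟩
  · rw [h1.qExpansion_neg, hP, map_neg]
  · rw [h2.qExpansion_neg, hP', map_neg]

theorem sub (h : IsConjPair ι φ F F') (h' : IsConjPair ι φ G G') :
    IsConjPair ι φ (F - G) (F' - G') := by
  rw [sub_eq_add_neg, sub_eq_add_neg]; exact h.add h'.neg

theorem pow (h : IsConjPair ι φ F F') (n : ℕ) : IsConjPair ι φ (F ^ n) (F' ^ n) := by
  induction n with
  | zero => simpa using (one : IsConjPair ι φ 1 1)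
  | succ n ih => rw [pow_succ, pow_succ]; exact ih.mul h

theorem sum {α : Type*} (s : Finset α) (f f' : α → ℍ → ℂ)
    (h : ∀ i ∈ s, IsConjPair ι φ (f i) (f' i)) :
    IsConjPair ι φ (∑ i ∈ s, f i) (∑ i ∈ s, f' i) := by
  classical
  induction s using Finset.induction_on with
  | empty => simpa using (zero : IsConjPair ι φ 0 0)
  | insert i t hi ih =>
    rw [Finset.sum_insert hi, Finset.sum_insert hi]
    exact (h i (Finset.mem_insert_self i t)).add
      (ih fun j hj => h j (Finset.mem_insert_of_mem hj))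

/-- constants. -/
theorem const (r : R) : IsConjPair ι φ (fun _ => ι r) (fun _ => φ r) := by
  have e : ∀ c : ℂ, qExpansion 1 (fun _ => c : ℍ → ℂ) = PowerSeries.C c := by
    intro c
    have h1 : (fun _ => c : ℍ → ℂ) = c • (1 : ℍ → ℂ) := by ext z; simp
    rw [h1, IsNice.one.qExpansion_smul, qExpansion_one]
    ext n
    simp [PowerSeries.coeff_C, PowerSeries.coeff_one]
  refine ⟨IsNice.const _, IsNice.const _, PowerSeries.C r, ?_, ?_⟩
  · rw [e, PowerSeries.map_C]
  · rw [e, PowerSeries.map_C]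

theorem smul (r : R) (h : IsConjPair ι φ F F') :
    IsConjPair ι φ (ι r • F) (φ r • F') := by
  have h1 : ι r • F = (fun _ => ι r) * F := by ext z; simp
  have h2 : φ r • F' = (fun _ => φ r) * F' := by ext z; simp
  rw [h1, h2]
  exact (const r).mul h

/-- Rational q-expansions are fixed. -/
theorem of_isRatQ [Algebra ℚ R] (hF : IsNice F) (h : IsRatQ F) : IsConjPair ι φ F F := by
  obtain ⟨P, hP⟩ := h
  refine ⟨hF, hF, P.map (algebraMap ℚ R), ?_, ?_⟩
  · rw [hP, ← RingHom.comp_apply, ← PowerSeries.map_comp,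
      Subsingleton.elim (ι.comp (algebraMap ℚ R)) (algebraMap ℚ ℂ)]
  · rw [hP, ← RingHom.comp_apply, ← PowerSeries.map_comp,
      Subsingleton.elim (φ.comp (algebraMap ℚ R)) (algebraMap ℚ ℂ)]

/-- If `F = 0` then `F' = 0` (for `ι` injective). -/
theorem eq_zero (hι : Function.Injective ι) (h : IsConjPair ι φ F F') (hF : F = 0) : F' = 0 := by
  obtain ⟨h1, h2, P, hP, hP'⟩ := h
  rw [hF, qExpansion_zero] at hP
  have hP0 : P = 0 := by
    ext n
    have := congrArg (PowerSeries.coeff n) hP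
    rw [PowerSeries.coeff_map, map_zero] at this
    rw [map_zero]
    exact hι (by rw [← this, map_zero])
  rw [hP0, map_zero] at hP'
  exact h2.qExpansion_eq_zero_iff.mp hP'

theorem coeff_eq (h : IsConjPair ι φ F F') (n : ℕ) :
    ∃ r : R, (qExpansion 1 F).coeff n = ι r ∧ (qExpansion 1 F').coeff n = φ r := by
  obtain ⟨h1, h2, P, hP, hP'⟩ := h
  exact ⟨P.coeff n, by rw [hP, PowerSeries.coeff_map], by rw [hP', PowerSeries.coeff_map]⟩

end IsConjPair

end

end Fermat.Agent.RatStr
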