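import Fermat.Agent.RatStr.Basic

set_option autoImplicit false

/-!
# Conjugates of a modular form under `SL(2, ℤ)` and their symmetric functions
-/

namespace Fermat.Agent.RatStr

open UpperHalfPlane ModularForm Filter
open scoped MatrixGroups ModularForm Manifold Topology

noncomputable section

variable (H : Subgroup SL(2, ℤ))

/-- The conjugate of `F` indexed by the left coset `q = gH`: it is `F ∣[k] g⁻¹`. -/
def cj (k : ℤ) (F : ℍ → ℂ) (q : SL(2, ℤ) ⧸ H) : ℍ → ℂ := F ∣[k] (q.out)⁻¹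

variable {H} {k k₁ k₂ : ℤ} {F G : ℍ → ℂ}

theorem cj_mk (hF : ∀ γ ∈ H, F ∣[k] γ = F) (g : SL(2, ℤ)) :
    cj H k F (g : SL(2, ℤ) ⧸ H) = F ∣[k] g⁻¹ := by
  unfold cj
  obtain ⟨h, hh⟩ := QuotientGroup.mk_out_eq_mul H g
  rw [hh, mul_inv_rev, SlashAction.slash_mul, hF _ (H.inv_mem h.2)]

theorem cj_one (hF : ∀ γ ∈ H, F ∣[k] γ = F) :
    cj H k F ((1 : SL(2, ℤ)) : SL(2, ℤ) ⧸ H) = F := by
  rw [cj_mk hF, inv_one, SlashAction.slash_one]

theorem cj_slash (hF : ∀ γ ∈ H, F ∣[k] γ = F) (γ : SL(2, ℤ)) (q : SL(2, ℤ) ⧸ H) :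
    (cj H k F q) ∣[k] γ = cj H k F (γ⁻¹ • q) := by
  induction q using QuotientGroup.induction_on with
  | H g =>
    rw [cj_mk hF, ← SlashAction.slash_mul, MulAction.Quotient.smul_mk, cj_mk hF]
    congr 1
    simp [mul_inv_rev]

theorem cj_mul (q : SL(2, ℤ) ⧸ H) :
    cj H (k₁ + k₂) (F * G) q = cj H k₁ F q * cj H k₂ G q := by
  unfold cj
  rw [mul_slash_SL2]

theorem cj_holo (hF : MDiff F) (q : SL(2, ℤ) ⧸ H) : MDiff (cj H k F q) :=
  hF.slash k _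

theorem cj_bdd (hF : IsMF H k F) (q : SL(2, ℤ) ⧸ H) : IsBoundedAtImInfty (cj H k F q) :=
  hF.bdd _

theorem cj_zero_at (hF : IsCF H k F) (q : SL(2, ℤ) ⧸ H) : IsZeroAtImInfty (cj H k F q) :=
  hF.zero _

/-- slash of a product by an element of `SL(2, ℤ)`. -/
theorem prod_slash_SL2 {ι : Type*} (s : Finset ι) (f : ι → ℍ → ℂ) (k : ℤ) (γ : SL(2, ℤ)) :
    (∏ i ∈ s, f i) ∣[k * s.card] γ = ∏ i ∈ s, (f i) ∣[k] γ := by
  classical
  induction s using Finset.induction_on with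
  | empty => simpa using is_invariant_one γ
  | insert i t hi ih =>
    rw [Finset.prod_insert hi, Finset.prod_insert hi, Finset.card_insert_of_notMem hi]
    have : k * ((t.card + 1 : ℕ) : ℤ) = k + k * t.card := by push_cast; ring
    rw [this, mul_slash_SL2, ih]

theorem pow_slash_SL2 (f : ℍ → ℂ) (k : ℤ) (n : ℕ) (γ : SL(2, ℤ)) :
    (f ^ n) ∣[n * k] γ = (f ∣[k] γ) ^ n := by
  have := prod_slash_SL2 (Finset.range n) (fun _ => f) k γ
  simpa [mul_comm] using this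

variable (H) [H.FiniteIndex]

instance : Fintype (SL(2, ℤ) ⧸ H) := Subgroup.fintypeQuotientOfFiniteIndex

/-- `i`-th elementary symmetric function of the conjugates of `F`. -/
def esymmFn (k : ℤ) (F : ℍ → ℂ) (i : ℕ) : ℍ → ℂ :=
  ∑ t ∈ (Finset.univ : Finset (SL(2, ℤ) ⧸ H)).powersetCard i, ∏ q ∈ t, cj H k F q

/-- Trace of `F * G ^ m`. -/
def trFn (k₁ k₂ : ℤ) (F G : ℍ → ℂ) (m : ℕ) : ℍ → ℂ :=
  ∑ q : SL(2, ℤ) ⧸ H, cj H k₁ F q * (cj H k₂ G q) ^ m

variable {H}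

theorem esymmFn_slash (hF : ∀ γ ∈ H, F ∣[k] γ = F) (i : ℕ) (γ : SL(2, ℤ)) :
    (esymmFn H k F i) ∣[i * k] γ = esymmFn H k F i := by
  classical
  unfold esymmFn
  rw [SlashAction.sum_slash]
  have h1 : ∀ t ∈ (Finset.univ : Finset (SL(2, ℤ) ⧸ H)).powersetCard i,
      (∏ q ∈ t, cj H k F q) ∣[(i : ℤ) * k] γ =
        ∏ q ∈ t.map (MulAction.toPerm γ⁻¹ : Equiv.Perm (SL(2, ℤ) ⧸ H)).toEmbedding,
          cj H k F q := by
    intro t ht
    rw [Finset.mem_powersetCard] at ht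
    rw [mul_comm, ← ht.2, prod_slash_SL2, Finset.prod_map]
    refine Finset.prod_congr rfl fun q _ => ?_
    rw [cj_slash hF]
    rfl
  rw [Finset.sum_congr rfl h1]
  refine Finset.sum_equiv (Equiv.finsetCongr (MulAction.toPerm γ⁻¹)) ?_ ?_
  · intro t
    simp only [Finset.mem_powersetCard, Finset.subset_univ, true_and, Equiv.finsetCongr_apply,
      Finset.card_map]
  · intro t _
    rfl

theorem esymmFn_isMF (hF : IsMF H k F) (i : ℕ) : IsMF ⊤ (i * k) (esymmFn H k F i) := by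
  have hb : IsBoundedAtImInfty (esymmFn H k F i) := by
    unfold esymmFn
    refine (boundedAtImInftySubalgebra ℂ).sum_mem fun t _ => ?_
    exact BoundedAtFilter.prod t fun q _ => cj_bdd hF q
  refine ⟨?_, fun γ _ => esymmFn_slash hF.inv i γ, fun γ => ?_⟩
  · unfold esymmFn
    exact MDifferentiable.sum fun t _ => MDifferentiable.prod fun q _ => cj_holo hF.holo q
  · rw [esymmFn_slash hF.inv]
    exact hb

theorem esymmFn_isCF (hF : IsCF H k F) {i : ℕ} (hi : 0 < i) :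
    IsCF ⊤ (i * k) (esymmFn H k F i) := by
  classical
  have hz : IsZeroAtImInfty (esymmFn H k F i) := by
    unfold esymmFn
    refine (zeroAtImInftySubmodule ℂ).sum_mem fun t ht => ?_
    rw [Finset.mem_powersetCard] at ht
    obtain ⟨q₀, hq₀⟩ : t.Nonempty := by
      rw [← Finset.card_pos, ht.2]; exact hi
    rw [← Finset.mul_prod_erase t _ hq₀]
    exact ZeroAtFilter.mul_boundedAtFilter (cj_zero_at hF q₀)
      (BoundedAtFilter.prod _ fun q _ => cj_bdd hF.toIsMF q)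
  refine ⟨esymmFn_isMF hF.toIsMF i, fun γ => ?_⟩
  rw [esymmFn_slash hF.inv]
  exact hz

theorem trFn_slash (hF : ∀ γ ∈ H, F ∣[k₁] γ = F) (hG : ∀ γ ∈ H, G ∣[k₂] γ = G) (m : ℕ)
    (γ : SL(2, ℤ)) :
    (trFn H k₁ k₂ F G m) ∣[k₁ + m * k₂] γ = trFn H k₁ k₂ F G m := by
  unfold trFn
  rw [SlashAction.sum_slash]
  have h1 : ∀ q : SL(2, ℤ) ⧸ H, (cj H k₁ F q * (cj H k₂ G q) ^ m) ∣[k₁ + m * k₂] γ =
      cj H k₁ F (γ⁻¹ • q) * (cj H k₂ G (γ⁻¹ • q)) ^ m := by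
    intro q
    rw [mul_slash_SL2, pow_slash_SL2, cj_slash hF, cj_slash hG]
  simp_rw [h1]
  exact Equiv.sum_comp (MulAction.toPerm γ⁻¹ : Equiv.Perm (SL(2, ℤ) ⧸ H))
    (fun q => cj H k₁ F q * (cj H k₂ G q) ^ m)

theorem trFn_isMF (hF : IsMF H k₁ F) (hG : IsMF H k₂ G) (m : ℕ) :
    IsMF ⊤ (k₁ + m * k₂) (trFn H k₁ k₂ F G m) := by
  have hb : IsBoundedAtImInfty (trFn H k₁ k₂ F G m) := by
    unfold trFn
    refine (boundedAtImInftySubalgebra ℂ).sum_mem fun q _ => ?_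
    exact (boundedAtImInftySubalgebra ℂ).mul_mem (cj_bdd hF q)
      ((boundedAtImInftySubalgebra ℂ).pow_mem (cj_bdd hG q) m)
  refine ⟨?_, fun γ _ => trFn_slash hF.inv hG.inv m γ, fun γ => ?_⟩
  · unfold trFn
    exact MDifferentiable.sum fun q _ => (cj_holo hF.holo q).mul ((cj_holo hG.holo q).pow m)
  · rw [trFn_slash hF.inv hG.inv]
    exact hb

end

end Fermat.Agent.RatStr
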