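import Mathlib

set_option autoImplicit false

/-!
# Dividing holomorphic functions subject to a monic polynomial relation
-/

namespace Fermat.Agent.RatStr

open Filter Topology Set Function

/-- Cauchy bound for the roots of a monic polynomial. -/
theorem norm_le_of_monic_root_fin {n : ℕ} (x : ℂ) (a : Fin n → ℂ)
    (h : x ^ n + ∑ j : Fin n, a j * x ^ (j : ℕ) = 0) : ‖x‖ ≤ 1 + ∑ j, ‖a j‖ := by
  by_contra hlt
  push Not at hlt
  have hS : 0 ≤ ∑ j, ‖a j‖ := Finset.sum_nonneg fun _ _ => norm_nonneg _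
  have h1 : 1 ≤ ‖x‖ := by linarith
  have hn : 0 < n := by
    rcases Nat.eq_zero_or_pos n with rfl | hn
    · simp at h
    · exact hn
  have h2 : ‖x‖ ^ n ≤ (∑ j, ‖a j‖) * ‖x‖ ^ (n - 1) := by
    have : x ^ n = - ∑ j : Fin n, a j * x ^ (j : ℕ) := eq_neg_of_add_eq_zero_left h
    calc ‖x‖ ^ n = ‖x ^ n‖ := (norm_pow _ _).symm
      _ = ‖∑ j : Fin n, a j * x ^ (j : ℕ)‖ := by rw [this, norm_neg]
      _ ≤ ∑ j : Fin n, ‖a j * x ^ (j : ℕ)‖ := norm_sum_le _ _
      _ ≤ ∑ j : Fin n, ‖a j‖ * ‖x‖ ^ (n - 1) := by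
          refine Finset.sum_le_sum fun j _ => ?_
          rw [norm_mul, norm_pow]
          exact mul_le_mul_of_nonneg_left (pow_le_pow_right₀ h1 (by omega)) (norm_nonneg _)
      _ = _ := by rw [Finset.sum_mul]
  have h3 : ‖x‖ ^ n = ‖x‖ * ‖x‖ ^ (n - 1) := by
    rw [← pow_succ']; congr 1; omega
  have h4 : 0 < ‖x‖ ^ (n - 1) := pow_pos (by linarith) _
  nlinarith

variable {U : Set ℂ} {A B : ℂ → ℂ}

/-- A holomorphic function which is not identically zero on a preconnected open set is nonzero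
on a punctured neighbourhood of each point. -/
theorem eventually_ne_zero_of_not_eqOn_zero (hU : IsOpen U) (hUc : IsPreconnected U)
    (hB : DifferentiableOn ℂ B U) (hB0 : ∃ z ∈ U, B z ≠ 0) {z₀ : ℂ} (hz₀ : z₀ ∈ U) :
    ∀ᶠ z in 𝓝[≠] z₀, B z ≠ 0 := by
  by_contra h
  rw [not_eventually] at h
  have h' : ∃ᶠ z in 𝓝[≠] z₀, B z = 0 := h.mono fun z hz => not_not.mp hz
  have := (hB.analyticOnNhd hU).eqOn_zero_of_preconnected_of_frequently_eq_zero hUc hz₀ h'
  obtain ⟨z, hz, hBz⟩ := hB0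
  exact hBz (this hz)

/-- If `H` is continuous at `z₀` and vanishes on a punctured neighbourhood, it vanishes at `z₀`. -/
theorem eq_zero_of_eventually_punctured {H : ℂ → ℂ} {z₀ : ℂ} (hc : ContinuousAt H z₀)
    (h : ∀ᶠ z in 𝓝[≠] z₀, H z = 0) : H z₀ = 0 := by
  have h1 : Tendsto H (𝓝[≠] z₀) (𝓝 (H z₀)) := hc.tendsto.mono_left nhdsWithin_le_nhds
  have h2 : Tendsto H (𝓝[≠] z₀) (𝓝 0) := by
    refine Tendsto.congr' ?_ tendsto_const_nhds
    exact h.mono fun z hz => hz.symm
  exact tendsto_nhds_unique h1 h2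

/-- **Division under a monic relation.** -/
theorem exists_div_of_monic_relation (hU : IsOpen U) (hUc : IsPreconnected U)
    (hA : DifferentiableOn ℂ A U) (hB : DifferentiableOn ℂ B U)
    (hB0 : ∃ z ∈ U, B z ≠ 0) {n : ℕ} (c : Fin n → ℂ → ℂ) (hc : ∀ j, ContinuousOn (c j) U)
    (hrel : ∀ z ∈ U, A z ^ n + ∑ j : Fin n, c j z * A z ^ (j : ℕ) * B z ^ (n - j) = 0) :
    ∃ g : ℂ → ℂ, DifferentiableOn ℂ g U ∧ (∀ z ∈ U, g z * B z = A z) ∧
      ∀ z ∈ U, g z ^ n + ∑ j : Fin n, c j z * g z ^ (j : ℕ) = 0 := by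
  set h : ℂ → ℂ := fun w => A w / B w with hh
  set g : ℂ → ℂ := fun z => limUnder (𝓝[≠] z) h with hg
  -- where `B ≠ 0`, `h` satisfies the monic relation
  have hrel' : ∀ z ∈ U, B z ≠ 0 → h z ^ n + ∑ j : Fin n, c j z * h z ^ (j : ℕ) = 0 := by
    intro z hz hBz
    have hBn : B z ^ n ≠ 0 := pow_ne_zero _ hBz
    have := hrel z hz
    have h2 : (h z ^ n + ∑ j : Fin n, c j z * h z ^ (j : ℕ)) * B z ^ n = 0 := by
      rw [← this, add_mul, Finset.sum_mul]
      congr 1
      · simp only [hh, div_pow]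
        field_simp
      · refine Finset.sum_congr rfl fun j _ => ?_
        have hj : B z ^ n = B z ^ (j : ℕ) * B z ^ (n - j) := by
          rw [← pow_add]; congr 1; omega
        simp only [hh, div_pow]
        have : B z ^ (j : ℕ) ≠ 0 := pow_ne_zero _ hBz
        rw [hj]
        field_simp
    exact (mul_eq_zero.mp h2).resolve_right hBn
  -- `g = h` where `B ≠ 0`
  have hgh : ∀ z ∈ U, B z ≠ 0 → g z = h z := by
    intro z hz hBz
    have hcont : ContinuousAt h z :=
      ((hA.differentiableAt (hU.mem_nhds hz)).continuousAt).div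
        ((hB.differentiableAt (hU.mem_nhds hz)).continuousAt) hBz
    exact (hcont.tendsto.mono_left nhdsWithin_le_nhds).limUnder_eq
  -- differentiability
  have hdiff : ∀ z₀ ∈ U, DifferentiableAt ℂ g z₀ ∧
      Tendsto h (𝓝[≠] z₀) (𝓝 (g z₀)) := by
    intro z₀ hz₀
    have hev := eventually_ne_zero_of_not_eqOn_zero hU hUc hB hB0 hz₀
    -- bound on the coefficients near z₀
    have hcb : ∀ j : Fin n, ∀ᶠ z in 𝓝 z₀, ‖c j z‖ ≤ ‖c j z₀‖ + 1 := by
      intro j
      have hcj : ContinuousAt (c j) z₀ := (hc j).continuousAt (hU.mem_nhds hz₀)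
      have := hcj.norm.eventually (gt_mem_nhds (lt_add_one ‖c j z₀‖))
      exact this.mono fun z hz => hz.le
    have hcb' : ∀ᶠ z in 𝓝 z₀, ∀ j : Fin n, ‖c j z‖ ≤ ‖c j z₀‖ + 1 :=
      eventually_all.mpr hcb
    have hUn : ∀ᶠ z in 𝓝 z₀, z ∈ U := hU.mem_nhds hz₀
    rw [eventually_nhdsWithin_iff] at hev
    obtain ⟨s, hs, hsprop⟩ := (hev.and (hcb'.and hUn)).exists_mem
    obtain ⟨t, hts, ht, hzt⟩ := mem_nhds_iff.mp hs
    have htn : t ∈ 𝓝 z₀ := ht.mem_nhds hzt
    have hd : DifferentiableOn ℂ h (t \ {z₀}) := by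
      intro w hw
      have hwU : w ∈ U := (hsprop w (hts hw.1)).2.2
      have hBw : B w ≠ 0 := (hsprop w (hts hw.1)).1 hw.2
      exact ((hA.differentiableAt (hU.mem_nhds hwU)).div
        (hB.differentiableAt (hU.mem_nhds hwU)) hBw).differentiableWithinAt
    have hb : BddAbove (norm ∘ h '' (t \ {z₀})) := by
      refine ⟨1 + ∑ j : Fin n, (‖c j z₀‖ + 1), ?_⟩
      rintro _ ⟨w, hw, rfl⟩
      have hwU : w ∈ U := (hsprop w (hts hw.1)).2.2
      have hBw : B w ≠ 0 := (hsprop w (hts hw.1)).1 hw.2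
      have hcw := (hsprop w (hts hw.1)).2.1
      refine (norm_le_of_monic_root_fin (h w) (fun j => c j w) (hrel' w hwU hBw)).trans ?_
      gcongr with j _
      exact hcw j
    have key := Complex.differentiableOn_update_limUnder_of_bddAbove htn hd hb
    -- g agrees with the update on t
    have hEq : EqOn g (update h z₀ (limUnder (𝓝[≠] z₀) h)) t := by
      intro w hw
      by_cases hwz : w = z₀
      · subst hwz
        simp [hg]
      · rw [update_of_ne hwz]
        have hwU : w ∈ U := (hsprop w (hts hw)).2.2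
        have hBw : B w ≠ 0 := (hsprop w (hts hw)).1 hwz
        exact hgh w hwU hBw
    have hgd : DifferentiableOn ℂ g t := key.congr hEq
    refine ⟨hgd.differentiableAt htn, ?_⟩
    have hgc : ContinuousAt g z₀ := (hgd.differentiableAt htn).continuousAt
    have h1 : Tendsto g (𝓝[≠] z₀) (𝓝 (g z₀)) := hgc.tendsto.mono_left nhdsWithin_le_nhds
    refine h1.congr' ?_
    rw [EventuallyEq, eventually_nhdsWithin_iff]
    filter_upwards [htn] with w hw hwz
    have hwU : w ∈ U := (hsprop w (hts hw)).2.2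
    have hBw : B w ≠ 0 := (hsprop w (hts hw)).1 hwz
    exact hgh w hwU hBw
  have hgdiff : DifferentiableOn ℂ g U := fun z hz => (hdiff z hz).1.differentiableWithinAt
  refine ⟨g, hgdiff, ?_, ?_⟩
  · intro z hz
    by_cases hBz : B z = 0
    · have := hrel z hz
      have hn : 0 < n := by
        rcases Nat.eq_zero_or_pos n with rfl | hn
        · simp at this
        · exact hn
      have hsum : ∑ j : Fin n, c j z * A z ^ (j : ℕ) * B z ^ (n - j) = 0 := by
        refine Finset.sum_eq_zero fun j _ => ?_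
        rw [hBz, zero_pow (by omega), mul_zero]
      rw [hsum, add_zero] at this
      rw [hBz, mul_zero, (pow_eq_zero_iff hn.ne').mp this]
    · rw [hgh z hz hBz]
      simp only [hh]
      field_simp
  · intro z₀ hz₀
    have hev := eventually_ne_zero_of_not_eqOn_zero hU hUc hB hB0 hz₀
    set Hf : ℂ → ℂ := fun z => g z ^ n + ∑ j : Fin n, c j z * g z ^ (j : ℕ) with hHf
    have hgc : ContinuousAt g z₀ := (hdiff z₀ hz₀).1.continuousAt
    have hHc : ContinuousAt Hf z₀ := by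
      refine (hgc.pow n).add ?_
      refine tendsto_finsetSum _ fun j _ => ?_
      exact (((hc j).continuousAt (hU.mem_nhds hz₀)).mul (hgc.pow _))
    refine eq_zero_of_eventually_punctured (H := Hf) hHc ?_
    have hUn : ∀ᶠ z in 𝓝[≠] z₀, z ∈ U := nhdsWithin_le_nhds (hU.mem_nhds hz₀)
    filter_upwards [hev, hUn] with z hBz hzU
    simp only [hHf]
    rw [hgh z hzU hBz]
    exact hrel' z hzU hBz

end Fermat.Agent.RatStr
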