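import Fermat.Agent.RatStr.UpperTri
import Fermat.Agent.RatStr.LevelOne
import Fermat.Agent.RatStr.Conjugates

set_option autoImplicit false

/-!
# The form `Δ(Nz)` and the primitive element `t_N = Δ^N / Δ(N·)`
-/

namespace Fermat.Agent.RatStr

open UpperHalfPlane ModularForm Filter
open scoped MatrixGroups ModularForm Manifold Topology

noncomputable section

local notation "Δ" => ModularForm.discriminant

theorem discriminant_slash_SL (γ : SL(2, ℤ)) : (Δ : ℍ → ℂ) ∣[(12 : ℤ)] γ = Δ :=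
  (IsMF.of_modularForm (CuspForm.discriminant : ModularForm 𝒮ℒ 12)).inv γ (Subgroup.mem_top γ)

variable (N : ℕ) [NeZero N]

theorem N_pos_real : (0 : ℝ) < (N : ℝ) := by exact_mod_cast Nat.pos_of_ne_zero (NeZero.ne N)

/-- the matrix `diag(N, 1)`. -/
def alphaN : GL (Fin 2) ℝ := utGL (N : ℝ) 0 1 (N_pos_real N) one_pos

/-- `Δ ∣[12] diag(N,1)`, equal to `N^11 Δ(Nz)`. -/
def DN : ℍ → ℂ := (Δ : ℍ → ℂ) ∣[(12 : ℤ)] alphaN N

theorem DN_slash_of_decomp {γ δ : SL(2, ℤ)} {β : GL (Fin 2) ℝ}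
    (h : alphaN N * (γ : GL (Fin 2) ℝ) = (δ : GL (Fin 2) ℝ) * β) :
    (DN N) ∣[(12 : ℤ)] γ = (Δ : ℍ → ℂ) ∣[(12 : ℤ)] β := by
  unfold DN
  rw [SL_slash, ← SlashAction.slash_mul, h, SlashAction.slash_mul, ← SL_slash,
    discriminant_slash_SL]

theorem DN_apply (z : ℍ) : DN N z = Δ (alphaN N • z) * (N : ℂ) ^ (11 : ℤ) := by
  unfold DN alphaN
  rw [slash_utGL_apply]
  simp

theorem DN_ne_zero (z : ℍ) : DN N z ≠ 0 := by
  rw [DN_apply]
  refine mul_ne_zero (discriminant_ne_zero _) (zpow_ne_zero _ ?_)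
  exact_mod_cast NeZero.ne N

theorem DN_holo : MDiff (DN N) :=
  (CuspForm.discriminant : CuspForm 𝒮ℒ 12).holo'.slash 12 _

/-- `DN` is invariant under `Γ₀(N)`. -/
theorem DN_slash_Gamma0 {γ : SL(2, ℤ)} (hγ : γ ∈ CongruenceSubgroup.Gamma0 N) :
    (DN N) ∣[(12 : ℤ)] γ = DN N := by
  rw [CongruenceSubgroup.Gamma0_mem, ZMod.intCast_zmod_eq_zero_iff_dvd] at hγ
  obtain ⟨c, hc⟩ := hγ
  have hdet : γ 0 0 * γ 1 1 - γ 0 1 * γ 1 0 = 1 := by
    have := γ.det_coe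
    rwa [Matrix.det_fin_two] at this
  let δ : SL(2, ℤ) := ⟨!![γ 0 0, N * γ 0 1; c, γ 1 1], by
    rw [Matrix.det_fin_two_of]; rw [hc] at hdet; linarith⟩
  have h : alphaN N * (γ : GL (Fin 2) ℝ) = (δ : GL (Fin 2) ℝ) * alphaN N := by
    apply Units.ext
    rw [Units.val_mul, Units.val_mul]
    have e1 : ((γ : GL (Fin 2) ℝ) : Matrix (Fin 2) (Fin 2) ℝ) =
        (γ : Matrix (Fin 2) (Fin 2) ℤ).map (algebraMap ℤ ℝ) :=
      Matrix.SpecialLinearGroup.mapGL_coe_matrix γ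
    have e2 : ((δ : GL (Fin 2) ℝ) : Matrix (Fin 2) (Fin 2) ℝ) =
        (δ : Matrix (Fin 2) (Fin 2) ℤ).map (algebraMap ℤ ℝ) :=
      Matrix.SpecialLinearGroup.mapGL_coe_matrix δ
    rw [e1, e2]
    unfold alphaN
    rw [val_utGL]
    have hc' : (γ 1 0 : ℝ) = (N : ℝ) * c := by exact_mod_cast hc
    ext i j
    fin_cases i <;> fin_cases j <;>
      simp [Matrix.mul_apply, Fin.sum_univ_two, δ, hc', mul_comm]
  rw [DN_slash_of_decomp N h]
  rfl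

/-- the primitive element `t_N = Δ^N / Δ(N·)`. -/
def tN : ℍ → ℂ := ((N : ℂ) ^ (11 : ℤ)) • ((Δ : ℍ → ℂ) ^ N / DN N)

/-- its weight. -/
def wN : ℤ := (N : ℤ) * 12 - 12

theorem tN_apply (z : ℍ) : tN N z = Δ z ^ N / Δ (alphaN N • z) := by
  unfold tN
  rw [Pi.smul_apply, Pi.div_apply, Pi.pow_apply, DN_apply, smul_eq_mul]
  have hN : (N : ℂ) ≠ 0 := by exact_mod_cast NeZero.ne N
  have hD := discriminant_ne_zero (alphaN N • z)
  field_simp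

theorem tN_holo : MDiff (tN N) := by
  unfold tN
  have hΔ : MDiff (Δ : ℍ → ℂ) := (CuspForm.discriminant : CuspForm 𝒮ℒ 12).holo'
  exact ((hΔ.pow N).div (DN_holo N) (DN_ne_zero N)).const_smul _

theorem tN_slash (γ : SL(2, ℤ)) :
    (tN N) ∣[wN N] γ = ((N : ℂ) ^ (11 : ℤ)) • ((Δ : ℍ → ℂ) ^ N / ((DN N) ∣[(12 : ℤ)] γ)) := by
  unfold tN wN
  rw [SL_smul_slash, div_slash_SL2, pow_slash_SL2, discriminant_slash_SL]

theorem tN_slash_Gamma0 {γ : SL(2, ℤ)} (hγ : γ ∈ CongruenceSubgroup.Gamma0 N) :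
    (tN N) ∣[wN N] γ = tN N := by
  rw [tN_slash, DN_slash_Gamma0 N hγ]
  rfl

end

end Fermat.Agent.RatStr
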