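import Mathlib
import Fermat.Prelude.Def_ModularForm_HeckeOperator
import Fermat.Agent.RatStr.PrimitiveElement

/-!
# The cusp form `Δ_N(z) = Δ(Nz)` of level `Γ₀(N)` and its `SL(2, ℤ)`-conjugates

`discN N : CuspForm Γ₀(N) 12` is the primitive element used in the descent argument for
`S_k(Γ₀(N))`: its `SL(2, ℤ)`-conjugates `Δ_N ∣[12] γ⁻¹` (indexed by `SL(2, ℤ) / Γ₀(N)`) are
pairwise distinct.
-/

set_option autoImplicit false

namespace Fermat.Agent.RatStr

open Complex UpperHalfPlane ModularForm CongruenceSubgroup Filter Topology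
open scoped MatrixGroups Manifold

local notation "Δ" => ModularForm.discriminant

/-- The function `z ↦ Δ(Nz)`. -/
noncomputable def discNFun (N : ℕ) (z : ℍ) : ℂ := Δ (ModularForm.heckeDiagMatrix N • z)

theorem discNFun_eq_unitU_mul (N : ℕ) (z : ℍ) : discNFun N z = unitU N z * Δ z := by
  rw [discNFun, unitU, div_mul_cancel₀ _ (discriminant_ne_zero z)]

theorem discNFun_ne_zero (N : ℕ) (z : ℍ) : discNFun N z ≠ 0 := discriminant_ne_zero _

/-- The slash action of `SL(2, ℤ)` on `Δ_N` in terms of the Hermite normal form. -/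
theorem discNFun_slash_SL {N : ℕ} (hN : N ≠ 0) (γ g' : SL(2, ℤ)) {a b d : ℝ} (ha : 0 < a)
    (hd : 0 < d) (had : a * d ≠ 0)
    (h : ModularForm.heckeDiagMatrix N * (Matrix.SpecialLinearGroup.mapGL ℝ γ : GL (Fin 2) ℝ) =
      (Matrix.SpecialLinearGroup.mapGL ℝ g' : GL (Fin 2) ℝ) *
        ModularForm.upperTriangularGL a b d had) (z : ℍ) :
    (discNFun N ∣[(12 : ℤ)] γ) z =
      ((d : ℂ) ^ 12)⁻¹ * Δ (ModularForm.upperTriangularGL a b d had • z) := by
  rw [ModularForm.SL_slash_apply, discNFun_eq_unitU_mul, unitU_SL_smul hN γ g' ha hd had h,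
    discriminant_SL_smul]
  have hne : denom γ z ≠ 0 := denom_ne_zero γ z
  have hΔ := discriminant_ne_zero z
  have hd' : (d : ℂ) ≠ 0 := by exact_mod_cast hd.ne'
  rw [zpow_neg]
  field_simp

theorem discNFun_slash_of_mem_Gamma0 {N : ℕ} (hN : N ≠ 0) {γ : SL(2, ℤ)} (hγ : γ ∈ Gamma0 N) :
    discNFun N ∣[(12 : ℤ)] γ = discNFun N := by
  ext z
  rw [ModularForm.SL_slash_apply, discNFun_eq_unitU_mul, unitU_smul_of_mem_Gamma0 hN hγ,
    discriminant_SL_smul, discNFun_eq_unitU_mul]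
  have hne : denom γ z ≠ 0 := denom_ne_zero γ z
  rw [zpow_neg]
  field_simp

theorem mdifferentiable_discNFun (N : ℕ) : MDiff (discNFun N) := by
  have h1 : MDiff (fun z : ℍ => ModularForm.heckeDiagMatrix N • z) :=
    UpperHalfPlane.mdifferentiable_smul (ModularForm.det_heckeDiagMatrix_pos N)
  exact (CuspForm.discriminant.holo').comp h1

theorem isZeroAtImInfty_discNFun_slash {N : ℕ} (hN : N ≠ 0) (γ : SL(2, ℤ)) :
    IsZeroAtImInfty (discNFun N ∣[(12 : ℤ)] γ) := by
  obtain ⟨g', a, b, d, had, ha, hd, -, hH⟩ := S22.exists_hermite_heckeDiagMatrix hN γ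
  have haR : (0 : ℝ) < a := by exact_mod_cast ha
  have hdR : (0 : ℝ) < d := by exact_mod_cast hd
  have hfun : discNFun N ∣[(12 : ℤ)] γ = fun z =>
      ((((d : ℝ) : ℂ)) ^ 12)⁻¹ * Δ (ModularForm.upperTriangularGL a b d had • z) := by
    ext z
    exact discNFun_slash_SL hN γ g' haR hdR had hH z
  rw [hfun]
  have htend : Tendsto (fun z : ℍ => ModularForm.upperTriangularGL a b d had • z)
      atImInfty atImInfty := by
    apply UpperHalfPlane.tendsto_smul_atImInfty
    simp [ModularForm.val_upperTriangularGL]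
  have h0 : Tendsto (fun z : ℍ => Δ (ModularForm.upperTriangularGL a b d had • z))
      atImInfty (𝓝 0) := discriminant_isZeroAtImInfty.comp htend
  have := h0.const_mul ((((d : ℝ) : ℂ)) ^ 12)⁻¹
  rw [mul_zero] at this
  exact this

/-- `Δ_N(z) = Δ(Nz)` as a cusp form of weight 12 and level `Γ₀(N)`. -/
noncomputable def discN (N : ℕ) [NeZero N] : CuspForm (Gamma0 N) 12 where
  toFun := discNFun N
  slash_action_eq' := by
    rintro γ ⟨g, hg, rfl⟩
    exact discNFun_slash_of_mem_Gamma0 (NeZero.ne N) hg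
  holo' := mdifferentiable_discNFun N
  zero_at_cusps' := by
    intro c hc
    have hc' : IsCusp c 𝒮ℒ := hc.mono (Subgroup.map_le_range _ _)
    rw [OnePoint.isZeroAt_iff_forall_SL2Z hc']
    intro γ _
    exact isZeroAtImInfty_discNFun_slash (NeZero.ne N) γ

@[simp] theorem coe_discN (N : ℕ) [NeZero N] : ⇑(discN N) = discNFun N := rfl

theorem discN_apply (N : ℕ) [NeZero N] (z : ℍ) :
    discN N z = Δ (ModularForm.heckeDiagMatrix N • z) := rfl


/-- The stabiliser of `Δ_N` under the weight 12 slash action of `SL(2, ℤ)` is `Γ₀(N)`. -/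
theorem mem_Gamma0_of_discNFun_slash_eq {N : ℕ} (hN : N ≠ 0) (γ : SL(2, ℤ))
    (h : discNFun N ∣[(12 : ℤ)] γ = discNFun N) : γ ∈ Gamma0 N := by
  apply mem_Gamma0_of_unitU_smul_eq hN
  intro z
  have h1 := congrFun h z
  rw [ModularForm.SL_slash_apply, discNFun_eq_unitU_mul, discriminant_SL_smul,
    discNFun_eq_unitU_mul] at h1
  have hne : denom γ z ≠ 0 := denom_ne_zero γ z
  have hΔ := discriminant_ne_zero z
  rw [zpow_neg] at h1
  field_simp at h1
  exact h1

theorem discNFun_slash_eq_iff {N : ℕ} (hN : N ≠ 0) (γ : SL(2, ℤ)) :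
    discNFun N ∣[(12 : ℤ)] γ = discNFun N ↔ γ ∈ Gamma0 N :=
  ⟨mem_Gamma0_of_discNFun_slash_eq hN γ, discNFun_slash_of_mem_Gamma0 hN⟩

/-- Two `SL(2, ℤ)`-translates of `Δ_N` coincide only if the cosets modulo `Γ₀(N)` coincide. -/
theorem mem_Gamma0_of_discNFun_slash_eq_slash {N : ℕ} (hN : N ≠ 0) (γ₁ γ₂ : SL(2, ℤ))
    (h : discNFun N ∣[(12 : ℤ)] γ₁ = discNFun N ∣[(12 : ℤ)] γ₂) : γ₁ * γ₂⁻¹ ∈ Gamma0 N := by
  apply mem_Gamma0_of_discNFun_slash_eq hN
  rw [SlashAction.slash_mul, h, ← SlashAction.slash_mul, mul_inv_cancel, SlashAction.slash_one]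

/-- **The conjugates of `Δ_N` are pairwise distinct**: the map
`SL(2, ℤ) / Γ₀(N) → (ℍ → ℂ)`, `γ Γ₀(N) ↦ Δ_N ∣[12] γ⁻¹`, is injective. -/
theorem quotientFunc_discN_injective (N : ℕ) [NeZero N] :
    Function.Injective
      (SlashInvariantForm.quotientFunc (𝒢 := (Gamma0 N : Subgroup (GL (Fin 2) ℝ))) (ℋ := 𝒮ℒ)
        (k := 12) (discN N)) := by
  intro q q'
  induction q using QuotientGroup.induction_on with
  | H h =>
  induction q' using QuotientGroup.induction_on with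
  | H h' =>
  intro heq
  obtain ⟨h, g, rfl⟩ := h
  obtain ⟨h', g', rfl⟩ := h'
  rw [QuotientGroup.eq, Subgroup.mem_subgroupOf]
  have heq' : discNFun N ∣[(12 : ℤ)] g⁻¹ = discNFun N ∣[(12 : ℤ)] g'⁻¹ := by
    have := heq
    simp only [SlashInvariantForm.quotientFunc_mk, coe_discN] at this
    rw [ModularForm.SL_slash, ModularForm.SL_slash]
    convert this using 2 <;> simp <;> rfl
  have hmem := mem_Gamma0_of_discNFun_slash_eq_slash (NeZero.ne N) g⁻¹ g'⁻¹ heq'
  rw [inv_inv] at hmem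
  exact ⟨g⁻¹ * g', hmem, by simp⟩

end Fermat.Agent.RatStr
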