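/-
helper5: S23 package (2), algebraic part.
Polynomials `∏ i, (X - C (b i))` and Lagrange sums `∑ i, C (a i) * ∏ j ≠ i, (X - C (b j))`
over a commutative ring: permutation invariance, base change, scaling, evaluation at nodes,
coefficients in subrings.
-/
import Mathlib

set_option autoImplicit false

open Polynomial Finset

namespace Fermat.Agent.RatStr.H5

set_option linter.unusedSectionVars false

variable {R S : Type*} [CommRing R] [CommRing S] {ι : Type*} [Fintype ι] [DecidableEq ι]

/-- The monic polynomial with roots `b i`. -/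
noncomputable def rootPoly (b : ι → R) : R[X] := ∏ i, (X - C (b i))

/-- The Lagrange sum `∑ i, a i * ∏ j ≠ i, (X - b j)`. -/
noncomputable def lagrangePoly (a b : ι → R) : R[X] :=
  ∑ i, C (a i) * ∏ j ∈ univ.erase i, (X - C (b j))

theorem rootPoly_monic (b : ι → R) : (rootPoly b).Monic :=
  monic_prod_of_monic _ _ fun i _ => monic_X_sub_C (b i)

theorem natDegree_rootPoly [Nontrivial R] (b : ι → R) :
    (rootPoly b).natDegree = Fintype.card ι := by
  rw [rootPoly, natDegree_prod_of_monic _ _ fun i _ => monic_X_sub_C (b i)]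
  simp

theorem rootPoly_comp_equiv (b : ι → R) (e : ι ≃ ι) : rootPoly (b ∘ e) = rootPoly b := by
  unfold rootPoly
  exact Equiv.prod_comp e fun i => (X - C (b i))

theorem lagrangePoly_comp_equiv (a b : ι → R) (e : ι ≃ ι) :
    lagrangePoly (a ∘ e) (b ∘ e) = lagrangePoly a b := by
  unfold lagrangePoly
  rw [← Equiv.sum_comp e (fun i => C (a i) * ∏ j ∈ univ.erase i, (X - C (b j)))]
  refine Finset.sum_congr rfl fun i _ => ?_
  congr 1
  simp only [Function.comp_apply]
  refine Finset.prod_bij (fun j _ => e j) ?_ ?_ ?_ ?_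
  · intro j hj
    rw [Finset.mem_erase] at hj ⊢
    exact ⟨fun h => hj.1 (e.injective h), Finset.mem_univ _⟩
  · intro j₁ _ j₂ _ h
    exact e.injective h
  · intro j hj
    rw [Finset.mem_erase] at hj
    refine ⟨e.symm j, ?_, by simp⟩
    rw [Finset.mem_erase]
    refine ⟨fun h => hj.1 ?_, Finset.mem_univ _⟩
    rw [← h]; simp
  · intro j _
    rfl

theorem map_rootPoly (φ : R →+* S) (b : ι → R) :
    (rootPoly b).map φ = rootPoly (φ ∘ b) := by
  simp [rootPoly, Polynomial.map_prod]

theorem map_lagrangePoly (φ : R →+* S) (a b : ι → R) :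
    (lagrangePoly a b).map φ = lagrangePoly (φ ∘ a) (φ ∘ b) := by
  simp [lagrangePoly, Polynomial.map_sum, Polynomial.map_prod]

theorem lagrangePoly_mul_left (c : R) (a b : ι → R) :
    lagrangePoly (fun i => c * a i) b = C c * lagrangePoly a b := by
  unfold lagrangePoly
  rw [Finset.mul_sum]
  refine Finset.sum_congr rfl fun i _ => ?_
  rw [C_mul, mul_assoc]

/-- Scaling all roots by a unit `u` multiplies the `m`-th coefficient by `u ^ (card - m)`. -/
theorem coeff_rootPoly_mul_left {u : R} (hu : IsUnit u) (b : ι → R) {m : ℕ}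
    (hm : m ≤ Fintype.card ι) :
    (rootPoly fun i => u * b i).coeff m = u ^ (Fintype.card ι - m) * (rootPoly b).coeff m := by
  have h1 : (rootPoly fun i => u * b i).comp (C u * X) = C (u ^ Fintype.card ι) * rootPoly b := by
    unfold rootPoly
    rw [Polynomial.prod_comp]
    have : ∀ i : ι, (X - C (u * b i)).comp (C u * X) = C u * (X - C (b i)) := by
      intro i
      rw [sub_comp, X_comp, C_comp, C_mul]
      ring
    simp_rw [this]
    rw [Finset.prod_mul_distrib, Finset.prod_const, Finset.card_univ, C_pow]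
  have h2 := congrArg (fun p => p.coeff m) h1
  simp only [comp_C_mul_X_coeff, coeff_C_mul] at h2
  have hum : IsUnit (u ^ m) := hu.pow m
  apply hum.mul_right_cancel
  rw [h2]
  have : u ^ Fintype.card ι = u ^ (Fintype.card ι - m) * u ^ m := by
    rw [← pow_add]; congr 1; omega
  rw [this]; ring

theorem eval_rootPoly_self (b : ι → R) (i : ι) : (rootPoly b).eval (b i) = 0 := by
  unfold rootPoly
  rw [eval_prod]
  exact Finset.prod_eq_zero (Finset.mem_univ i) (by simp)

theorem derivative_rootPoly (b : ι → R) :
    derivative (rootPoly b) = ∑ i, ∏ j ∈ univ.erase i, (X - C (b j)) := by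
  unfold rootPoly
  rw [derivative_prod_finset]
  refine Finset.sum_congr rfl fun i _ => ?_
  simp

theorem derivative_rootPoly_eq_lagrangePoly (b : ι → R) :
    derivative (rootPoly b) = lagrangePoly (fun _ => 1) b := by
  rw [derivative_rootPoly, lagrangePoly]
  simp

theorem eval_lagrangePoly_self (a b : ι → R) (i : ι) :
    (lagrangePoly a b).eval (b i) = a i * ∏ j ∈ univ.erase i, (b i - b j) := by
  unfold lagrangePoly
  rw [eval_finsetSum, Finset.sum_eq_single i]
  · simp [eval_prod]
  · intro j _ hji
    rw [eval_mul, eval_prod]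
    have : ∏ l ∈ univ.erase j, eval (b i) (X - C (b l)) = 0 :=
      Finset.prod_eq_zero (Finset.mem_erase.mpr ⟨fun h => hji h.symm, Finset.mem_univ i⟩)
        (by simp)
    rw [this, mul_zero]
  · intro h; exact absurd (Finset.mem_univ i) h

theorem eval_derivative_rootPoly_self (b : ι → R) (i : ι) :
    (derivative (rootPoly b)).eval (b i) = ∏ j ∈ univ.erase i, (b i - b j) := by
  rw [derivative_rootPoly_eq_lagrangePoly, eval_lagrangePoly_self, one_mul]

/-- The Lagrange interpolation identity at a node. -/
theorem eval_lagrangePoly_eq (a b : ι → R) (i : ι) :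
    (lagrangePoly a b).eval (b i) = a i * (derivative (rootPoly b)).eval (b i) := by
  rw [eval_lagrangePoly_self, eval_derivative_rootPoly_self]

/-- Coefficients lie in any subring containing the roots. -/
theorem coeff_rootPoly_mem (T : Subring R) (b : ι → R) (hb : ∀ i, b i ∈ T) (m : ℕ) :
    (rootPoly b).coeff m ∈ T := by
  have : rootPoly b = (rootPoly (fun i => (⟨b i, hb i⟩ : T))).map T.subtype := by
    rw [map_rootPoly]; rfl
  rw [this, coeff_map]
  exact Subtype.coe_prop _

theorem coeff_lagrangePoly_mem (T : Subring R) (a b : ι → R) (ha : ∀ i, a i ∈ T)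
    (hb : ∀ i, b i ∈ T) (m : ℕ) : (lagrangePoly a b).coeff m ∈ T := by
  have : lagrangePoly a b = (lagrangePoly (fun i => (⟨a i, ha i⟩ : T))
      (fun i => (⟨b i, hb i⟩ : T))).map T.subtype := by
    rw [map_lagrangePoly]; rfl
  rw [this, coeff_map]
  exact Subtype.coe_prop _

theorem coeff_derivative_rootPoly_mem (T : Subring R) (b : ι → R) (hb : ∀ i, b i ∈ T) (m : ℕ) :
    (derivative (rootPoly b)).coeff m ∈ T := by
  rw [derivative_rootPoly_eq_lagrangePoly]
  exact coeff_lagrangePoly_mem T _ b (fun _ => T.one_mem) hb m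

theorem natDegree_lagrangePoly_lt [Nontrivial R] [Nonempty ι] (a b : ι → R) :
    (lagrangePoly a b).natDegree < Fintype.card ι := by
  unfold lagrangePoly
  have hcard : 0 < Fintype.card ι := Fintype.card_pos
  refine lt_of_le_of_lt (natDegree_sum_le_of_forall_le _ _ (n := Fintype.card ι - 1) ?_)
    (by omega)
  intro i _
  refine (natDegree_C_mul_le _ _).trans ?_
  rw [natDegree_prod_of_monic _ _ fun j _ => monic_X_sub_C (b j)]
  simp [Finset.card_erase_of_mem]

/-- Explicit formula for the coefficients of `rootPoly` via elementary symmetric sums. -/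
theorem coeff_rootPoly_eq_sum (b : ι → R) {m : ℕ} (hm : m ≤ Fintype.card ι) :
    (rootPoly b).coeff m = (-1) ^ (Fintype.card ι - m) *
      ∑ t ∈ powersetCard (Fintype.card ι - m) (univ : Finset ι), ∏ i ∈ t, b i := by
  have h1 : rootPoly b = ((univ.val.map b).map fun r => X - C r).prod := by
    rw [rootPoly, Multiset.map_map]
    rfl
  have hcard : Multiset.card (univ.val.map b) = Fintype.card ι := by simp
  rw [h1, Multiset.prod_X_sub_C_coeff _ (by rw [hcard]; exact hm), hcard, Finset.esymm_map_val]

end Fermat.Agent.RatStr.H5
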