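/-
helper5: S23 package (2): symmetric functions / Lagrange sums of the `SL(2, ℤ)`-conjugates of
slash-invariant forms have level one.
-/
import Mathlib
import Fermat.Agent.RatStr.H5_SymmPoly

set_option autoImplicit false
set_option linter.unusedSectionVars false

open UpperHalfPlane ModularForm SlashInvariantForm MatrixGroups Polynomial OnePoint
open scoped Manifold

namespace Fermat.Agent.RatStr.H5

noncomputable section

/-- Precomposition with the Möbius action of `γ`, as a ring endomorphism of `ℍ → ℂ`. -/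
def compHom (γ : SL(2, ℤ)) : (ℍ → ℂ) →+* (ℍ → ℂ) :=
  RingHom.pi fun τ => Pi.evalRingHom (fun _ : ℍ => ℂ) (γ • τ)

@[simp] theorem compHom_apply (γ : SL(2, ℤ)) (f : ℍ → ℂ) (τ : ℍ) :
    compHom γ f τ = f (γ • τ) := rfl

/-- The automorphy factor `τ ↦ denom γ τ ^ k`, a unit of the ring of functions. -/
def autFactor (γ : SL(2, ℤ)) (k : ℤ) : ℍ → ℂ := fun τ => denom γ τ ^ k

theorem isUnit_autFactor (γ : SL(2, ℤ)) (k : ℤ) : IsUnit (autFactor γ k) := by
  refine IsUnit.of_mul_eq_one (autFactor γ (-k)) ?_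
  ext τ
  simp only [autFactor, Pi.mul_apply, Pi.one_apply]
  rw [← zpow_add₀ (denom_ne_zero γ τ)]
  simp

theorem compHom_eq_slash_mul (γ : SL(2, ℤ)) (k : ℤ) (f : ℍ → ℂ) :
    compHom γ f = autFactor γ k * (f ∣[k] γ) := by
  ext τ
  simp only [compHom_apply, Pi.mul_apply, autFactor, SL_slash_apply]
  rw [mul_comm, mul_assoc, ← zpow_add₀ (denom_ne_zero γ τ)]
  simp

theorem slash_eq_of_compHom_eq (γ : SL(2, ℤ)) (k : ℤ) (f : ℍ → ℂ)
    (h : compHom γ f = autFactor γ k * f) : f ∣[k] γ = f := by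
  rw [compHom_eq_slash_mul γ k f] at h
  exact (isUnit_autFactor γ k).mul_left_cancel h

theorem autFactor_pow (γ : SL(2, ℤ)) (k : ℤ) (n : ℕ) :
    autFactor γ k ^ n = autFactor γ (k * n) := by
  ext τ
  simp only [autFactor, Pi.pow_apply]
  rw [zpow_mul, zpow_natCast]

theorem autFactor_zero (γ : SL(2, ℤ)) : autFactor γ 0 = 1 := by
  ext τ; simp [autFactor]

/-- `Fintype` structure on the coset space; only a local instance in this file: the public
statements use `Nat.card`. -/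
@[reducible] def fintypeQuot (𝒢 : Subgroup (GL (Fin 2) ℝ)) [𝒢.IsFiniteRelIndex 𝒮ℒ] :
    Fintype (𝒮ℒ ⧸ 𝒢.subgroupOf 𝒮ℒ) := Fintype.ofFinite _

/-- Classical decidable equality on the coset space (local instance in this file). -/
@[reducible] def decEqQuot (𝒢 : Subgroup (GL (Fin 2) ℝ)) :
    DecidableEq (𝒮ℒ ⧸ 𝒢.subgroupOf 𝒮ℒ) := Classical.decEq _

attribute [local instance] fintypeQuot decEqQuot

section SIF

variable {𝒢 : Subgroup (GL (Fin 2) ℝ)} [𝒢.IsFiniteRelIndex 𝒮ℒ]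
variable {F : Type*} [FunLike F ℍ ℂ] {k : ℤ} [SlashInvariantFormClass F 𝒢 k]
variable {U : Type*} [FunLike U ℍ ℂ] {l : ℤ} [SlashInvariantFormClass U 𝒢 l]

local notation "𝒬" => 𝒮ℒ ⧸ 𝒢.subgroupOf 𝒮ℒ

/-- The trivial coset. -/
def oneQ : 𝒬 := QuotientGroup.mk (1 : 𝒮ℒ)

/-- The family of `SL(2, ℤ)`-conjugates of `f`, indexed by the cosets. -/
def conj (f : F) : 𝒬 → (ℍ → ℂ) := fun q => quotientFunc f q

theorem conj_one (f : F) : conj f (oneQ (𝒢 := 𝒢)) = ⇑f := by
  show quotientFunc f ⟦(1 : 𝒮ℒ)⟧ = ⇑f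
  rw [quotientFunc_mk]
  simp

/-- The permutation of the cosets induced by `γ`. -/
def cosetPerm (γ : SL(2, ℤ)) : 𝒬 ≃ 𝒬 :=
  MulAction.toPerm ((⟨(γ : GL (Fin 2) ℝ), MonoidHom.mem_range.mpr ⟨γ, rfl⟩⟩ : 𝒮ℒ)⁻¹)

theorem conj_slash (f : F) (γ : SL(2, ℤ)) (q : 𝒬) :
    conj f q ∣[k] γ = conj f (cosetPerm (𝒢 := 𝒢) γ q) :=
  quotientFunc_smul f (h := (γ : GL (Fin 2) ℝ)) (MonoidHom.mem_range.mpr ⟨γ, rfl⟩) q

theorem compHom_conj (f : F) (γ : SL(2, ℤ)) (q : 𝒬) :
    compHom γ (conj f q) = autFactor γ k * conj f (cosetPerm (𝒢 := 𝒢) γ q) := by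
  rw [compHom_eq_slash_mul γ k, conj_slash]

/-- Characteristic polynomial of `f` over level one: `∏ q, (X - f_q)`. -/
def charPoly (f : F) : (ℍ → ℂ)[X] := rootPoly (conj f)

/-- Lagrange sum `∑ q, f_q ∏ q' ≠ q, (X - u_q')`. -/
def lagrPoly (f : F) (u : U) : (ℍ → ℂ)[X] := lagrangePoly (conj f) (conj u)

theorem card_quot : Fintype.card 𝒬 = Nat.card 𝒬 := by
  rw [Nat.card_eq_fintype_card]

/-- The coefficients of the characteristic polynomial are slash invariant under `SL(2, ℤ)`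
of weight `k * (ψ - m)`. -/
theorem coeff_charPoly_slash (f : F) (γ : SL(2, ℤ)) {m : ℕ} (hm : m ≤ Nat.card 𝒬) :
    (charPoly f).coeff m ∣[k * ((Nat.card 𝒬 - m : ℕ) : ℤ)] γ = (charPoly f).coeff m := by
  rw [← card_quot (𝒢 := 𝒢)] at hm ⊢
  apply slash_eq_of_compHom_eq
  have h1 : compHom γ ((charPoly f).coeff m) = ((charPoly f).map (compHom γ)).coeff m := by
    rw [coeff_map]
  rw [h1, charPoly, map_rootPoly]
  have h2 : (compHom γ ∘ conj f) = fun q => autFactor γ k * (conj f ∘ cosetPerm (𝒢 := 𝒢) γ) q := by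
    ext q : 1
    exact compHom_conj f γ q
  rw [h2, coeff_rootPoly_mul_left (isUnit_autFactor γ k) _ hm, rootPoly_comp_equiv,
    autFactor_pow]

/-- The coefficients of the Lagrange polynomial are slash invariant of weight `k`, when `u` has
weight `0`. -/
theorem coeff_lagrPoly_slash [SlashInvariantFormClass U 𝒢 0] (f : F) (u : U) (γ : SL(2, ℤ))
    (m : ℕ) : (lagrPoly f u).coeff m ∣[k] γ = (lagrPoly f u).coeff m := by
  apply slash_eq_of_compHom_eq
  have h1 : compHom γ ((lagrPoly f u).coeff m) = ((lagrPoly f u).map (compHom γ)).coeff m := by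
    rw [coeff_map]
  rw [h1, lagrPoly, map_lagrangePoly]
  have h2 : (compHom γ ∘ conj f) = fun q => autFactor γ k * (conj f ∘ cosetPerm (𝒢 := 𝒢) γ) q := by
    ext q : 1
    exact compHom_conj f γ q
  have h3 : (compHom γ ∘ conj u) = (conj u ∘ cosetPerm (𝒢 := 𝒢) γ) := by
    ext q : 1
    have := compHom_conj (k := 0) u γ q
    rw [autFactor_zero, one_mul] at this
    exact this
  rw [h2, h3, lagrangePoly_mul_left, lagrangePoly_comp_equiv, coeff_C_mul]

/-- The coefficients of `∏ q, (X - u_q)` are invariant (weight `0`) when `u` has weight `0`. -/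
theorem coeff_charPoly_slash_zero [SlashInvariantFormClass U 𝒢 0] (u : U) (γ : SL(2, ℤ))
    (m : ℕ) : (charPoly u).coeff m ∣[(0 : ℤ)] γ = (charPoly u).coeff m := by
  apply slash_eq_of_compHom_eq
  have h1 : compHom γ ((charPoly u).coeff m) = ((charPoly u).map (compHom γ)).coeff m := by
    rw [coeff_map]
  rw [h1, charPoly, map_rootPoly]
  have h3 : (compHom γ ∘ conj u) = (conj u ∘ cosetPerm (𝒢 := 𝒢) γ) := by
    ext q : 1
    have := compHom_conj (k := 0) u γ q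
    rw [autFactor_zero, one_mul] at this
    exact this
  rw [h3, rootPoly_comp_equiv, autFactor_zero, one_mul]

/-- `f` is a root of its characteristic polynomial. -/
theorem eval_charPoly_self (f : F) : (charPoly f).eval (⇑f) = 0 := by
  have := eval_rootPoly_self (conj f) (oneQ (𝒢 := 𝒢))
  rwa [conj_one] at this

theorem eval_charPoly_conj (f : F) (q : 𝒬) : (charPoly f).eval (conj f q) = 0 :=
  eval_rootPoly_self (conj f) q

/-- Lagrange interpolation identity: `L_{f,u}(u) = f * P_u'(u)`. -/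
theorem eval_lagrPoly_self (f : F) (u : U) :
    (lagrPoly f u).eval (⇑u) = ⇑f * (derivative (charPoly u)).eval (⇑u) := by
  have := eval_lagrangePoly_eq (conj f) (conj u) (oneQ (𝒢 := 𝒢))
  rwa [conj_one, conj_one] at this

theorem eval_derivative_charPoly_self (u : U) :
    (derivative (charPoly u)).eval (⇑u) =
      ∏ q ∈ (Finset.univ : Finset 𝒬).erase (oneQ (𝒢 := 𝒢)), (⇑u - conj u q) := by
  have := eval_derivative_rootPoly_self (conj u) (oneQ (𝒢 := 𝒢))
  rwa [conj_one] at this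

/-- Every conjugate is a slash translate by an element of `SL(2, ℤ)`. -/
theorem exists_conj_eq_slash (f : F) (q : 𝒬) :
    ∃ γ : SL(2, ℤ), conj f q = ⇑f ∣[k] γ := by
  induction q using Quotient.inductionOn with
  | h r =>
    obtain ⟨γ, hγ⟩ := MonoidHom.mem_range.mp r.2
    refine ⟨γ⁻¹, ?_⟩
    show quotientFunc f ⟦r⟧ = _
    rw [quotientFunc_mk, ← hγ, SL_slash, map_inv]
    rfl

end SIF

section MF

variable {𝒢 : Subgroup (GL (Fin 2) ℝ)} [𝒢.IsFiniteRelIndex 𝒮ℒ]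
variable {F : Type*} [FunLike F ℍ ℂ] {k : ℤ}

local notation "𝒬" => 𝒮ℒ ⧸ 𝒢.subgroupOf 𝒮ℒ

/-- The subring of holomorphic functions on `ℍ`. -/
def holSubring : Subring (ℍ → ℂ) where
  carrier := {f | MDifferentiable 𝓘(ℂ) 𝓘(ℂ) f}
  mul_mem' hf hg := hf.mul hg
  one_mem' := mdifferentiable_const
  add_mem' hf hg := hf.add hg
  zero_mem' := mdifferentiable_const
  neg_mem' hf := hf.neg

theorem mem_holSubring {f : ℍ → ℂ} : f ∈ holSubring ↔ MDifferentiable 𝓘(ℂ) 𝓘(ℂ) f := Iff.rfl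

theorem mdifferentiable_conj [ModularFormClass F 𝒢 k] (f : F) (q : 𝒬) :
    MDifferentiable 𝓘(ℂ) 𝓘(ℂ) (conj f q) := by
  obtain ⟨γ, hγ⟩ := exists_conj_eq_slash f q
  rw [hγ, SL_slash, ← ModularForm.coe_translate]
  exact (ModularForm.translate f _).holo'

theorem isBoundedAtImInfty_conj [𝒢.IsArithmetic] [ModularFormClass F 𝒢 k] (f : F) (q : 𝒬) :
    IsBoundedAtImInfty (conj f q) := by
  obtain ⟨γ, hγ⟩ := exists_conj_eq_slash f q
  rw [hγ]
  exact ModularFormClass.bdd_at_infty_slash f γ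

theorem isZeroAtImInfty_conj [𝒢.IsArithmetic] [CuspFormClass F 𝒢 k] (f : F) (q : 𝒬) :
    IsZeroAtImInfty (conj f q) := by
  obtain ⟨γ, hγ⟩ := exists_conj_eq_slash f q
  rw [hγ]
  exact CuspFormClass.zero_at_infty_slash f γ


/-- A level one slash-invariant form from invariance under all of `SL(2, ℤ)`. -/
def levelOneSIF (g : ℍ → ℂ) (k : ℤ) (hinv : ∀ γ : SL(2, ℤ), g ∣[k] γ = g) :
    SlashInvariantForm 𝒮ℒ k where
  toFun := g
  slash_action_eq' γ hγ := by
    obtain ⟨γ', rfl⟩ := MonoidHom.mem_range.mp hγ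
    exact hinv γ'

/-- A level one modular form from invariance, holomorphy and boundedness at `i∞`. -/
def levelOneMF (g : ℍ → ℂ) (k : ℤ) (hinv : ∀ γ : SL(2, ℤ), g ∣[k] γ = g)
    (hhol : MDifferentiable 𝓘(ℂ) 𝓘(ℂ) g) (hbdd : IsBoundedAtImInfty g) : ModularForm 𝒮ℒ k where
  toSlashInvariantForm := levelOneSIF g k hinv
  holo' := hhol
  bdd_at_cusps' {c} hc := by
    rw [isBoundedAt_iff_exists_SL2Z hc]
    obtain ⟨γ, rfl⟩ := isCusp_SL2Z_iff'.mp hc
    refine ⟨γ, rfl, ?_⟩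
    show IsBoundedAtImInfty (g ∣[k] γ)
    rw [hinv γ]
    exact hbdd

/-- A level one cusp form from invariance, holomorphy and vanishing at `i∞`. -/
def levelOneCF (g : ℍ → ℂ) (k : ℤ) (hinv : ∀ γ : SL(2, ℤ), g ∣[k] γ = g)
    (hhol : MDifferentiable 𝓘(ℂ) 𝓘(ℂ) g) (hzero : IsZeroAtImInfty g) : CuspForm 𝒮ℒ k where
  toSlashInvariantForm := levelOneSIF g k hinv
  holo' := hhol
  zero_at_cusps' {c} hc := by
    rw [isZeroAt_iff_exists_SL2Z hc]
    obtain ⟨γ, rfl⟩ := isCusp_SL2Z_iff'.mp hc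
    refine ⟨γ, rfl, ?_⟩
    show IsZeroAtImInfty (g ∣[k] γ)
    rw [hinv γ]
    exact hzero

@[simp] theorem coe_levelOneMF (g : ℍ → ℂ) (k : ℤ) (hinv) (hhol) (hbdd) :
    ⇑(levelOneMF g k hinv hhol hbdd) = g := rfl

@[simp] theorem coe_levelOneCF (g : ℍ → ℂ) (k : ℤ) (hinv) (hhol) (hzero) :
    ⇑(levelOneCF g k hinv hhol hzero) = g := rfl


/-! ### Analytic properties of the coefficients -/

theorem mdifferentiable_coeff_charPoly [ModularFormClass F 𝒢 k] (f : F) (m : ℕ) :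
    MDifferentiable 𝓘(ℂ) 𝓘(ℂ) ((charPoly f).coeff m) :=
  coeff_rootPoly_mem holSubring (conj f) (fun q => mdifferentiable_conj f q) m

theorem isBoundedAtImInfty_coeff_charPoly [𝒢.IsArithmetic] [ModularFormClass F 𝒢 k] (f : F)
    (m : ℕ) : IsBoundedAtImInfty ((charPoly f).coeff m) :=
  coeff_rootPoly_mem (boundedAtImInftySubalgebra ℂ).toSubring (conj f)
    (fun q => isBoundedAtImInfty_conj f q) m

theorem isZeroAtImInfty_coeff_charPoly [𝒢.IsArithmetic] [CuspFormClass F 𝒢 k] (f : F)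
    {m : ℕ} (hm : m < Nat.card 𝒬) : IsZeroAtImInfty ((charPoly f).coeff m) := by
  rw [← card_quot (𝒢 := 𝒢)] at hm
  rw [charPoly, coeff_rootPoly_eq_sum _ hm.le]
  rw [IsZeroAtImInfty, Filter.ZeroAtFilter]
  have h1 : ∀ t ∈ Finset.powersetCard (Fintype.card 𝒬 - m) (Finset.univ : Finset 𝒬),
      Filter.Tendsto (fun τ => ∏ i ∈ t, conj f i τ) atImInfty (nhds 0) := by
    intro t ht
    have hcard : t.card = Fintype.card 𝒬 - m := (Finset.mem_powersetCard.mp ht).2
    have hne : t.Nonempty := by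
      rw [← Finset.card_pos, hcard]; omega
    have := tendsto_finsetProd t (fun i _ => (isZeroAtImInfty_conj f i : Filter.Tendsto _ _ _))
    rw [Finset.prod_const, zero_pow (by rw [hcard]; omega)] at this
    exact this
  have h2 := tendsto_finsetSum _ h1
  rw [Finset.sum_const_zero] at h2
  have h3 := h2.const_mul ((-1 : ℂ) ^ (Fintype.card 𝒬 - m))
  rw [mul_zero] at h3
  refine h3.congr fun τ => ?_
  simp [Finset.prod_apply, Finset.sum_apply]

theorem mdifferentiable_conj_of_mdifferentiable [SlashInvariantFormClass F 𝒢 k] (f : F)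
    (hf : MDifferentiable 𝓘(ℂ) 𝓘(ℂ) ⇑f) (q : 𝒬) : MDifferentiable 𝓘(ℂ) 𝓘(ℂ) (conj f q) := by
  obtain ⟨γ, hγ⟩ := exists_conj_eq_slash f q
  rw [hγ, SL_slash]
  exact hf.slash k _

/-- Subring closure for the Lagrange polynomial. -/
theorem coeff_lagrPoly_mem {U : Type*} [FunLike U ℍ ℂ] {l : ℤ} [SlashInvariantFormClass F 𝒢 k]
    [SlashInvariantFormClass U 𝒢 l] (T : Subring (ℍ → ℂ)) (f : F) (u : U)
    (hf : ∀ q : 𝒬, conj f q ∈ T) (hu : ∀ q : 𝒬, conj u q ∈ T) (m : ℕ) :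
    (lagrPoly f u).coeff m ∈ T :=
  coeff_lagrangePoly_mem T _ _ hf hu m

/-- Subring closure for the characteristic polynomial. -/
theorem coeff_charPoly_mem [SlashInvariantFormClass F 𝒢 k] (T : Subring (ℍ → ℂ)) (f : F)
    (hf : ∀ q : 𝒬, conj f q ∈ T) (m : ℕ) : (charPoly f).coeff m ∈ T :=
  coeff_rootPoly_mem T _ hf m

theorem mdifferentiable_coeff_lagrPoly {U : Type*} [FunLike U ℍ ℂ] {l : ℤ}
    [SlashInvariantFormClass F 𝒢 k] [SlashInvariantFormClass U 𝒢 l] (f : F) (u : U)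
    (hf : MDifferentiable 𝓘(ℂ) 𝓘(ℂ) ⇑f) (hu : MDifferentiable 𝓘(ℂ) 𝓘(ℂ) ⇑u) (m : ℕ) :
    MDifferentiable 𝓘(ℂ) 𝓘(ℂ) ((lagrPoly f u).coeff m) :=
  coeff_lagrPoly_mem holSubring f u (mdifferentiable_conj_of_mdifferentiable f hf)
    (mdifferentiable_conj_of_mdifferentiable u hu) m

theorem mdifferentiable_coeff_charPoly_of_mdifferentiable [SlashInvariantFormClass F 𝒢 k] (f : F)
    (hf : MDifferentiable 𝓘(ℂ) 𝓘(ℂ) ⇑f) (m : ℕ) :
    MDifferentiable 𝓘(ℂ) 𝓘(ℂ) ((charPoly f).coeff m) :=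
  coeff_charPoly_mem holSubring f (mdifferentiable_conj_of_mdifferentiable f hf) m

/-! ### The coefficients of the characteristic polynomial as level one forms -/

/-- The coefficient of `X ^ m` in the characteristic polynomial of a modular form `f`, as a
modular form of level one and weight `k * (ψ - m)`. -/
def charCoeffMF [𝒢.IsArithmetic] [ModularFormClass F 𝒢 k] (f : F) {m : ℕ}
    (hm : m ≤ Nat.card 𝒬) : ModularForm 𝒮ℒ (k * ((Nat.card 𝒬 - m : ℕ) : ℤ)) :=
  levelOneMF ((charPoly f).coeff m) _ (fun γ => coeff_charPoly_slash f γ hm)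
    (mdifferentiable_coeff_charPoly f m) (isBoundedAtImInfty_coeff_charPoly f m)

/-- The coefficient of `X ^ m`, `m < ψ`, in the characteristic polynomial of a cusp form `f`, as a
cusp form of level one and weight `k * (ψ - m)`. -/
def charCoeffCF [𝒢.IsArithmetic] [CuspFormClass F 𝒢 k] (f : F) {m : ℕ}
    (hm : m < Nat.card 𝒬) : CuspForm 𝒮ℒ (k * ((Nat.card 𝒬 - m : ℕ) : ℤ)) :=
  levelOneCF ((charPoly f).coeff m) _ (fun γ => coeff_charPoly_slash f γ hm.le)
    (mdifferentiable_coeff_charPoly f m) (isZeroAtImInfty_coeff_charPoly f hm)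

@[simp] theorem coe_charCoeffMF [𝒢.IsArithmetic] [ModularFormClass F 𝒢 k] (f : F) {m : ℕ}
    (hm : m ≤ Nat.card 𝒬) : ⇑(charCoeffMF f hm) = (charPoly f).coeff m := rfl

@[simp] theorem coe_charCoeffCF [𝒢.IsArithmetic] [CuspFormClass F 𝒢 k] (f : F) {m : ℕ}
    (hm : m < Nat.card 𝒬) : ⇑(charCoeffCF f hm) = (charPoly f).coeff m := rfl

end MF

/-- Slash translates of roots of monic polynomials with level one coefficients (of the right
weights) are again roots. -/
theorem slash_monic_root {n : ℕ} {k : ℤ} (c : ℕ → ℍ → ℂ) (G : ℍ → ℂ) (γ : SL(2, ℤ))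
    (hc : ∀ m < n, (c m) ∣[k * ((n - m : ℕ) : ℤ)] γ = c m)
    (h : ∀ τ : ℍ, G τ ^ n + ∑ m ∈ Finset.range n, c m τ * G τ ^ m = 0) (τ : ℍ) :
    (G ∣[k] γ) τ ^ n + ∑ m ∈ Finset.range n, c m τ * (G ∣[k] γ) τ ^ m = 0 := by
  have hd : denom γ τ ≠ 0 := denom_ne_zero γ τ
  have h1 := h (γ • τ)
  have h2 : (G ∣[k] γ) τ ^ n + ∑ m ∈ Finset.range n, c m τ * (G ∣[k] γ) τ ^ m
      = (G (γ • τ) ^ n + ∑ m ∈ Finset.range n, c m (γ • τ) * G (γ • τ) ^ m)
        * (denom γ τ ^ (-k)) ^ n := by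
    rw [add_mul, Finset.sum_mul, SL_slash_apply, mul_pow]
    congr 1
    refine Finset.sum_congr rfl fun m hm => ?_
    have hm' : m < n := Finset.mem_range.mp hm
    have h3 := congrFun (hc m hm') τ
    rw [SL_slash_apply] at h3
    rw [← h3, mul_pow]
    have h4 : (denom γ τ ^ (-k)) ^ n
        = denom γ τ ^ (-(k * ((n - m : ℕ) : ℤ))) * (denom γ τ ^ (-k)) ^ m := by
      rw [← zpow_natCast, ← zpow_mul, ← zpow_natCast (denom γ τ ^ (-k)) m, ← zpow_mul,
        ← zpow_add₀ hd]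
      congr 1
      have : ((n - m : ℕ) : ℤ) = (n : ℤ) - m := by omega
      rw [this]; ring
    rw [h4]; ring
  rw [h2, h1, zero_mul]


section SIF2

variable {𝒢 : Subgroup (GL (Fin 2) ℝ)} [𝒢.IsFiniteRelIndex 𝒮ℒ]
variable {F : Type*} [FunLike F ℍ ℂ] {k : ℤ} [SlashInvariantFormClass F 𝒢 k]
variable {U : Type*} [FunLike U ℍ ℂ] {l : ℤ} [SlashInvariantFormClass U 𝒢 l]

local notation "𝒬" => 𝒮ℒ ⧸ 𝒢.subgroupOf 𝒮ℒ

theorem eval_fun_apply (p : (ℍ → ℂ)[X]) {n : ℕ} (hn : p.natDegree < n) (g : ℍ → ℂ) (τ : ℍ) :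
    (p.eval g) τ = ∑ m ∈ Finset.range n, p.coeff m τ * g τ ^ m := by
  rw [eval_eq_sum_range' hn]
  simp [Finset.sum_apply]

theorem natDegree_charPoly (f : F) : (charPoly f).natDegree = Nat.card 𝒬 := by
  rw [← card_quot (𝒢 := 𝒢)]
  exact natDegree_rootPoly _

theorem coeff_charPoly_card (f : F) : (charPoly f).coeff (Nat.card 𝒬) = 1 := by
  have := (rootPoly_monic (conj f)).coeff_natDegree
  rwa [natDegree_rootPoly, card_quot] at this

/-- Pointwise form of "every conjugate of `f` is a root of the characteristic polynomial". -/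
theorem charPoly_root_conj_apply (f : F) (q : 𝒬) (τ : ℍ) :
    conj f q τ ^ Nat.card 𝒬 +
      ∑ m ∈ Finset.range (Nat.card 𝒬), (charPoly f).coeff m τ * conj f q τ ^ m = 0 := by
  have h := congrFun (eval_charPoly_conj f q) τ
  rw [eval_fun_apply _ (n := Nat.card 𝒬 + 1) (by rw [natDegree_charPoly]; omega),
    Finset.sum_range_succ, coeff_charPoly_card] at h
  simp only [Pi.one_apply, one_mul, Pi.zero_apply] at h
  rw [add_comm]; exact h

theorem charPoly_root_apply (f : F) (τ : ℍ) :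
    f τ ^ Nat.card 𝒬 +
      ∑ m ∈ Finset.range (Nat.card 𝒬), (charPoly f).coeff m τ * f τ ^ m = 0 := by
  have := charPoly_root_conj_apply f (oneQ (𝒢 := 𝒢)) τ
  rwa [conj_one] at this

/-- Pointwise form of the Lagrange identity `L_{f,u}(u) = f * P_u'(u)`. -/
theorem lagrPoly_apply (f : F) (u : U) (τ : ℍ) :
    ∑ m ∈ Finset.range (Nat.card 𝒬), (lagrPoly f u).coeff m τ * u τ ^ m
      = f τ * ∑ m ∈ Finset.range (Nat.card 𝒬),
          (derivative (charPoly u)).coeff m τ * u τ ^ m := by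
  rw [← card_quot (𝒢 := 𝒢)]
  have h := congrFun (eval_lagrPoly_self f u) τ
  have hne : Nonempty 𝒬 := ⟨oneQ⟩
  have h0 : (lagrPoly f u).natDegree < Fintype.card 𝒬 := natDegree_lagrangePoly_lt _ _
  have h1 : (derivative (charPoly u)).natDegree < Fintype.card 𝒬 := by
    have h1 := natDegree_lagrangePoly_lt (fun _ : 𝒬 => (1 : ℍ → ℂ)) (conj u)
    rw [← derivative_rootPoly_eq_lagrangePoly] at h1
    exact h1
  rw [Pi.mul_apply, eval_fun_apply _ h0, eval_fun_apply _ h1] at h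
  exact h

/-- If the conjugates of `u` other than `u` itself are all different from `u` (and `u` is
holomorphic), then `P_u'(u) ≠ 0` as a function on `ℍ`. -/
theorem eval_derivative_charPoly_ne_zero (u : U) (hu : MDifferentiable 𝓘(ℂ) 𝓘(ℂ) ⇑u)
    (hdist : ∀ q : 𝒬, q ≠ oneQ → conj u q ≠ ⇑u) :
    (derivative (charPoly u)).eval (⇑u) ≠ 0 := by
  rw [eval_derivative_charPoly_self]
  intro h0
  rw [UpperHalfPlane.prod_eq_zero_iff] at h0
  · obtain ⟨q, hq, hq0⟩ := h0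
    exact hdist q (Finset.ne_of_mem_erase hq) (sub_eq_zero.mp hq0).symm
  · intro q _
    exact hu.sub (mdifferentiable_conj_of_mdifferentiable u hu q)

end SIF2


end

end Fermat.Agent.RatStr.H5
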