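/-
helper5: analytic root lemmas for the S23 (rational structure) project.
* roots of monic polynomials are bounded by the coefficients, and tend to zero if the
  coefficients do;
* a quotient `A / B` of holomorphic functions which is integral over holomorphic functions
  is holomorphic.
-/
import Mathlib

set_option autoImplicit false

open Filter Topology

namespace Fermat.Agent.RatStr.H5

/-- Basic root bound: if `z ^ n + ∑_{i<n} c i * z ^ i = 0` then `‖z‖ ≤ max 1 (∑ ‖c i‖)`. -/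
theorem norm_le_of_monic_root {n : ℕ} (c : ℕ → ℂ) (z : ℂ)
    (h : z ^ n + ∑ i ∈ Finset.range n, c i * z ^ i = 0) :
    ‖z‖ ≤ max 1 (∑ i ∈ Finset.range n, ‖c i‖) := by
  by_cases hz : ‖z‖ ≤ 1
  · exact le_max_of_le_left hz
  rw [not_le] at hz
  refine le_max_of_le_right ?_
  have hz0 : 0 < ‖z‖ := lt_trans one_pos hz
  rcases Nat.eq_zero_or_pos n with rfl | hn
  · simp at h
  have h1 : z ^ n = -∑ i ∈ Finset.range n, c i * z ^ i := eq_neg_of_add_eq_zero_left h
  have h2 : ‖z‖ ^ n ≤ (∑ i ∈ Finset.range n, ‖c i‖) * ‖z‖ ^ (n - 1) := by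
    calc ‖z‖ ^ n = ‖z ^ n‖ := (norm_pow z n).symm
      _ = ‖∑ i ∈ Finset.range n, c i * z ^ i‖ := by rw [h1, norm_neg]
      _ ≤ ∑ i ∈ Finset.range n, ‖c i * z ^ i‖ := norm_sum_le _ _
      _ ≤ ∑ i ∈ Finset.range n, ‖c i‖ * ‖z‖ ^ (n - 1) := by
          refine Finset.sum_le_sum fun i hi => ?_
          rw [norm_mul, norm_pow]
          refine mul_le_mul_of_nonneg_left ?_ (norm_nonneg _)
          exact pow_le_pow_right₀ hz.le (by have := Finset.mem_range.mp hi; omega)
      _ = (∑ i ∈ Finset.range n, ‖c i‖) * ‖z‖ ^ (n - 1) := by rw [Finset.sum_mul]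
  have h3 : ‖z‖ ^ n = ‖z‖ * ‖z‖ ^ (n - 1) := by
    rw [← pow_succ']; congr 1; omega
  rw [h3] at h2
  exact le_of_mul_le_mul_right h2 (pow_pos hz0 _)

/-- If the coefficients are small (`∑ ‖c i‖ ≤ 1`) then `‖z‖ ^ n ≤ ∑ ‖c i‖`. -/
theorem norm_pow_le_of_monic_root {n : ℕ} (c : ℕ → ℂ) (z : ℂ)
    (h : z ^ n + ∑ i ∈ Finset.range n, c i * z ^ i = 0)
    (hc : ∑ i ∈ Finset.range n, ‖c i‖ ≤ 1) :
    ‖z‖ ^ n ≤ ∑ i ∈ Finset.range n, ‖c i‖ := by
  have hz : ‖z‖ ≤ 1 := by
    have := norm_le_of_monic_root c z h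
    rwa [max_eq_left hc] at this
  have h1 : z ^ n = -∑ i ∈ Finset.range n, c i * z ^ i := eq_neg_of_add_eq_zero_left h
  calc ‖z‖ ^ n = ‖z ^ n‖ := (norm_pow z n).symm
    _ = ‖∑ i ∈ Finset.range n, c i * z ^ i‖ := by rw [h1, norm_neg]
    _ ≤ ∑ i ∈ Finset.range n, ‖c i * z ^ i‖ := norm_sum_le _ _
    _ ≤ ∑ i ∈ Finset.range n, ‖c i‖ := by
        refine Finset.sum_le_sum fun i _ => ?_
        rw [norm_mul, norm_pow]
        exact mul_le_of_le_one_right (norm_nonneg _) (pow_le_one₀ (norm_nonneg _) hz)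

/-- Roots of monic polynomials whose lower coefficients tend to zero tend to zero. -/
theorem tendsto_zero_of_monic_root {α : Type*} {l : Filter α} {n : ℕ} (hn : 0 < n)
    (c : ℕ → α → ℂ) (z : α → ℂ)
    (h : ∀ᶠ t in l, z t ^ n + ∑ i ∈ Finset.range n, c i t * z t ^ i = 0)
    (hc : ∀ i < n, Tendsto (c i) l (𝓝 0)) :
    Tendsto z l (𝓝 0) := by
  have hS : Tendsto (fun t => ∑ i ∈ Finset.range n, ‖c i t‖) l (𝓝 0) := by
    have : Tendsto (fun t => ∑ i ∈ Finset.range n, ‖c i t‖) l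
        (𝓝 (∑ _i ∈ Finset.range n, (0 : ℝ))) := by
      refine tendsto_finsetSum _ fun i hi => ?_
      have := (hc i (Finset.mem_range.mp hi)).norm
      simpa using this
    simpa using this
  have hS1 : ∀ᶠ t in l, ∑ i ∈ Finset.range n, ‖c i t‖ ≤ 1 :=
    hS.eventually (eventually_le_nhds one_pos)
  have hpow : Tendsto (fun t => ‖z t‖ ^ n) l (𝓝 0) := by
    refine squeeze_zero' (Eventually.of_forall fun t => pow_nonneg (norm_nonneg _) _) ?_ hS
    filter_upwards [h, hS1] with t ht ht1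
    exact norm_pow_le_of_monic_root (fun i => c i t) (z t) ht ht1
  have hnorm : Tendsto (fun t => ‖z t‖) l (𝓝 0) := by
    have h2 := hpow.rpow_const (p := (1 / n : ℝ))
      (Or.inr (by positivity))
    have h3 : (0 : ℝ) ^ (1 / n : ℝ) = 0 := Real.zero_rpow (by positivity)
    rw [h3] at h2
    refine h2.congr fun t => ?_
    rw [← Real.rpow_natCast, ← Real.rpow_mul (norm_nonneg _)]
    have : (n : ℝ) * (1 / n) = 1 := by field_simp
    rw [this, Real.rpow_one]
  exact tendsto_zero_iff_norm_tendsto_zero.mpr hnorm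

/-- Roots of monic polynomials with bounded coefficients are bounded (filter version). -/
theorem isBoundedUnder_of_monic_root {α : Type*} {l : Filter α} {n : ℕ}
    (c : ℕ → α → ℂ) (z : α → ℂ)
    (h : ∀ᶠ t in l, z t ^ n + ∑ i ∈ Finset.range n, c i t * z t ^ i = 0)
    (hc : ∀ i < n, ∃ C, ∀ᶠ t in l, ‖c i t‖ ≤ C) :
    ∃ C, ∀ᶠ t in l, ‖z t‖ ≤ C := by
  choose! C hC using hc
  refine ⟨max 1 (∑ i ∈ Finset.range n, C i), ?_⟩
  have hall : ∀ᶠ t in l, ∀ i ∈ Finset.range n, ‖c i t‖ ≤ C i := by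
    rw [Filter.eventually_all_finset]
    exact fun i hi => hC i (Finset.mem_range.mp hi)
  filter_upwards [h, hall] with t ht hCt
  refine (norm_le_of_monic_root (fun i => c i t) (z t) ht).trans ?_
  exact max_le_max le_rfl (Finset.sum_le_sum hCt)


/-! ### Integral quotients of holomorphic functions are holomorphic -/

/-- If `A / B` is bounded near every point of the open set `U` (in punctured neighbourhoods),
`B` does not vanish identically near any point, then `A / B` extends to a holomorphic function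
on `U`. -/
theorem exists_differentiableOn_mul_eq_of_bounded {U : Set ℂ} (hU : IsOpen U)
    {A B : ℂ → ℂ} (hA : DifferentiableOn ℂ A U) (hB : DifferentiableOn ℂ B U)
    (hBne : ∀ z ∈ U, ∀ᶠ w in 𝓝[≠] z, B w ≠ 0)
    (hbdd : ∀ z ∈ U, ∃ C, ∀ᶠ w in 𝓝[≠] z, ‖A w / B w‖ ≤ C) :
    ∃ G : ℂ → ℂ, DifferentiableOn ℂ G U ∧ ∀ z ∈ U, G z * B z = A z := by
  have hAan : AnalyticOnNhd ℂ A U := hA.analyticOnNhd hU
  have hBan : AnalyticOnNhd ℂ B U := hB.analyticOnNhd hU
  have hmer : MeromorphicOn (fun w => A w / B w) U := fun z hz =>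
    ((hAan z hz).meromorphicAt).div ((hBan z hz).meromorphicAt)
  set g : ℂ → ℂ := fun w => A w / B w with hg
  refine ⟨toMeromorphicNFOn g U, ?_, ?_⟩
  · -- analytic at every point
    intro z hz
    have hNF : MeromorphicNFAt (toMeromorphicNFOn g U) z :=
      (meromorphicNFOn_toMeromorphicNFOn g U) hz
    have hord : 0 ≤ meromorphicOrderAt (toMeromorphicNFOn g U) z := by
      rw [meromorphicOrderAt_toMeromorphicNFOn hmer hz]
      by_contra hneg
      rw [not_le] at hneg
      have ht := tendsto_cobounded_of_meromorphicOrderAt_neg hneg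
      obtain ⟨C, hC⟩ := hbdd z hz
      have h2 : ∀ᶠ w in 𝓝[≠] z, C + 1 ≤ ‖g w‖ := by
        have := (tendsto_norm_cobounded_atTop.comp ht).eventually (eventually_ge_atTop (C + 1))
        exact this
      have hne : (𝓝[≠] z).NeBot := inferInstance
      obtain ⟨w, hw1, hw2⟩ := (hC.and h2).exists
      linarith
    exact (hNF.meromorphicOrderAt_nonneg_iff_analyticAt.mp hord).differentiableAt.differentiableWithinAt
  · intro z hz
    have hNF : MeromorphicNFAt (toMeromorphicNFOn g U) z :=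
      (meromorphicNFOn_toMeromorphicNFOn g U) hz
    have hord : 0 ≤ meromorphicOrderAt (toMeromorphicNFOn g U) z := by
      rw [meromorphicOrderAt_toMeromorphicNFOn hmer hz]
      by_contra hneg
      rw [not_le] at hneg
      have ht := tendsto_cobounded_of_meromorphicOrderAt_neg hneg
      obtain ⟨C, hC⟩ := hbdd z hz
      have h2 : ∀ᶠ w in 𝓝[≠] z, C + 1 ≤ ‖g w‖ := by
        have := (tendsto_norm_cobounded_atTop.comp ht).eventually (eventually_ge_atTop (C + 1))
        exact this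
      obtain ⟨w, hw1, hw2⟩ := (hC.and h2).exists
      linarith
    have hGan : AnalyticAt ℂ (toMeromorphicNFOn g U) z :=
      hNF.meromorphicOrderAt_nonneg_iff_analyticAt.mp hord
    have heq : toMeromorphicNFOn g U =ᶠ[𝓝[≠] z] g :=
      hmer.toMeromorphicNFOn_eq_self_on_nhdsNE hz
    have h1 : ∀ᶠ w in 𝓝[≠] z, toMeromorphicNFOn g U w * B w - A w = 0 := by
      filter_upwards [heq, hBne z hz] with w hw hBw
      rw [hw, hg]
      field_simp
      ring
    have hcont : ContinuousAt (fun w => toMeromorphicNFOn g U w * B w - A w) z :=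
      ((hGan.continuousAt).mul (hBan z hz).continuousAt).sub (hAan z hz).continuousAt
    have h2 : Tendsto (fun w => toMeromorphicNFOn g U w * B w - A w) (𝓝[≠] z)
        (𝓝 (toMeromorphicNFOn g U z * B z - A z)) :=
      hcont.tendsto.mono_left nhdsWithin_le_nhds
    have h3 : Tendsto (fun w => toMeromorphicNFOn g U w * B w - A w) (𝓝[≠] z) (𝓝 0) :=
      (tendsto_const_nhds).congr' (h1.mono fun w hw => hw.symm)
    have := tendsto_nhds_unique h2 h3
    exact sub_eq_zero.mp this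


/-- Integral quotients: if `A ^ n + ∑_{i<n} c i * A ^ i * B ^ (n - i) = 0` on the open set `U`
with `A`, `B` holomorphic, the `c i` continuous and `B` not locally zero, then `A / B` extends to a
holomorphic function on `U`. -/
theorem exists_differentiableOn_mul_eq_of_integral {U : Set ℂ} (hU : IsOpen U)
    {A B : ℂ → ℂ} (hA : DifferentiableOn ℂ A U) (hB : DifferentiableOn ℂ B U)
    (hBne : ∀ z ∈ U, ∀ᶠ w in 𝓝[≠] z, B w ≠ 0)
    {n : ℕ} (c : ℕ → ℂ → ℂ) (hc : ∀ i < n, ContinuousOn (c i) U)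
    (hrel : ∀ z ∈ U, A z ^ n + ∑ i ∈ Finset.range n, c i z * A z ^ i * B z ^ (n - i) = 0) :
    ∃ G : ℂ → ℂ, DifferentiableOn ℂ G U ∧ ∀ z ∈ U, G z * B z = A z := by
  refine exists_differentiableOn_mul_eq_of_bounded hU hA hB hBne fun z hz => ?_
  -- the coefficients are bounded near `z`
  have hcb : ∀ i < n, ∃ C, ∀ᶠ w in 𝓝[≠] z, ‖c i w‖ ≤ C := by
    intro i hi
    have hcont : ContinuousAt (c i) z := (hc i hi).continuousAt (hU.mem_nhds hz)
    refine ⟨‖c i z‖ + 1, ?_⟩
    have : ∀ᶠ w in 𝓝 z, ‖c i w‖ ≤ ‖c i z‖ + 1 :=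
      (hcont.norm.tendsto).eventually (eventually_le_nhds (lt_add_one _))
    exact this.filter_mono nhdsWithin_le_nhds
  have hmem : ∀ᶠ w in 𝓝[≠] z, w ∈ U :=
    (hU.mem_nhds hz : U ∈ 𝓝 z) |> fun h => Filter.Eventually.filter_mono nhdsWithin_le_nhds h
  refine isBoundedUnder_of_monic_root (n := n) c (fun w => A w / B w) ?_ hcb
  filter_upwards [hBne z hz, hmem] with w hBw hwU
  have h := hrel w hwU
  have hBn : B w ^ n ≠ 0 := pow_ne_zero _ hBw
  have h2 : (A w / B w) ^ n + ∑ i ∈ Finset.range n, c i w * (A w / B w) ^ i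
      = (A w ^ n + ∑ i ∈ Finset.range n, c i w * A w ^ i * B w ^ (n - i)) / B w ^ n := by
    rw [add_div, Finset.sum_div, div_pow]
    congr 1
    refine Finset.sum_congr rfl fun i hi => ?_
    have hi' : i ≤ n := (Finset.mem_range.mp hi).le
    rw [div_pow]
    have : B w ^ n = B w ^ i * B w ^ (n - i) := by rw [← pow_add]; congr 1; omega
    rw [this]
    have h1 : B w ^ i ≠ 0 := pow_ne_zero _ hBw
    have h3 : B w ^ (n - i) ≠ 0 := pow_ne_zero _ hBw
    field_simp
  rw [h2, h, zero_div]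

/-- On a preconnected open set, a holomorphic function which is not identically zero is
eventually nonzero in every punctured neighbourhood. -/
theorem eventually_ne_zero_of_preconnected {U : Set ℂ} (hU : IsOpen U) (hUc : IsPreconnected U)
    {B : ℂ → ℂ} (hB : DifferentiableOn ℂ B U) (hB0 : ∃ z ∈ U, B z ≠ 0) :
    ∀ z ∈ U, ∀ᶠ w in 𝓝[≠] z, B w ≠ 0 := by
  intro z hz
  have hBan : AnalyticOnNhd ℂ B U := hB.analyticOnNhd hU
  rcases (hBan z hz).eventually_eq_zero_or_eventually_ne_zero with h | h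
  · exfalso
    obtain ⟨z0, hz0, hne⟩ := hB0
    have := hBan.eqOn_zero_of_preconnected_of_eventuallyEq_zero hUc hz h
    exact hne (this hz0)
  · exact h


/-! ### Upper half plane versions -/

open UpperHalfPlane
open scoped Manifold

/-- Upper half plane version of `exists_differentiableOn_mul_eq_of_integral`: if `A`, `B`
are holomorphic on `ℍ`, `B ≠ 0`, and `A ^ n + ∑_{i<n} c i * A ^ i * B ^ (n - i) = 0` with continuous
`c i`, then there is a holomorphic `G` on `ℍ` with `G * B = A`. -/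
theorem exists_mdifferentiable_mul_eq_of_integral
    {A B : ℍ → ℂ} (hA : MDifferentiable 𝓘(ℂ) 𝓘(ℂ) A) (hB : MDifferentiable 𝓘(ℂ) 𝓘(ℂ) B)
    (hB0 : B ≠ 0)
    {n : ℕ} (c : ℕ → ℍ → ℂ) (hc : ∀ i < n, Continuous (c i))
    (hrel : ∀ z : ℍ, A z ^ n + ∑ i ∈ Finset.range n, c i z * A z ^ i * B z ^ (n - i) = 0) :
    ∃ G : ℍ → ℂ, MDifferentiable 𝓘(ℂ) 𝓘(ℂ) G ∧ ∀ z : ℍ, G z * B z = A z := by
  have hU : IsOpen {z : ℂ | 0 < z.im} := isOpen_upperHalfPlaneSet
  have hUc : IsPreconnected {z : ℂ | 0 < z.im} :=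
    (Complex.isConnected_of_upperHalfPlane subset_rfl (by grind)).isPreconnected
  have hA' := UpperHalfPlane.mdifferentiable_iff.mp hA
  have hB' := UpperHalfPlane.mdifferentiable_iff.mp hB
  have hB0' : ∃ z ∈ {z : ℂ | 0 < z.im}, (B ∘ ofComplex) z ≠ 0 := by
    obtain ⟨τ, hτ⟩ : ∃ τ : ℍ, B τ ≠ 0 := by
      by_contra hcon
      push Not at hcon
      exact hB0 (funext hcon)
    exact ⟨(τ : ℂ), τ.im_pos, by simpa [Function.comp_apply, ofComplex_apply] using hτ⟩
  have hBne := eventually_ne_zero_of_preconnected hU hUc hB' hB0'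
  have hc' : ∀ i < n, ContinuousOn (c i ∘ ofComplex) {z : ℂ | 0 < z.im} := by
    intro i hi z hz
    have h1 : ContinuousAt ofComplex z :=
      (UpperHalfPlane.mdifferentiableAt_ofComplex hz).continuousAt
    exact ((hc i hi).continuousAt.comp h1).continuousWithinAt
  obtain ⟨G, hG, hGeq⟩ := exists_differentiableOn_mul_eq_of_integral hU hA' hB' hBne
    (fun i => c i ∘ ofComplex) hc' (by
      intro z hz
      have := hrel ⟨z, hz⟩
      simpa [Function.comp_apply, ofComplex_apply_of_im_pos hz] using this)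
  refine ⟨fun τ => G (τ : ℂ), ?_, ?_⟩
  · rw [UpperHalfPlane.mdifferentiable_iff]
    refine hG.congr ?_
    intro z hz
    simp [Function.comp_apply, ofComplex_apply_of_im_pos hz]
  · intro τ
    have := hGeq (τ : ℂ) τ.im_pos
    simpa [Function.comp_apply, ofComplex_apply] using this


/-- Roots of monic polynomials with coefficients bounded at `i∞` are bounded at `i∞`. -/
theorem isBoundedAtImInfty_of_monic_root {n : ℕ} (c : ℕ → ℍ → ℂ) (g : ℍ → ℂ)
    (h : ∀ z : ℍ, g z ^ n + ∑ i ∈ Finset.range n, c i z * g z ^ i = 0)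
    (hc : ∀ i < n, IsBoundedAtImInfty (c i)) : IsBoundedAtImInfty g := by
  have hc' : ∀ i < n, ∃ C, ∀ᶠ t in atImInfty, ‖c i t‖ ≤ C := by
    intro i hi
    have := hc i hi
    rw [IsBoundedAtImInfty, BoundedAtFilter, Asymptotics.isBigO_iff] at this
    obtain ⟨C, hC⟩ := this
    exact ⟨C, hC.mono fun t ht => by simpa using ht⟩
  obtain ⟨C, hC⟩ := isBoundedUnder_of_monic_root (l := atImInfty) c g (Eventually.of_forall h) hc'
  rw [IsBoundedAtImInfty, BoundedAtFilter, Asymptotics.isBigO_iff]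
  exact ⟨C, hC.mono fun t ht => by simpa using ht⟩

/-- Roots of monic polynomials whose lower coefficients vanish at `i∞` vanish at `i∞`. -/
theorem isZeroAtImInfty_of_monic_root {n : ℕ} (hn : 0 < n) (c : ℕ → ℍ → ℂ) (g : ℍ → ℂ)
    (h : ∀ z : ℍ, g z ^ n + ∑ i ∈ Finset.range n, c i z * g z ^ i = 0)
    (hc : ∀ i < n, IsZeroAtImInfty (c i)) : IsZeroAtImInfty g :=
  tendsto_zero_of_monic_root (l := atImInfty) hn c g (Eventually.of_forall h) hc

end Fermat.Agent.RatStr.H5
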