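import Mathlib

set_option autoImplicit false

/-!
# Lagrange-type interpolation identity (pure algebra)
-/

namespace Fermat.Agent.RatStr

open Polynomial Finset

set_option linter.unusedSectionVars false

variable {K ι : Type*} [Field K] [Fintype ι] [DecidableEq ι]

/-- the polynomial with roots `x i`. -/
noncomputable def rootPoly (x : ι → K) : K[X] := ∏ i, (X - C (x i))

theorem rootPoly_natDegree (x : ι → K) : (rootPoly x).natDegree = Fintype.card ι := by
  unfold rootPoly
  rw [natDegree_finsetProd_X_sub_C_eq_card]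
  rfl

theorem rootPoly_coeff (x : ι → K) {j : ℕ} (hj : j ≤ Fintype.card ι) :
    (rootPoly x).coeff j =
      (-1) ^ (Fintype.card ι - j) *
        ∑ t ∈ (univ : Finset ι).powersetCard (Fintype.card ι - j), ∏ i ∈ t, x i := by
  unfold rootPoly
  have h1 : ∏ i : ι, (X - C (x i)) = ∏ i ∈ (univ : Finset ι), (X + C (- x i)) := by
    refine prod_congr rfl fun i _ => ?_
    rw [map_neg, sub_eq_add_neg]
  rw [h1, Finset.prod_X_add_C_coeff _ _ (by simpa using hj), mul_sum]
  refine sum_congr (by simp) fun t ht => ?_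
  rw [mem_powersetCard] at ht
  rw [prod_neg, ht.2]

theorem rootPoly_eval_self (x : ι → K) (i₀ : ι) : (rootPoly x).eval (x i₀) = 0 := by
  unfold rootPoly
  rw [eval_prod]
  exact prod_eq_zero (mem_univ i₀) (by simp)

/-- the polynomial with roots `x i`, `i ≠ i₀`. -/
noncomputable def rootPolyErase (x : ι → K) (i₀ : ι) : K[X] :=
  ∏ i ∈ univ.erase i₀, (X - C (x i))

theorem rootPoly_eq_mul (x : ι → K) (i₀ : ι) :
    rootPoly x = (X - C (x i₀)) * rootPolyErase x i₀ := by
  unfold rootPoly rootPolyErase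
  exact (mul_prod_erase univ (fun i => X - C (x i)) (mem_univ i₀)).symm

theorem rootPolyErase_eq_div (x : ι → K) (i₀ : ι) :
    rootPolyErase x i₀ = rootPoly x /ₘ (X - C (x i₀)) := by
  rw [rootPoly_eq_mul x i₀, mul_divByMonic_cancel_left _ (monic_X_sub_C _)]

theorem rootPolyErase_natDegree_lt (x : ι → K) (i₀ : ι) :
    (rootPolyErase x i₀).natDegree < Fintype.card ι := by
  unfold rootPolyErase
  rw [natDegree_finsetProd_X_sub_C_eq_card, card_erase_of_mem (mem_univ i₀)]
  exact Nat.sub_lt (Fintype.card_pos_iff.mpr ⟨i₀⟩) one_pos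

theorem rootPolyErase_coeff (x : ι → K) (i₀ : ι) (r : ℕ) :
    (rootPolyErase x i₀).coeff r =
      ∑ j ∈ Icc (r + 1) (Fintype.card ι), (x i₀) ^ (j - (r + 1)) * (rootPoly x).coeff j := by
  rw [rootPolyErase_eq_div, coeff_divByMonic_X_sub_C, rootPoly_natDegree]

theorem rootPolyErase_eval_of_ne (x : ι → K) {i i₀ : ι} (h : i ≠ i₀) :
    (rootPolyErase x i).eval (x i₀) = 0 := by
  unfold rootPolyErase
  rw [eval_prod]
  exact prod_eq_zero (mem_erase.mpr ⟨h.symm, mem_univ i₀⟩) (by simp)

theorem rootPolyErase_eval_self (x : ι → K) (i₀ : ι) :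
    (rootPolyErase x i₀).eval (x i₀) = ∏ i ∈ univ.erase i₀, (x i₀ - x i) := by
  unfold rootPolyErase
  rw [eval_prod]
  simp

/-- **Lagrange interpolation identity.** -/
theorem lagrange_identity (x y : ι → K) (i₀ : ι) :
    y i₀ * ∏ i ∈ univ.erase i₀, (x i₀ - x i) =
      ∑ r ∈ range (Fintype.card ι), (x i₀) ^ r *
        ∑ j ∈ Icc (r + 1) (Fintype.card ι),
          (rootPoly x).coeff j * ∑ i, y i * (x i) ^ (j - (r + 1)) := by
  have h1 : ∑ i, y i * (rootPolyErase x i).eval (x i₀) =
      y i₀ * ∏ i ∈ univ.erase i₀, (x i₀ - x i) := by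
    rw [sum_eq_single i₀ (fun i _ hi => by rw [rootPolyErase_eval_of_ne x hi, mul_zero])
      (fun h => absurd (mem_univ i₀) h), rootPolyErase_eval_self]
  rw [← h1]
  have h2 : ∀ i, (rootPolyErase x i).eval (x i₀) =
      ∑ r ∈ range (Fintype.card ι), (x i₀) ^ r *
        ∑ j ∈ Icc (r + 1) (Fintype.card ι), (rootPoly x).coeff j * (x i) ^ (j - (r + 1)) := by
    intro i
    rw [eval_eq_sum_range' (rootPolyErase_natDegree_lt x i)]
    refine sum_congr rfl fun r _ => ?_
    rw [rootPolyErase_coeff, mul_comm]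
    congr 1
    refine sum_congr rfl fun j _ => ?_
    ring
  simp_rw [h2, mul_sum]
  rw [sum_comm]
  refine sum_congr rfl fun r _ => ?_
  rw [sum_comm]
  refine sum_congr rfl fun j _ => ?_
  refine sum_congr rfl fun i _ => ?_
  ring

/-- special case `y = indicator of i₀`. -/
theorem prod_erase_eq (x : ι → K) (i₀ : ι) :
    ∏ i ∈ univ.erase i₀, (x i₀ - x i) =
      ∑ r ∈ range (Fintype.card ι), (x i₀) ^ r *
        ∑ j ∈ Icc (r + 1) (Fintype.card ι),
          (rootPoly x).coeff j * (x i₀) ^ (j - (r + 1)) := by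
  have := lagrange_identity x (fun i => if i = i₀ then 1 else 0) i₀
  simpa using this

/-- `y i₀` is a root of the polynomial with roots `y i`, expanded. -/
theorem rootPoly_relation (y : ι → K) (i₀ : ι) :
    ∑ j ∈ range (Fintype.card ι + 1), (rootPoly y).coeff j * (y i₀) ^ j = 0 := by
  have h := rootPoly_eval_self y i₀
  rwa [eval_eq_sum_range' (n := Fintype.card ι + 1)
    (by rw [rootPoly_natDegree]; exact Nat.lt_succ_self _)] at h

end Fermat.Agent.RatStr
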