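import Mathlib

set_option autoImplicit false

/-!
# Decomposition `diag(N,1) * γ = δ * [[a,b],[0,d]]`
-/

namespace Fermat.Agent.RatStr

open scoped MatrixGroups

/-- For `γ ∈ SL(2,ℤ)` and `N > 0` there are `δ ∈ SL(2,ℤ)` and an upper triangular integer matrix
`[[a, b], [0, d]]` with `a, d > 0`, `a * d = N` and `diag(N, 1) * γ = δ * [[a, b], [0, d]]`. -/
theorem exists_decomp (N : ℕ) (hN : 0 < N) (γ : SL(2, ℤ)) :
    ∃ (δ : SL(2, ℤ)) (a b d : ℤ), 0 < a ∧ 0 < d ∧ a * d = N ∧ (d = 1 → (N : ℤ) ∣ γ 1 0) ∧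
      (N : ℤ) * γ 0 0 = δ 0 0 * a ∧ (N : ℤ) * γ 0 1 = δ 0 0 * b + δ 0 1 * d ∧
      γ 1 0 = δ 1 0 * a ∧ γ 1 1 = δ 1 0 * b + δ 1 1 * d := by
  have hdet : γ 0 0 * γ 1 1 - γ 0 1 * γ 1 0 = 1 := by
    have := γ.det_coe
    rwa [Matrix.det_fin_two] at this
  set A := γ 0 0
  set B := γ 0 1
  set C := γ 1 0
  set D := γ 1 1
  have hg0 : 0 < Int.gcd ((N : ℤ) * A) C := by
    rw [Nat.pos_iff_ne_zero, Ne, Int.gcd_eq_zero_iff]
    rintro ⟨h1, h2⟩
    have hA : A = 0 := by
      rcases mul_eq_zero.mp h1 with h | h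
      · exact absurd (by exact_mod_cast h) hN.ne'
      · exact h
    rw [hA, h2] at hdet
    simp at hdet
  obtain ⟨g, p, r, hg, hpr, hp, hr⟩ := Int.exists_gcd_one' hg0
  have hcop : IsCoprime p r := Int.isCoprime_iff_gcd_eq_one.mpr hpr
  obtain ⟨x, y, hxy⟩ := hcop
  have hgz : (0 : ℤ) < g := by exact_mod_cast hg
  refine ⟨⟨!![p, -y; r, x], by rw [Matrix.det_fin_two_of]; linarith⟩, g,
    x * N * B + y * D, -r * N * B + p * D, hgz, ?_, ?_, ?_, ?_, ?_, ?_, ?_⟩
  · -- d > 0
    have h1 : (g : ℤ) * (-r * N * B + p * D) = N := by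
      have : (g : ℤ) * (-r * N * B + p * D) = -(r * g) * N * B + (p * g) * D := by ring
      rw [this, ← hp, ← hr]
      linear_combination (N : ℤ) * hdet
    have hNz : (0 : ℤ) < N := by exact_mod_cast hN
    by_contra hneg
    push Not at hneg
    have : (g : ℤ) * (-r * N * B + p * D) ≤ 0 := mul_nonpos_of_nonneg_of_nonpos hgz.le hneg
    linarith
  · have : (g : ℤ) * (-r * N * B + p * D) = -(r * g) * N * B + (p * g) * D := by ring
    rw [this, ← hp, ← hr]
    linear_combination (N : ℤ) * hdet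
  · intro hd
    have h1 : (g : ℤ) * (-r * N * B + p * D) = N := by
      have : (g : ℤ) * (-r * N * B + p * D) = -(r * g) * N * B + (p * g) * D := by ring
      rw [this, ← hp, ← hr]
      linear_combination (N : ℤ) * hdet
    rw [hd, mul_one] at h1
    exact ⟨r, by rw [hr, h1]; ring⟩
  · simp only [Matrix.of_apply, Matrix.cons_val', Matrix.cons_val_zero,
      Matrix.cons_val_fin_one]
    exact hp
  · simp only [Matrix.of_apply, Matrix.cons_val', Matrix.cons_val_zero,
      Matrix.cons_val_fin_one, Matrix.cons_val_one]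
    linear_combination (-(N : ℤ) * B) * hxy
  · simp only [Matrix.of_apply, Matrix.cons_val', Matrix.cons_val_zero,
      Matrix.cons_val_fin_one, Matrix.cons_val_one]
    exact hr
  · simp only [Matrix.of_apply, Matrix.cons_val', Matrix.cons_val_zero,
      Matrix.cons_val_fin_one, Matrix.cons_val_one]
    linear_combination (-D) * hxy

end Fermat.Agent.RatStr
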