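import Fermat.Agent.RatStr.Structure
import Fermat.Agent.RatStr.ConjPair

set_option autoImplicit false

/-!
# The polynomial expressions `A`, `B` in `u` with level one coefficients
-/

namespace Fermat.Agent.RatStr

open UpperHalfPlane ModularForm Filter
open scoped MatrixGroups ModularForm Manifold Topology

noncomputable section

/-- `Σ_r u^r S_r`. -/
def polyA (n : ℕ) (u : ℍ → ℂ) (S : ℕ → ℍ → ℂ) : ℍ → ℂ :=
  ∑ r ∈ Finset.range n, u ^ r * S r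

/-- `Σ_r u^r Σ_{j>r} c_j u^(j-r-1)`. -/
def polyB (n : ℕ) (u : ℍ → ℂ) (c : ℕ → ℍ → ℂ) : ℍ → ℂ :=
  ∑ r ∈ Finset.range n, u ^ r * ∑ j ∈ Finset.Icc (r + 1) n, c j * u ^ (j - (r + 1))

/-- `Σ_{j ≤ n} c_j X^j Y^(n-j)`. -/
def polyRel (n : ℕ) (c : ℕ → ℍ → ℂ) (X Y : ℍ → ℂ) : ℍ → ℂ :=
  ∑ j ∈ Finset.range (n + 1), c j * X ^ j * Y ^ (n - j)

theorem Apoly_eq_polyA (H : Subgroup SL(2, ℤ)) [H.FiniteIndex] (k w : ℤ) (f u : ℍ → ℂ) :
    Apoly H k w f u = polyA (idx H) u (Scoeff H k w f u) := rfl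

theorem Bpoly_eq_polyB (H : Subgroup SL(2, ℤ)) [H.FiniteIndex] (w : ℤ) (u : ℍ → ℂ) :
    Bpoly H w u = polyB (idx H) u (charCoeff H w u) := rfl

variable {H : Subgroup SL(2, ℤ)} {k w : ℤ} {u : ℍ → ℂ} {n : ℕ}

theorem polyA_isMF (hu : IsMF H w u) {S : ℕ → ℍ → ℂ}
    (hS : ∀ r < n, IsMF ⊤ (k + ((n - 1 - r : ℕ) : ℤ) * w) (S r)) :
    IsMF H (k + ((n - 1 : ℕ) : ℤ) * w) (polyA n u S) := by
  unfold polyA
  refine IsMF.sum _ _ fun r hr => ?_
  rw [Finset.mem_range] at hr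
  refine ((hu.pow r).mul ((hS r hr).mono le_top)).weight_cast ?_
  have h1 : ((n - 1 - r : ℕ) : ℤ) = (n : ℤ) - 1 - r := by
    rw [Nat.cast_sub (by omega), Nat.cast_sub (by omega)]; push_cast; ring
  have h2 : ((n - 1 : ℕ) : ℤ) = (n : ℤ) - 1 := by
    rw [Nat.cast_sub (by omega)]; push_cast; ring
  rw [h1, h2]
  ring

theorem polyB_isMF (hu : IsMF H w u) {c : ℕ → ℍ → ℂ}
    (hc : ∀ j, IsMF ⊤ (((n - j : ℕ) : ℤ) * w) (c j)) :
    IsMF H (((n - 1 : ℕ) : ℤ) * w) (polyB n u c) := by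
  unfold polyB
  refine IsMF.sum _ _ fun r hr => ?_
  rw [Finset.mem_range] at hr
  have h2 : ((n - 1 : ℕ) : ℤ) = (n : ℤ) - 1 := by
    rw [Nat.cast_sub (by omega)]; push_cast; ring
  have hin : IsMF H (((n - 1 - r : ℕ) : ℤ) * w)
      (∑ j ∈ Finset.Icc (r + 1) n, c j * u ^ (j - (r + 1))) := by
    refine IsMF.sum _ _ fun j hj => ?_
    rw [Finset.mem_Icc] at hj
    refine (((hc j).mono le_top).mul (hu.pow (j - (r + 1)))).weight_cast ?_
    have h1 : ((n - j : ℕ) : ℤ) = (n : ℤ) - j := by rw [Nat.cast_sub hj.2]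
    have h3 : ((j - (r + 1) : ℕ) : ℤ) = (j : ℤ) - (r + 1) := by
      rw [Nat.cast_sub hj.1]; push_cast; ring
    have h4 : ((n - 1 - r : ℕ) : ℤ) = (n : ℤ) - 1 - r := by
      rw [Nat.cast_sub (by omega), Nat.cast_sub (by omega)]; push_cast; ring
    rw [h1, h3, h4]
    ring
  refine ((hu.pow r).mul hin).weight_cast ?_
  have h4 : ((n - 1 - r : ℕ) : ℤ) = (n : ℤ) - 1 - r := by
    rw [Nat.cast_sub (by omega), Nat.cast_sub (by omega)]; push_cast; ring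
  rw [h4, h2]
  ring

variable {R : Type*} [CommRing R] {ι φ : R →+* ℂ} {u' : ℍ → ℂ}

theorem polyA_conj (hu : IsConjPair ι φ u u') {S S' : ℕ → ℍ → ℂ}
    (hS : ∀ r, IsConjPair ι φ (S r) (S' r)) :
    IsConjPair ι φ (polyA n u S) (polyA n u' S') := by
  unfold polyA
  exact IsConjPair.sum _ _ _ fun r _ => (hu.pow r).mul (hS r)

theorem polyB_conj (hu : IsConjPair ι φ u u') {c c' : ℕ → ℍ → ℂ}
    (hc : ∀ j, IsConjPair ι φ (c j) (c' j)) :
    IsConjPair ι φ (polyB n u c) (polyB n u' c') := by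
  unfold polyB
  exact IsConjPair.sum _ _ _ fun r _ => (hu.pow r).mul
    (IsConjPair.sum _ _ _ fun j _ => (hc j).mul (hu.pow _))

theorem polyRel_conj {c c' : ℕ → ℍ → ℂ} (hc : ∀ j, IsConjPair ι φ (c j) (c' j))
    {X X' Y Y' : ℍ → ℂ} (hX : IsConjPair ι φ X X') (hY : IsConjPair ι φ Y Y') :
    IsConjPair ι φ (polyRel n c X Y) (polyRel n c' X' Y') := by
  unfold polyRel
  exact IsConjPair.sum _ _ _ fun j _ => ((hc j).mul (hX.pow j)).mul (hY.pow _)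

/-- from `f * B = A` and the relation for `f`, a relation between `A` and `B`. -/
theorem polyRel_eq_zero {c : ℕ → ℍ → ℂ} {f A B : ℍ → ℂ} (hAB : f * B = A)
    (hrel : ∑ j ∈ Finset.range (n + 1), c j * f ^ j = 0) : polyRel n c A B = 0 := by
  unfold polyRel
  have h1 : ∀ j ∈ Finset.range (n + 1), c j * A ^ j * B ^ (n - j) = (c j * f ^ j) * B ^ n := by
    intro j hj
    rw [Finset.mem_range] at hj
    have : B ^ n = B ^ j * B ^ (n - j) := by rw [← pow_add]; congr 1; omega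
    rw [← hAB, mul_pow, this]
    ring
  rw [Finset.sum_congr rfl h1, ← Finset.sum_mul, hrel, zero_mul]

end

end Fermat.Agent.RatStr
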