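import Fermat.Agent.RatStr.Conjugates
import Fermat.Agent.RatStr.Lagrange

set_option autoImplicit false

/-!
# `f = A / B` with `A`, `B` polynomial in `u` over level one forms
-/

namespace Fermat.Agent.RatStr

open UpperHalfPlane ModularForm Filter Polynomial
open scoped MatrixGroups ModularForm Manifold Topology

noncomputable section

variable (H : Subgroup SL(2, ℤ)) [H.FiniteIndex]

/-- the index. -/
def idx : ℕ := Fintype.card (SL(2, ℤ) ⧸ H)

/-- coefficient functions of the characteristic polynomial of `F`. -/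
def charCoeff (k : ℤ) (F : ℍ → ℂ) (j : ℕ) : ℍ → ℂ :=
  ((-1 : ℂ) ^ (idx H - j)) • esymmFn H k F (idx H - j)

/-- the level one coefficients `S_r`. -/
def Scoeff (k w : ℤ) (f u : ℍ → ℂ) (r : ℕ) : ℍ → ℂ :=
  ∑ j ∈ Finset.Icc (r + 1) (idx H), charCoeff H w u j * trFn H k w f u (j - (r + 1))

/-- the numerator `A`. -/
def Apoly (k w : ℤ) (f u : ℍ → ℂ) : ℍ → ℂ :=
  ∑ r ∈ Finset.range (idx H), u ^ r * Scoeff H k w f u r

/-- the denominator `B`. -/
def Bpoly (w : ℤ) (u : ℍ → ℂ) : ℍ → ℂ :=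
  ∑ r ∈ Finset.range (idx H), u ^ r *
    ∑ j ∈ Finset.Icc (r + 1) (idx H), charCoeff H w u j * u ^ (j - (r + 1))

variable {H} {k w : ℤ} {f u : ℍ → ℂ}

theorem esymmFn_apply (k : ℤ) (F : ℍ → ℂ) (i : ℕ) (z : ℍ) :
    esymmFn H k F i z =
      ∑ t ∈ (Finset.univ : Finset (SL(2, ℤ) ⧸ H)).powersetCard i, ∏ q ∈ t, cj H k F q z := by
  unfold esymmFn
  rw [Finset.sum_apply]
  refine Finset.sum_congr rfl fun t _ => ?_
  rw [Finset.prod_apply]

theorem charCoeff_apply (k : ℤ) (F : ℍ → ℂ) {j : ℕ} (hj : j ≤ idx H) (z : ℍ) :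
    charCoeff H k F j z = (rootPoly (fun q => cj H k F q z)).coeff j := by
  classical
  rw [rootPoly_coeff _ hj]
  unfold charCoeff
  rw [Pi.smul_apply, esymmFn_apply, smul_eq_mul]
  rfl

theorem charCoeff_idx (k : ℤ) (F : ℍ → ℂ) : charCoeff H k F (idx H) = 1 := by
  ext z
  unfold charCoeff
  rw [Nat.sub_self, pow_zero, one_smul, esymmFn_apply]
  simp

theorem trFn_apply (k w : ℤ) (f u : ℍ → ℂ) (m : ℕ) (z : ℍ) :
    trFn H k w f u m z = ∑ q : SL(2, ℤ) ⧸ H, cj H k f q z * (cj H w u q z) ^ m := by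
  unfold trFn
  rw [Finset.sum_apply]
  rfl

open scoped Classical in
theorem Bpoly_apply (hu : ∀ γ ∈ H, u ∣[w] γ = u) (z : ℍ) :
    Bpoly H w u z = ∏ q ∈ (Finset.univ : Finset (SL(2, ℤ) ⧸ H)).erase ((1 : SL(2, ℤ)) : SL(2, ℤ) ⧸ H),
      (u z - cj H w u q z) := by
  classical
  have h1 := prod_erase_eq (fun q => cj H w u q z) (((1 : SL(2, ℤ)) : SL(2, ℤ) ⧸ H))
  simp only [cj_one hu] at h1
  rw [h1]
  unfold Bpoly
  rw [Finset.sum_apply]
  refine Finset.sum_congr rfl fun r _ => ?_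
  rw [Pi.mul_apply, Pi.pow_apply, Finset.sum_apply]
  congr 1
  refine Finset.sum_congr rfl fun j hj => ?_
  rw [Pi.mul_apply, Pi.pow_apply, charCoeff_apply _ _ (Finset.mem_Icc.mp hj).2]

/-- `f * B = A`. -/
theorem mul_Bpoly_eq_Apoly (hf : ∀ γ ∈ H, f ∣[k] γ = f) (hu : ∀ γ ∈ H, u ∣[w] γ = u) :
    f * Bpoly H w u = Apoly H k w f u := by
  classical
  ext z
  rw [Pi.mul_apply, Bpoly_apply hu]
  have h1 := lagrange_identity (fun q => cj H w u q z) (fun q => cj H k f q z)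
    (((1 : SL(2, ℤ)) : SL(2, ℤ) ⧸ H))
  simp only [cj_one hu, cj_one hf] at h1
  rw [h1]
  unfold Apoly
  rw [Finset.sum_apply]
  refine Finset.sum_congr rfl fun r _ => ?_
  rw [Pi.mul_apply, Pi.pow_apply]
  congr 1
  unfold Scoeff
  rw [Finset.sum_apply]
  refine Finset.sum_congr rfl fun j hj => ?_
  rw [Pi.mul_apply, charCoeff_apply _ _ (Finset.mem_Icc.mp hj).2, trFn_apply]

/-- `f` is a root of its characteristic polynomial. -/
theorem charCoeff_relation (hf : ∀ γ ∈ H, f ∣[k] γ = f) :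
    ∑ j ∈ Finset.range (idx H + 1), charCoeff H k f j * f ^ j = 0 := by
  classical
  ext z
  have h1 := rootPoly_relation (fun q => cj H k f q z) (((1 : SL(2, ℤ)) : SL(2, ℤ) ⧸ H))
  simp only [cj_one hf] at h1
  rw [Finset.sum_apply, Pi.zero_apply, ← h1]
  refine Finset.sum_congr rfl fun j hj => ?_
  rw [Pi.mul_apply, Pi.pow_apply,
    charCoeff_apply _ _ (Nat.lt_succ_iff.mp (Finset.mem_range.mp hj))]

theorem charCoeff_isMF (hF : IsMF H k f) (j : ℕ) :
    IsMF ⊤ (((idx H - j : ℕ) : ℤ) * k) (charCoeff H k f j) :=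
  (esymmFn_isMF hF _).smul _

theorem charCoeff_zero_at (hF : IsCF H k f) {j : ℕ} (hj : j < idx H) :
    IsZeroAtImInfty (charCoeff H k f j) := by
  have h := (esymmFn_isCF hF (i := idx H - j) (by omega)).zero 1
  rw [SlashAction.slash_one] at h
  unfold charCoeff
  exact h.smul _

theorem Scoeff_isMF (hf : IsMF H k f) (hu : IsMF H w u) {r : ℕ} (hr : r < idx H) :
    IsMF ⊤ (k + ((idx H - 1 - r : ℕ) : ℤ) * w) (Scoeff H k w f u r) := by
  unfold Scoeff
  refine IsMF.sum _ _ fun j hj => ?_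
  rw [Finset.mem_Icc] at hj
  refine ((charCoeff_isMF hu j).mul (trFn_isMF hf hu (j - (r + 1)))).weight_cast ?_
  have h1 : ((idx H - j : ℕ) : ℤ) = (idx H : ℤ) - j := by
    rw [Nat.cast_sub hj.2]
  have h2 : ((j - (r + 1) : ℕ) : ℤ) = (j : ℤ) - (r + 1) := by
    rw [Nat.cast_sub hj.1]; push_cast; ring
  have h3 : ((idx H - 1 - r : ℕ) : ℤ) = (idx H : ℤ) - 1 - r := by
    rw [Nat.cast_sub (by omega), Nat.cast_sub (by omega)]; push_cast; ring
  rw [h1, h2, h3]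
  ring

end

end Fermat.Agent.RatStr
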