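import Fermat.Agent.RatStr.DeltaN

set_option autoImplicit false

/-!
# Asymptotics of `Δ(z)^N / Δ(βz)` at `i∞`
-/

namespace Fermat.Agent.RatStr

open UpperHalfPlane ModularForm Filter Function
open scoped MatrixGroups ModularForm Manifold Topology Real

noncomputable section

local notation "Δ" => ModularForm.discriminant
local notation "𝕢" => Periodic.qParam

/-- the product factor of `Δ`. -/
def Pfac (z : ℍ) : ℂ := ∏' n, (1 - eta_q n z) ^ 24

theorem discriminant_eq_q_mul_Pfac (z : ℍ) : Δ z = 𝕢 1 z * Pfac z := discriminant_eq_q_prod z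

theorem Pfac_tendsto : Tendsto Pfac atImInfty (𝓝 1) :=
  tendsto_atImInfty_tprod_one_sub_eta_q_pow

theorem qParam_ne_zero (z : ℂ) : 𝕢 1 z ≠ 0 := by
  unfold Periodic.qParam
  exact Complex.exp_ne_zero _

theorem Pfac_ne_zero (z : ℍ) : Pfac z ≠ 0 := by
  intro h
  have := discriminant_ne_zero z
  rw [discriminant_eq_q_mul_Pfac, h, mul_zero] at this
  exact this rfl

variable {a b d : ℝ} (ha : 0 < a) (hd : 0 < d) (N : ℕ)

/-- the ratio `Δ(z)^N / Δ(βz)`. -/
def Rfun (z : ℍ) : ℂ := Δ z ^ N / Δ (utGL a b d ha hd • z)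

/-- exponential part. -/
def Efun (z : ℍ) : ℂ := 𝕢 1 z ^ N / 𝕢 1 (utGL a b d ha hd • z : ℍ)

/-- product part. -/
def Qfun (z : ℍ) : ℂ := Pfac z ^ N / Pfac (utGL a b d ha hd • z)

theorem Rfun_eq (z : ℍ) : Rfun ha hd (b := b) N z = Efun ha hd (b := b) N z * Qfun ha hd (b := b) N z := by
  unfold Rfun Efun Qfun
  rw [discriminant_eq_q_mul_Pfac, discriminant_eq_q_mul_Pfac, mul_pow]
  have h1 := qParam_ne_zero ((utGL a b d ha hd • z : ℍ) : ℂ)
  have h2 := Pfac_ne_zero (utGL a b d ha hd • z)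
  field_simp

theorem Qfun_tendsto : Tendsto (Qfun ha hd (b := b) N) atImInfty (𝓝 1) := by
  have h1 : Tendsto (fun z : ℍ => Pfac z ^ N) atImInfty (𝓝 (1 ^ N)) := Pfac_tendsto.pow N
  have h2 : Tendsto (fun z : ℍ => Pfac (utGL a b d ha hd • z)) atImInfty (𝓝 1) :=
    Pfac_tendsto.comp (tendsto_utGL_smul_atImInfty ha hd)
  have := h1.div h2 one_ne_zero
  rw [one_pow, div_one] at this
  exact this

theorem norm_Efun (z : ℍ) :
    ‖Efun ha hd (b := b) N z‖ = Real.exp (-(2 * π * (N - a / d)) * z.im) := by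
  unfold Efun
  rw [norm_div, norm_pow, Periodic.norm_qParam, Periodic.norm_qParam, ← Real.exp_nat_mul,
    ← Real.exp_sub]
  congr 1
  have : ((utGL a b d ha hd • z : ℍ) : ℂ).im = a / d * z.im := im_utGL_smul ha hd z
  rw [this]
  have : (z : ℂ).im = z.im := rfl
  rw [this]
  ring

theorem Efun_bdd (h : a / d ≤ N) : IsBoundedAtImInfty (Efun ha hd (b := b) N) := by
  refine Asymptotics.IsBigO.of_bound 1 (Eventually.of_forall fun z => ?_)
  rw [norm_Efun]
  simp only [Pi.one_apply, norm_one, mul_one]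
  rw [Real.exp_le_one_iff]
  have : 0 ≤ (2 * π * (N - a / d)) * z.im :=
    mul_nonneg (mul_nonneg (by positivity) (by linarith)) z.im_pos.le
  linarith

theorem Efun_zero (h : a / d < N) : IsZeroAtImInfty (Efun ha hd (b := b) N) := by
  unfold IsZeroAtImInfty ZeroAtFilter
  rw [tendsto_zero_iff_norm_tendsto_zero]
  simp_rw [norm_Efun]
  have hc : 0 < 2 * π * (N - a / d) := mul_pos (by positivity) (by linarith)
  have h1 : Tendsto (fun z : ℍ => z.im) atImInfty atTop := tendsto_comap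
  have h2 : Tendsto (fun y : ℝ => Real.exp (-(2 * π * (N - a / d)) * y)) atTop (𝓝 0) := by
    have : Tendsto (fun y : ℝ => -(2 * π * (N - a / d)) * y) atTop atBot := by
      simp_rw [neg_mul]
      exact tendsto_neg_atTop_atBot.comp (tendsto_id.const_mul_atTop hc)
    exact Real.tendsto_exp_atBot.comp this
  exact h2.comp h1

theorem Rfun_bdd (h : a / d ≤ N) : IsBoundedAtImInfty (Rfun ha hd (b := b) N) := by
  have h1 : Rfun ha hd (b := b) N = Efun ha hd (b := b) N * Qfun ha hd (b := b) N := by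
    ext z; exact Rfun_eq ha hd N z
  rw [h1]
  exact (Efun_bdd ha hd N h).mul ((Qfun_tendsto ha hd N).isBigO_one ℝ)

theorem Rfun_zero (h : a / d < N) : IsZeroAtImInfty (Rfun ha hd (b := b) N) := by
  have h1 : Rfun ha hd (b := b) N = Efun ha hd (b := b) N * Qfun ha hd (b := b) N := by
    ext z; exact Rfun_eq ha hd N z
  rw [h1]
  exact ZeroAtFilter.mul_boundedAtFilter (Efun_zero ha hd N h)
    ((Qfun_tendsto ha hd N).isBigO_one ℝ)

end

end Fermat.Agent.RatStr
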